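import Fermat.Agent.BAD.Core.NodeAlgebra
import Fermat.Prelude.Def_AlgebraicCurve_BaseChangeGalois

/-!
# Rational functions over a discretely valued subfield of the constants
-/

set_option autoImplicit false

noncomputable section

open AlgebraicCurve Fermat.Agent.RED

namespace Fermat.Agent.LLp

variable {L k : Type*} [Field L] [Field k] {A : ValuationSubring L} {π : A →+* k}
  {F C : Type*} [Field F] [Algebra L F] [Field C] [Algebra k C]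

/-- The fixed field of a group of semilinear symmetries inducing the identity on residues, whose
constants are discretely valued with uniformiser `ϖ`. -/
structure RatField (D : BAD.BadBase π F C) where
  gal : Subgroup (SemilinearAut L F)
  gal_mem : ∀ τ ∈ gal, ∀ (i : Fin 2) (f : F), f ∈ D.V i → τ • f ∈ D.V i
  gal_red : ∀ τ ∈ gal, ∀ (i : Fin 2) (f : F), f ∈ D.V i → D.red i (τ • f) = D.red i f
  FK : Subfield F
  mem_iff : ∀ x : F, x ∈ FK ↔ ∀ τ ∈ gal, τ • x = x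
  ϖ : L
  ϖ_mem : algebraMap L F ϖ ∈ FK
  ϖ_nonunit : ϖ ∈ A.nonunits
  ϖ_ne : ϖ ≠ 0
  exists_zpow : ∀ c : L, algebraMap L F c ∈ FK → c ≠ 0 →
    ∃ n : ℤ, A.valuation c = A.valuation ϖ ^ n
  torsion : ∀ c : L, c ≠ 0 → ∃ (N : ℕ) (j : ℤ), 0 < N ∧ A.valuation c ^ N = A.valuation ϖ ^ j
  res_surj : ∀ a : k, ∃ c : A, algebraMap L F (c : L) ∈ FK ∧ π c = a
  scale : ∀ (i : Fin 2), ∀ x ∈ FK, x ≠ 0 →
    ∃ c : L, algebraMap L F c ∈ FK ∧ c • x ∈ D.V i ∧ D.red i (c • x) ≠ 0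

namespace RatField

variable {D : BAD.BadBase π F C} (R : RatField D)

/-- The coordinate is rational and reductions lift to rational functions. -/
structure RatChart {u : F} {ubar : C} {d : ℕ} (h : BAD.Chart D u ubar d) : Prop where
  u_mem : u ∈ R.FK
  lift : ∀ p ∈ BAD.Chart.chartAlg D u, ∃ a ∈ R.FK, a ∈ coordRing L u ∧ a ∈ D.O ∧ D.red2 a = p

/-- `x` has exact value `n` on the branch `i`. -/
def HasOrd (i : Fin 2) (x : F) (n : ℤ) : Prop :=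
  (R.ϖ ^ n)⁻¹ • x ∈ D.V i ∧ D.red i ((R.ϖ ^ n)⁻¹ • x) ≠ 0

/-- The reduction of `x` scaled by its value. -/
def lred (i : Fin 2) (x : F) (n : ℤ) : C := D.red i ((R.ϖ ^ n)⁻¹ • x)

theorem ϖ_mem_A : R.ϖ ∈ A := A.nonunits_subset R.ϖ_nonunit

theorem π_ϖ : π ⟨R.ϖ, R.ϖ_mem_A⟩ = 0 := D.residue_eq_zero_of_nonunit _ R.ϖ_nonunit

theorem zpow_ne (n : ℤ) : R.ϖ ^ n ≠ 0 := zpow_ne_zero _ R.ϖ_ne

theorem zpow_mem (n : ℤ) : algebraMap L F (R.ϖ ^ n) ∈ R.FK := by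
  rw [map_zpow₀]
  exact _root_.zpow_mem R.ϖ_mem n

theorem smul_mem {c : L} (hc : algebraMap L F c ∈ R.FK) {x : F} (hx : x ∈ R.FK) :
    c • x ∈ R.FK := by
  rw [Algebra.smul_def]
  exact mul_mem hc hx

theorem zpow_smul_mem {x : F} (hx : x ∈ R.FK) (n : ℤ) : (R.ϖ ^ n)⁻¹ • x ∈ R.FK := by
  rw [← zpow_neg]
  exact R.smul_mem (R.zpow_mem _) hx

theorem valuation_ϖ_lt_one : A.valuation R.ϖ < 1 := R.ϖ_nonunit

theorem valuation_ϖ_pos : 0 < A.valuation R.ϖ := (Valuation.pos_iff _).mpr R.ϖ_ne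

theorem valuation_zpow_le_one_iff (n : ℤ) : A.valuation R.ϖ ^ n ≤ 1 ↔ 0 ≤ n := by
  rw [← zpow_zero (A.valuation R.ϖ),
    zpow_le_zpow_iff_right_of_lt_one₀ R.valuation_ϖ_pos R.valuation_ϖ_lt_one]

/-- Nonunit rational constants are divisible by the uniformiser. -/
theorem div_ϖ_mem {c : L} (hc : algebraMap L F c ∈ R.FK) (hcn : c ∈ A.nonunits) :
    c / R.ϖ ∈ A := by
  rcases eq_or_ne c 0 with rfl | hc0
  · simp [zero_mem]
  obtain ⟨n, hn⟩ := R.exists_zpow c hc hc0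
  rw [ValuationSubring.mem_nonunits_iff, hn] at hcn
  have h1 : 1 ≤ n := by
    by_contra h
    have h' : (0 : ℤ) ≤ -n := by omega
    have := (R.valuation_zpow_le_one_iff (-n)).mpr h'
    rw [zpow_neg, inv_le_one₀ (zpow_pos R.valuation_ϖ_pos _)] at this
    exact (not_le.mpr hcn) this
  rw [← A.valuation_le_one_iff, map_div₀, hn, div_eq_mul_inv, ← zpow_sub_one₀
    R.valuation_ϖ_pos.ne', R.valuation_zpow_le_one_iff]
  omega

theorem exists_hasOrd {i : Fin 2} {x : F} (hx : x ∈ R.FK) (hx0 : x ≠ 0) :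
    ∃ n, R.HasOrd i x n := by
  obtain ⟨c, hc, hm, hr⟩ := R.scale i x hx hx0
  have hc0 : c ≠ 0 := fun h => hr (by rw [h, zero_smul, BAD.TwoBranch.red_zero])
  obtain ⟨n, hn⟩ := R.exists_zpow c hc hc0
  refine ⟨-n, ?_⟩
  have hu : A.valuation (R.ϖ ^ n / c) = 1 := by
    rw [map_div₀, map_zpow₀, hn, div_self (zpow_ne_zero _ R.valuation_ϖ_pos.ne')]
  have hmem : R.ϖ ^ n / c ∈ A := (A.valuation_le_one_iff _).mp hu.le
  have hπ : π ⟨_, hmem⟩ ≠ 0 := by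
    intro h0
    have hunit : IsUnit (⟨_, hmem⟩ : A) := (A.valuation_eq_one_iff _).mpr hu
    exact (hunit.map π).ne_zero h0
  have he : (R.ϖ ^ (-n))⁻¹ • x = ((⟨_, hmem⟩ : A) : L) • (c • x) := by
    rw [smul_smul]
    show _ = (R.ϖ ^ n / c * c) • x
    rw [div_mul_cancel₀ _ hc0, zpow_neg, inv_inv]
  refine ⟨he ▸ D.smul_mem hm _, ?_⟩
  rw [he, D.red_smul hm, Algebra.smul_def]
  exact mul_ne_zero ((map_ne_zero _).mpr hπ) hr

/-- A rational function reducing to zero is divisible by the uniformiser. -/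
theorem inv_ϖ_smul_mem {i : Fin 2} {x : F} (hx : x ∈ R.FK) (hxV : x ∈ D.V i)
    (h0 : D.red i x = 0) : R.ϖ⁻¹ • x ∈ D.V i := by
  rcases eq_or_ne x 0 with rfl | hx0
  · simp [zero_mem]
  obtain ⟨c, hc, hm, hr⟩ := R.scale i x hx hx0
  have hc0 : c ≠ 0 := fun h => hr (by rw [h, zero_smul, BAD.TwoBranch.red_zero])
  have hcA : c ∉ A := fun h => hr (by
    rw [show c • x = ((⟨c, h⟩ : A) : L) • x from rfl, D.red_smul hxV, h0, smul_zero])
  have hci : algebraMap L F c⁻¹ ∈ R.FK := by rw [map_inv₀]; exact inv_mem hc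
  have h1 := R.div_ϖ_mem hci (BAD.TwoBranch.inv_mem_nonunits_of_notMem hcA)
  have he : R.ϖ⁻¹ • x = ((⟨_, h1⟩ : A) : L) • (c • x) := by
    rw [smul_smul]
    show _ = (c⁻¹ / R.ϖ * c) • x
    rw [div_mul_eq_mul_div, inv_mul_cancel₀ hc0, one_div]
  exact he ▸ D.smul_mem hm _

theorem small_of_red_eq_zero {x : F} (hx : x ∈ R.FK) (hxO : x ∈ D.O)
    (h0 : ∀ i, D.red i x = 0) : D.Small R.ϖ x :=
  D.mem_O.mpr fun i => R.inv_ϖ_smul_mem hx (D.mem_of_mem_O hxO i) (h0 i)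

variable {R}

theorem HasOrd.ne_zero {i : Fin 2} {x : F} {n : ℤ} (h : R.HasOrd i x n) : x ≠ 0 :=
  fun h0 => h.2 (by rw [h0, smul_zero, BAD.TwoBranch.red_zero])

theorem hasOrd_zero_iff {i : Fin 2} {x : F} :
    R.HasOrd i x 0 ↔ x ∈ D.V i ∧ D.red i x ≠ 0 := by
  simp [HasOrd]

theorem lred_zero (i : Fin 2) (x : F) : R.lred i x 0 = D.red i x := by simp [lred]

theorem HasOrd.mul {i : Fin 2} {x y : F} {m n : ℤ} (hx : R.HasOrd i x m) (hy : R.HasOrd i y n) :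
    R.HasOrd i (x * y) (m + n) ∧ R.lred i (x * y) (m + n) = R.lred i x m * R.lred i y n := by
  have he : (R.ϖ ^ (m + n))⁻¹ • (x * y) = ((R.ϖ ^ m)⁻¹ • x) * ((R.ϖ ^ n)⁻¹ • y) := by
    rw [smul_mul_smul_comm, zpow_add₀ R.ϖ_ne, mul_inv]
  refine ⟨⟨he ▸ mul_mem hx.1 hy.1, ?_⟩, by rw [lred, he, D.red_mul hx.1 hy.1]; rfl⟩
  rw [he, D.red_mul hx.1 hy.1]
  exact mul_ne_zero hx.2 hy.2

theorem HasOrd.inv {i : Fin 2} {x : F} {n : ℤ} (hx : R.HasOrd i x n) :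
    R.HasOrd i x⁻¹ (-n) ∧ R.lred i x⁻¹ (-n) = (R.lred i x n)⁻¹ := by
  have he : (R.ϖ ^ (-n))⁻¹ • x⁻¹ = ((R.ϖ ^ n)⁻¹ • x)⁻¹ := by
    rw [smul_inv₀, zpow_neg]
  refine ⟨⟨he ▸ D.inv_mem_of_red_ne_zero hx.1 hx.2, ?_⟩, by
    rw [lred, he, D.red_inv hx.1 hx.2]; rfl⟩
  rw [he, D.red_inv hx.1 hx.2]
  exact inv_ne_zero hx.2

theorem HasOrd.unique {i : Fin 2} {x : F} {m n : ℤ} (hm : R.HasOrd i x m)
    (hn : R.HasOrd i x n) : m = n := by
  wlog hle : m ≤ n generalizing m n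
  · exact (this hn hm (le_of_not_ge hle)).symm
  rcases hle.lt_or_eq with hlt | heq
  swap
  · exact heq
  exfalso
  obtain ⟨d, hd⟩ : ∃ d : ℕ, n = m + (d + 1) := ⟨(n - m - 1).toNat, by omega⟩
  have he : (R.ϖ ^ m)⁻¹ • x = ((⟨R.ϖ, R.ϖ_mem_A⟩ : A) ^ (d + 1) : A).1 • ((R.ϖ ^ n)⁻¹ • x) := by
    rw [smul_smul]
    congr 1
    show _ = (((⟨R.ϖ, R.ϖ_mem_A⟩ : A) ^ (d + 1) : A) : L) * (R.ϖ ^ n)⁻¹
    rw [SubmonoidClass.coe_pow, hd, zpow_add₀ R.ϖ_ne, mul_inv, ← zpow_natCast]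
    push_cast
    rw [mul_left_comm, mul_inv_cancel₀ (R.zpow_ne _), mul_one]
  refine hm.2 ?_
  rw [he, D.red_smul hn.1, map_pow, R.π_ϖ, zero_pow (by omega), zero_smul]

end RatField

end Fermat.Agent.LLp
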