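import Fermat.Agent.LLp.Local.SpecDefs
import Fermat.Agent.LLp.Local.RatField

/-!
# Points of the special fibre seen by rational functions
-/

set_option autoImplicit false

noncomputable section

open AlgebraicCurve Fermat.Agent.RED

namespace Fermat.Agent.LLp

variable {L k : Type*} [Field L] [Field k] {A : ValuationSubring L} {π : A →+* k}
  {F C : Type*} [Field F] [Algebra L F] [Field C] [Algebra k C] {D : BAD.BadBase π F C}
  {u : F} {ubar : C} {d : ℕ}

/-- `z` is glued to no other point of the chart. -/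
def IsSmoothPt (h : BAD.Chart D u ubar d) (z : Fin 2 × Place k C) : Prop :=
  ubar ∈ z.2.toValuationSubring ∧
    ∀ w : Fin 2 × Place k C, ubar ∈ w.2.toValuationSubring → h.Rel z w → w = z

/-- `(x, y)` is a crossing of the chart. -/
def IsCrossing (h : BAD.Chart D u ubar d) (x y : Place k C) : Prop :=
  ubar ∈ x.toValuationSubring ∧ ubar ∈ y.toValuationSubring ∧
    h.Rel ((0 : Fin 2), x) ((1 : Fin 2), y)

/-- `f` has neither zeros nor poles at the places above `z`. -/
def IsFreeAt (h : BAD.Chart D u ubar d) (z : Fin 2 × Place k C) (f : F) : Prop :=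
  f ≠ 0 ∧ AllSpec h z fun P => P.ord f = 0

/-- A coordinate at a crossing of thickness `t`. -/
structure NodeCoord (R : RatField D) (h : BAD.Chart D u ubar d) (x y : Place k C) (t : ℕ)
    (X : F) : Prop where
  pos : 0 < t
  mem : X ∈ R.FK
  free : IsFreeAt h ((0 : Fin 2), x) X
  ord₀ : R.HasOrd 0 X 0
  red₀ : x.ord (R.lred 0 X 0) = 1
  ord₁ : R.HasOrd 1 X t
  red₁ : y.ord (R.lred 1 X t) = -1
  between : AllSpec h ((0 : Fin 2), x) fun P =>
    A.valuation (pval P X) < 1 ∧ A.valuation R.ϖ ^ t < A.valuation (pval P X)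

end Fermat.Agent.LLp
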