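import Fermat.Agent.LLp.Local.Galois

/-!
# Cusps and a function measuring the thickness of the crossings
-/

set_option autoImplicit false

noncomputable section

open AlgebraicCurve Fermat.Agent.RED

namespace Fermat.Agent.LLp

variable {L k : Type*} [Field L] [Field k] {A : ValuationSubring L} {π : A →+* k}
  {F C : Type*} [Field F] [Algebra L F] [Field C] [Algebra k C]

/-- One rational smooth point on each branch, with a multiplicative leading coefficient. -/
structure Cusps (D : BAD.BadCurve π F C) (R : RatField D.toBadBase) where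
  P : Fin 2 → Place L F
  x : Fin 2 → Place k C
  spec : ∀ i, ChartSpec D.chartInf (P i) (i, x i)
  smooth : ∀ i, IsSmoothPt D.chartInf (i, x i)
  lead : Fin 2 → F → L
  lead_ne : ∀ i f, f ≠ 0 → lead i f ≠ 0
  lead_mul : ∀ i f g, f ≠ 0 → g ≠ 0 → lead i (f * g) = lead i f * lead i g
  lead_eq : ∀ i f, f ≠ 0 → (P i).ord f = 0 → lead i f = pval (P i) f
  lead_smul : ∀ i, ∀ τ ∈ R.gal, ∀ f, f ≠ 0 →
    lead i (τ • f) = SemilinearAut.baseAut τ (lead i f)

/-- A rational function free at every crossing, zero on the second branch to an order prime to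
`p`. -/
structure Thickness (D : BAD.BadCurve π F C) (R : RatField D.toBadBase) (p : ℕ) where
  Z : F
  M : ℕ
  mem : Z ∈ R.FK
  mem_O : Z ∈ D.O
  red₀ : D.red 0 Z ≠ 0
  red₁ : D.red 1 Z = 0
  hasOrd : R.HasOrd 1 Z M
  not_dvd : ¬ p ∣ M
  free_fin : ∀ x y, IsCrossing D.chartFin x y → IsFreeAt D.chartFin ((0 : Fin 2), x) Z
  free_inf : ∀ x y, IsCrossing D.chartInf x y → IsFreeAt D.chartInf ((0 : Fin 2), x) Z

end Fermat.Agent.LLp
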