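import Fermat.Agent.LLp.Local.SpecDefs
import Fermat.Agent.RED.CoordDataFF
import Fermat.Agent.BAD.Core.Basis

/-!
# Specialisation on a two-branch chart: values, existence, clearing denominators
-/

set_option autoImplicit false

noncomputable section

open AlgebraicCurve IntermediateField Polynomial Fermat.Agent.RED

namespace Fermat.Agent.LLp

variable {L k : Type*} [Field L] [Field k] {A : ValuationSubring L} {π : A →+* k}
  {F C : Type*} [Field F] [Algebra L F] [Field C] [Algebra k C] {D : BAD.BadBase π F C}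
  {u : F} {ubar : C} {d : ℕ}

section Elementary

variable {K E : Type*} [Field K] [Field E] [Algebra K E]

theorem pval_pow' {v : Place K E} (hv : v.deg = 1) {f : E} (hf : f ∈ v.toValuationSubring)
    (n : ℕ) : pval v (f ^ n) = pval v f ^ n := by
  induction n with
  | zero => rw [pow_zero, pow_zero, pval_one hv]
  | succ n ih => rw [pow_succ, pow_succ, pval_mul hv (pow_mem hf n) hf, ih]

theorem aeval_mem_place {v : Place K E} {x : E} (hx : x ∈ v.toValuationSubring) (p : K[X]) :
    aeval x p ∈ v.toValuationSubring :=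
  mem_place_of_mem_coordRing K x v hx (aeval_mem_coordRing K x p)

theorem pval_aeval_eq {v : Place K E} (hv : v.deg = 1) {x : E} (hx : x ∈ v.toValuationSubring)
    (p : K[X]) : pval v (aeval x p) = p.eval (pval v x) := by
  induction p using Polynomial.induction_on' with
  | add a b ha hb =>
    rw [map_add, Polynomial.eval_add, pval_add hv (aeval_mem_place hx a) (aeval_mem_place hx b),
      ha, hb]
  | monomial i a =>
    rw [aeval_monomial, eval_monomial, pval_mul hv (v.algebraMap_mem' a) (pow_mem hx i),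
      pval_algebraMap hv, pval_pow' hv hx]

end Elementary

/-- Finitely many constants can be scaled into `A` simultaneously. -/
theorem exists_scalar_mul_mem {κ : Type*} (s : Finset κ) (g : κ → L) :
    ∃ M : L, M ≠ 0 ∧ ∀ i ∈ s, M * g i ∈ A := by
  classical
  induction s using Finset.induction_on with
  | empty => exact ⟨1, one_ne_zero, by simp⟩
  | insert j s _ ih =>
    obtain ⟨M, hM, hs⟩ := ih
    obtain ⟨N, hN0, hN, hNg⟩ : ∃ N : L, N ≠ 0 ∧ N ∈ A ∧ N * (M * g j) ∈ A := by
      by_cases hj : M * g j ∈ A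
      · exact ⟨1, one_ne_zero, one_mem _, by simpa using hj⟩
      · have h0 : M * g j ≠ 0 := fun e => hj (e ▸ zero_mem _)
        exact ⟨(M * g j)⁻¹, inv_ne_zero h0, (A.mem_or_inv_mem _).resolve_left hj,
          by rw [inv_mul_cancel₀ h0]; exact one_mem _⟩
    refine ⟨N * M, mul_ne_zero hN0 hM, fun i hi => ?_⟩
    rw [mul_assoc]
    rcases Finset.mem_insert.mp hi with rfl | hi
    · exact hNg
    · exact mul_mem hN (hs i hi)

theorem exists_combo_of_mem_blockSpan {n N : ℕ} {ω : Fin 2 × Fin n → F} {a : F}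
    (ha : a ∈ BAD.Chart.blockSpan (L := L) u ω N) :
    ∃ p : Fin 2 × Fin n → L[X], a = ∑ x, aeval u (p x) * ω x := by
  obtain ⟨g, hg⟩ := (Submodule.mem_span_range_iff_exists_fun L).mp ha
  refine ⟨fun x => ∑ j : Fin N, monomial (j : ℕ) (g (j, x)), ?_⟩
  rw [← hg, Fintype.sum_prod_type, Finset.sum_comm]
  refine Finset.sum_congr rfl fun x _ => ?_
  rw [map_sum, Finset.sum_mul]
  refine Finset.sum_congr rfl fun j _ => ?_
  rw [aeval_monomial, Algebra.smul_def, mul_assoc]

section Chart

variable (h : BAD.Chart D u ubar d)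

include h

omit h in
/-- The coefficients of an integral combination of a reduced basis are integral. -/
theorem coeff_mem_of_combo {n : ℕ} {ω : Fin 2 × Fin n → F}
    (hω : ∀ N : ℕ, D.Reduced fun x : Fin N × (Fin 2 × Fin n) => u ^ (x.1 : ℕ) * ω x.2)
    (p : Fin 2 × Fin n → L[X]) (hp : ∑ x, aeval u (p x) * ω x ∈ D.O) (x : Fin 2 × Fin n)
    (j : ℕ) : (p x).coeff j ∈ A := by
  set N := Finset.univ.sup (fun y => (p y).natDegree) + 1 with hN
  have hdeg : ∀ y, (p y).natDegree < N := fun y =>
    Nat.lt_succ_of_le (Finset.le_sup (f := fun y => (p y).natDegree) (Finset.mem_univ y))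
  have hsum : ∑ y : Fin N × (Fin 2 × Fin n), (p y.2).coeff y.1 • (u ^ (y.1 : ℕ) * ω y.2) =
      ∑ y, aeval u (p y) * ω y := by
    rw [Fintype.sum_prod_type, Finset.sum_comm]
    refine Finset.sum_congr rfl fun y _ => ?_
    rw [aeval_eq_sum_range' (hdeg y), Finset.sum_mul, Finset.sum_range]
    exact Finset.sum_congr rfl fun k _ => (smul_mul_assoc _ _ _).symm
  rcases lt_or_ge j N with hj | hj
  · exact D.coeff_mem_of_linearIndependent (hω N).mem (hω N).indep
      (b := fun y : Fin N × (Fin 2 × Fin n) => (p y.2).coeff y.1) (hsum ▸ hp) (⟨j, hj⟩, x)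
  · rw [Polynomial.coeff_eq_zero_of_natDegree_lt (lt_of_lt_of_le (hdeg x) hj)]
    exact zero_mem _

/-- All powers of an integral function have a common denominator. -/
theorem exists_uniform_denominator {n : ℕ} {ω : Fin 2 × Fin n → F}
    (hω : ∀ N : ℕ, D.Reduced fun x : Fin N × (Fin 2 × Fin n) => u ^ (x.1 : ℕ) * ω x.2)
    (hn : Module.finrank L⟮u⟯ F ≤ 2 * n) {a : F} (ha : a ∈ coordRing L u) :
    ∃ s : L[X], aeval u s ∈ D.O ∧ (∀ i, D.red i (aeval u s) ≠ 0) ∧
      ∀ l : ℕ, ∃ p : Fin 2 × Fin n → L[X], aeval u s * a ^ l = ∑ x, aeval u (p x) * ω x := by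
  classical
  obtain ⟨P, hP, hroot⟩ : ∃ P : Polynomial L[X], P.Monic ∧ P.eval₂ (coordEval L u) a = 0 := ha
  obtain ⟨s, hsO, hs0, N, hN⟩ :=
    h.exists_common_denominator hω hn ((Finset.range P.natDegree).image fun l => a ^ l)
  choose p hp using fun j : Fin P.natDegree =>
    exists_combo_of_mem_blockSpan (hN _ (Finset.mem_image.mpr ⟨j, Finset.mem_range.mpr j.2, rfl⟩))
  refine ⟨s, hsO, hs0, fun l => ?_⟩
  set R := (X ^ l : Polynomial L[X]) %ₘ P with hR
  have hP1 : P ≠ 1 := fun e => by simp [e] at hroot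
  have hRd : R.natDegree < P.natDegree := natDegree_modByMonic_lt _ hP hP1
  have hpow : a ^ l = R.eval₂ (coordEval L u) a := by
    have h1 := congrArg (Polynomial.eval₂ (coordEval L u) a)
      (modByMonic_add_div (X ^ l : Polynomial L[X]) P)
    rw [eval₂_add, eval₂_mul, hroot, zero_mul, add_zero, eval₂_X_pow] at h1
    exact h1.symm
  refine ⟨fun x => ∑ j : Fin P.natDegree, R.coeff j * p j x, ?_⟩
  rw [hpow, eval₂_eq_sum_range' _ hRd, Finset.mul_sum, Finset.sum_range]
  simp only [map_sum, map_mul, Finset.sum_mul]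
  rw [Finset.sum_comm]
  refine Finset.sum_congr rfl fun j _ => ?_
  have : aeval u s * (coordEval L u (R.coeff j) * a ^ (j : ℕ)) =
      aeval u (R.coeff j) * ∑ x, aeval u (p j x) * ω x := by
    rw [← hp j]
    show aeval u s * (aeval u (R.coeff j) * a ^ (j : ℕ)) = _
    ring
  rw [this, Finset.mul_sum]
  exact Finset.sum_congr rfl fun x _ => by ring

theorem red_mem_place_of_chart {a : F} (haR : a ∈ coordRing L u) (haO : a ∈ D.O) (i : Fin 2)
    {x : Place k C} (hx : ubar ∈ x.toValuationSubring) : D.red i a ∈ x.toValuationSubring :=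
  mem_place_of_mem_coordRing _ _ x hx (h.red_mem_coordRing haR haO i)

variable [IsAlgClosed L] [FF.IsFunctionField L F]

theorem coordData_chart : CoordData L u (Module.finrank L⟮u⟯ F) :=
  coordData_of_functionField h.transcendental_u rfl

/-- Values of integral functions at integral places are integral. -/
theorem pval_mem_of_chart {P : Place L F} (hP : IsIntegralPlace A u P) {a : F}
    (ha : a ∈ coordRing L u) (haO : a ∈ D.O) : pval P a ∈ A := by
  classical
  have hd := (coordData_chart h).deg_one P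
  obtain ⟨n, ω, hωR, hω, hn⟩ := h.exists_omega
  obtain ⟨s, hsO, hs0, hs⟩ := exists_uniform_denominator h hω hn ha
  set β := pval P u with hβ
  have hs' : s ≠ 0 := fun e => hs0 0 (by simp [e])
  obtain ⟨r, hr, hrdvd⟩ := exists_eq_pow_rootMultiplicity_mul_and_not_dvd s hs' β
  generalize s.rootMultiplicity β = m at hr
  have hrval : pval P (aeval u r) ≠ 0 := by
    rw [pval_aeval_eq hd hP.1]
    exact fun e => hrdvd (dvd_iff_isRoot.mpr e)
  obtain ⟨hr0, hrord⟩ := (pval_ne_zero_iff hd (aeval_mem_place hP.1 r)).mp hrval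
  have hrinv : (aeval u r)⁻¹ ∈ P.toValuationSubring :=
    mem_of_ord_nonneg P (by rw [P.ord_inv, hrord, neg_zero])
  have hub : u - algebraMap L F β ≠ 0 := fun e =>
    h.transcendental_u (sub_eq_zero.mp e ▸ isAlgebraic_algebraMap β)
  have hub0 : pval P (u - algebraMap L F β) = 0 := by
    rw [pval_sub hd hP.1 (P.algebraMap_mem' _), pval_algebraMap hd, ← hβ, sub_self]
  have hsu : aeval u s = (u - algebraMap L F β) ^ m * aeval u r := by
    rw [hr]
    simp
  -- a linear functional computing the value of a quotient by `aeval u s`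
  let v : Fin (m + 1) × (Fin 2 × Fin n) → F := fun y => u ^ (y.1 : ℕ) * ω y.2
  let φ : (Fin (m + 1) × (Fin 2 × Fin n) → L) →ₗ[L] F := Fintype.linearCombination L v
  let good : Submodule L (Fin (m + 1) × (Fin 2 × Fin n) → L) :=
    { carrier := {c | φ c * (aeval u s)⁻¹ ∈ P.toValuationSubring}
      add_mem' := fun {a b} ha hb => by
        show φ (a + b) * (aeval u s)⁻¹ ∈ P.toValuationSubring
        rw [map_add, add_mul]
        exact add_mem ha hb
      zero_mem' := by simp
      smul_mem' := fun c a ha => by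
        show φ (c • a) * (aeval u s)⁻¹ ∈ P.toValuationSubring
        rw [map_smul, Algebra.smul_def, mul_assoc]
        exact mul_mem (P.algebraMap_mem' c) ha }
  let ψ₀ : good →ₗ[L] L :=
    { toFun := fun c => pval P (φ c * (aeval u s)⁻¹)
      map_add' := fun a b => by
        rw [Submodule.coe_add, map_add, add_mul, pval_add hd a.2 b.2]
      map_smul' := fun c a => by
        rw [Submodule.coe_smul, map_smul, Algebra.smul_def, mul_assoc,
          pval_mul hd (P.algebraMap_mem' c) a.2, pval_algebraMap hd]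
        rfl }
  obtain ⟨ψ, hψ⟩ := LinearMap.exists_extend ψ₀
  obtain ⟨M, hM0, hM⟩ := exists_scalar_mul_mem (A := A) Finset.univ
    fun y => ψ (Pi.single y 1)
  have key : ∀ l : ℕ, M * pval P a ^ l ∈ A := by
    intro l
    obtain ⟨p, hp⟩ := hs l
    have hpA : ∀ x, ∃ q : A[X], q.map A.subtype = p x := fun x =>
      (Polynomial.mem_lifts _).mp ((Polynomial.lifts_iff_coeff_lifts _).mpr fun j =>
        ⟨⟨_, coeff_mem_of_combo hω p (hp ▸ mul_mem hsO (pow_mem haO l)) x j⟩, rfl⟩)
    choose q hq using hpA
    set Q : A[X] := (X - Polynomial.C (⟨β, hP.2⟩ : A)) ^ (m + 1) with hQdef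
    have hQ : Q.Monic := (monic_X_sub_C _).pow _
    have hQd : Q.natDegree = m + 1 := by
      rw [hQdef, (monic_X_sub_C _).natDegree_pow, natDegree_X_sub_C, mul_one]
    let c : Fin (m + 1) × (Fin 2 × Fin n) → L := fun y => (((q y.2) %ₘ Q).coeff y.1 : L)
    set G := ∑ x, aeval u (((q x) /ₘ Q).map A.subtype) * ω x with hG
    have hGP : G ∈ P.toValuationSubring := sum_mem fun x _ =>
      mul_mem (aeval_mem_place hP.1 _) (mem_place_of_mem_coordRing L u P hP.1 (hωR x))
    have hQu : aeval u (Q.map A.subtype) = (u - algebraMap L F β) ^ (m + 1) := by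
      simp [hQdef, Polynomial.map_pow]
    have hdec : aeval u s * a ^ l = φ c + (u - algebraMap L F β) ^ (m + 1) * G := by
      have hlow : φ c = ∑ x, aeval u (((q x) %ₘ Q).map A.subtype) * ω x := by
        simp only [φ, Fintype.linearCombination_apply]
        rw [Fintype.sum_prod_type, Finset.sum_comm]
        refine Finset.sum_congr rfl fun x _ => ?_
        have hlt : (((q x) %ₘ Q).map A.subtype).natDegree < m + 1 := by
          refine lt_of_le_of_lt natDegree_map_le (hQd ▸ natDegree_modByMonic_lt _ hQ fun e => ?_)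
          rw [e, natDegree_one] at hQd
          omega
        rw [aeval_eq_sum_range' hlt, Finset.sum_mul, Finset.sum_range]
        exact Finset.sum_congr rfl fun j _ => by simp [c, v, coeff_map]
      rw [hp, hlow, hG, Finset.mul_sum, ← Finset.sum_add_distrib]
      refine Finset.sum_congr rfl fun x _ => ?_
      have := congrArg (fun t => aeval u (t.map A.subtype)) (modByMonic_add_div (q x) Q)
      simp only [Polynomial.map_add, Polynomial.map_mul, map_add, map_mul, hQu] at this
      rw [← hq x, ← this]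
      ring
    have hquot : φ c * (aeval u s)⁻¹ =
        a ^ l - (u - algebraMap L F β) * (G * (aeval u r)⁻¹) := by
      have h1 : φ c = aeval u s * a ^ l - (u - algebraMap L F β) ^ (m + 1) * G :=
        eq_sub_of_add_eq hdec.symm
      rw [h1, hsu]
      field_simp
      ring
    have hGr := mul_mem hGP hrinv
    have hsubP : u - algebraMap L F β ∈ P.toValuationSubring :=
      sub_mem hP.1 (P.algebraMap_mem' _)
    have haP := mem_place_of_mem_coordRing L u P hP.1 ha
    have hmem : φ c * (aeval u s)⁻¹ ∈ P.toValuationSubring :=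
      hquot ▸ sub_mem (pow_mem haP l) (mul_mem hsubP hGr)
    have hval : ψ c = pval P a ^ l := by
      have h1 : ψ c = ψ₀ ⟨c, hmem⟩ := LinearMap.congr_fun hψ ⟨c, hmem⟩
      rw [h1]
      show pval P (φ c * (aeval u s)⁻¹) = _
      rw [hquot, pval_sub hd (pow_mem haP l) (mul_mem hsubP hGr), pval_mul hd hsubP hGr, hub0,
        zero_mul, sub_zero, pval_pow' hd haP]
    have hbasis : c = ∑ y, c y • (Pi.single y (1 : L)) := pi_eq_sum_univ' c
    rw [← hval, hbasis, map_sum, Finset.mul_sum]
    refine sum_mem fun y _ => ?_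
    rw [map_smul, smul_eq_mul, mul_left_comm]
    exact mul_mem (((q y.2) %ₘ Q).coeff y.1).2 (hM y (Finset.mem_univ _))
  by_contra hcon
  have hx := BAD.TwoBranch.inv_mem_nonunits_of_notMem (A := A) hcon
  have hα0 : pval P a ≠ 0 := fun e => hcon (e ▸ zero_mem _)
  obtain ⟨N, hN⟩ := D.arch _ hx (M * (pval P a)⁻¹) (mul_ne_zero hM0 (inv_ne_zero hα0))
  refine hcon ?_
  convert mul_mem hN (key N) using 1
  rw [inv_pow]
  field_simp

/-- An integral function with zero reduction takes values in the maximal ideal. -/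
theorem π_pval_eq_zero_of_red2 {P : Place L F} (hP : IsIntegralPlace A u P) {a : F}
    (ha : a ∈ coordRing L u) (haO : a ∈ D.O) (h0 : D.red2 a = 0) {c : A}
    (hc : pval P a = (c : L)) : π c = 0 := by
  have hd := (coordData_chart h).deg_one P
  obtain ⟨e, he0, hen, hes⟩ := D.exists_small_of_red_eq_zero haO fun i => congrFun h0 i
  have hb : e⁻¹ • a ∈ coordRing L u := (coordRing L u).smul_mem ha _
  have hval : pval P a = e * pval P (e⁻¹ • a) := by
    rw [Algebra.smul_def, pval_mul hd (P.algebraMap_mem' _)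
      (mem_place_of_mem_coordRing L u P hP.1 ha), pval_algebraMap hd, ← mul_assoc,
      mul_inv_cancel₀ he0, one_mul]
  have hcc : c = ⟨e, A.nonunits_subset hen⟩ * ⟨_, pval_mem_of_chart h hP hb hes⟩ :=
    Subtype.ext (hc.symm.trans hval)
  rw [hcc, map_mul, D.residue_eq_zero_of_nonunit _ hen, zero_mul]

/-- The values of two functions with the same reduction are congruent. -/
theorem π_pval_congr {P : Place L F} (hP : IsIntegralPlace A u P) {a b : F}
    (ha : a ∈ coordRing L u) (haO : a ∈ D.O) (hb : b ∈ coordRing L u) (hbO : b ∈ D.O)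
    (hab : D.red2 a = D.red2 b) {c e : A} (hc : pval P a = (c : L)) (he : pval P b = (e : L)) :
    π c = π e := by
  have hd := (coordData_chart h).deg_one P
  have h0 : D.red2 (a - b) = 0 := funext fun i => by
    rw [D.red2_apply, D.red_sub (D.mem_of_mem_O haO i) (D.mem_of_mem_O hbO i)]
    exact sub_eq_zero.mpr (congrFun hab i)
  have := π_pval_eq_zero_of_red2 h hP (sub_mem ha hb) (sub_mem haO hbO) h0 (c := c - e) (by
    rw [pval_sub hd (mem_place_of_mem_coordRing L u P hP.1 ha)
      (mem_place_of_mem_coordRing L u P hP.1 hb), hc, he]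
    rfl)
  rwa [map_sub, sub_eq_zero] at this

end Chart

end Fermat.Agent.LLp
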