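import Fermat.Agent.LLp.Local.Residual

/-!
# Functions rational over the small field of constants

The tame case of the residual theorem: values at the cusps are divisible by `p`, so at a crossing
the residual order is a multiple of `p` as the thickness is prime to `p`.
-/

set_option autoImplicit false
set_option linter.unusedSectionVars false

noncomputable section

open AlgebraicCurve Fermat.Agent.RED

namespace Fermat.Agent.LLp

variable {L k : Type*} [Field L] [Field k] {A : ValuationSubring L} {π : A →+* k}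
  {F C : Type*} [Field F] [Algebra L F] [Field C] [Algebra k C] {D : BAD.BadCurve π F C}
  {R₁ : RatField D.toBadBase} {p : ℕ} [Fact p.Prime] [CharP k p]
  [IsAlgClosed L] [IsAlgClosed k] [FF.IsFunctionField L F]

/-- At a cusp where the leading coefficient is a `p`-th power the value is divisible by `p`. -/
theorem dvd_hasOrd_of_lead (hR₁ : R₁.RatChart D.chartInf) (K : Cusps D R₁) (i : Fin 2) {f : F}
    (hf : f ∈ R₁.FK) (hf0 : f ≠ 0) (hdiv : ∀ P : Place L F, (p : ℤ) ∣ P.ord f) {r : L}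
    (hr : algebraMap L F r ∈ R₁.FK) (hlead : K.lead i f = r ^ p) {n : ℤ}
    (hn : R₁.HasOrd i f n) : (p : ℤ) ∣ n := by
  have hp := (Fact.out : p.Prime)
  have hz := K.smooth i
  obtain ⟨g, hg, hg0, hff⟩ := exists_move_smooth hR₁ hz hf hf0 fun P _ => hdiv P
  obtain ⟨m, hm⟩ := R₁.exists_hasOrd (i := i) hg hg0
  obtain ⟨hn', -⟩ := hn.mul_pow hm p
  obtain ⟨hz0, hval⟩ := hff.smooth_unit hR₁ hz (mul_mem hf (pow_mem hg p)) hn'
  obtain ⟨c₀, hc₀, hπc₀⟩ := hval (K.P i) (K.spec i)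
  dsimp only at hz0 hπc₀
  have hc₀u : A.valuation (c₀ : L) = 1 := by
    refine R₁.valuation_eq_one_of_res fun h0 => ?_
    rw [h0] at hπc₀
    rcases (BAD.pv_eq_zero_iff (mem_of_ord_nonneg _ hz0.ge)).mp hπc₀.symm with h1 | h1
    · exact hn'.2 h1
    · exact absurd hz0 (ne_of_gt h1)
  set d := r * K.lead i g with hd
  have hdK : algebraMap L F d ∈ R₁.FK := by
    rw [hd, map_mul]
    exact mul_mem hr (K.lead_mem i le_rfl hg hg0)
  have hleadf : K.lead i (f * g ^ p) = d ^ p := by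
    rw [K.lead_mul i _ _ hf0 (pow_ne_zero _ hg0), K.lead_pow i hg0, hlead, hd, mul_pow]
  have hd0 : d ≠ 0 := fun h0 => K.lead_ne i _ hff.1 (by rw [hleadf, h0, zero_pow hp.ne_zero])
  obtain ⟨j, hj⟩ := R₁.exists_zpow d hdK hd0
  have hpj : j * p = n + p * m := by
    refine zpow_right_injective₀ R₁.valuation_ϖ_pos R₁.valuation_ϖ_lt_one.ne ?_
    show A.valuation R₁.ϖ ^ (j * p) = A.valuation R₁.ϖ ^ (n + p * m)
    rw [zpow_mul, ← hj, zpow_natCast, ← map_pow, ← hleadf,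
      K.lead_eq i _ hff.1 (hff.2 _ (K.spec i)), hc₀, map_mul, map_zpow₀, hc₀u, mul_one]
  exact ⟨j - m, by linarith⟩

/-- The tame case. -/
theorem dvd_ord_lred_of_fixed (hfin : R₁.RatChart D.chartFin) (hinf : R₁.RatChart D.chartInf)
    (K : Cusps D R₁) (T : Thickness D R₁ p) {f : F} (hf : f ∈ R₁.FK) (hf0 : f ≠ 0)
    (hdiv : ∀ P : Place L F, (p : ℤ) ∣ P.ord f)
    (hlead : ∀ i, ∃ r : L, algebraMap L F r ∈ R₁.FK ∧ K.lead i f = r ^ p) (i : Fin 2) {n : ℤ}
    (hn : R₁.HasOrd i f n) (x : Place k C) : (p : ℤ) ∣ x.ord (R₁.lred i f n) := by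
  have hp := (Fact.out : p.Prime)
  choose N hN using fun i => R₁.exists_hasOrd (i := i) hf hf0
  choose r hrK hr using hlead
  have hdvd : ∀ i, (p : ℤ) ∣ N i := fun i =>
    dvd_hasOrd_of_lead hinf K i hf hf0 hdiv (hrK i) (hr i) (hN i)
  obtain rfl := hn.unique (hN i)
  have key : ∀ {u : F} {ubar : C} {d : ℕ} (h : BAD.Chart D.toBadBase u ubar d),
      R₁.RatChart h → (∀ x y, IsCrossing h x y → IsFreeAt h ((0 : Fin 2), x) T.Z) →
      ubar ∈ x.toValuationSubring → (p : ℤ) ∣ x.ord (R₁.lred i f (N i)) := by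
    intro u ubar d h hR₁ hZ hx
    have hcross : ∀ x y, IsCrossing h x y → (p : ℤ) ∣ x.ord (R₁.lred 0 f (N 0)) ∧
        (p : ℤ) ∣ y.ord (R₁.lred 1 f (N 1)) := by
      intro x y hxy
      obtain ⟨t, X, hX, ht⟩ := exists_nodeCoord hR₁ hxy (M := T.M) T.mem T.mem_O T.red₀ T.red₁
        (hZ _ _ hxy) (by rw [← zpow_natCast]; exact T.hasOrd.1)
        (by rw [← zpow_natCast]; exact T.hasOrd.2)
      have htp : ¬ (p : ℤ) ∣ t := fun hd => T.not_dvd (Int.natCast_dvd_natCast.mp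
        (ht ▸ hd.mul_right _))
      obtain ⟨g, hg, hg0, hff⟩ := exists_move_crossing hR₁ hxy hX hf hf0 fun P _ => hdiv P
      obtain ⟨g₀, hg₀⟩ := R₁.exists_hasOrd (i := 0) hg hg0
      obtain ⟨g₁, hg₁⟩ := R₁.exists_hasOrd (i := 1) hg hg0
      obtain ⟨hn₀', ho₀⟩ := (hN 0).mul_pow hg₀ p
      obtain ⟨hn₁', ho₁⟩ := (hN 1).mul_pow hg₁ p
      obtain ⟨hdiff, hy'⟩ := hff.crossing_unit hR₁ hxy hX (mul_mem hf (pow_mem hg p)) hn₀' hn₁'
      have hmod : (p : ℤ) ∣ t * x.ord (R₁.lred 0 (f * g ^ p) (N 0 + p * g₀)) :=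
        hdiff ▸ dvd_sub (dvd_add (hdvd 1) (dvd_mul_right _ _))
          (dvd_add (hdvd 0) (dvd_mul_right _ _))
      have hpo := ((Nat.prime_iff_prime_int.mp hp).dvd_or_dvd hmod).resolve_left htp
      constructor
      · rw [ho₀] at hpo
        exact (dvd_add_left (dvd_mul_right _ _)).mp hpo
      · rw [ho₁] at hy'
        exact (dvd_add_left (dvd_mul_right _ _)).mp (hy' ▸ dvd_neg.mpr hpo)
    rcases smooth_or_crossing h i hx with hs | ⟨rfl, y, hc⟩ | ⟨rfl, w, hc⟩
    · exact dvd_ord_lred_smooth (z := (i, x)) hR₁ hs hf hf0 (fun P _ => hdiv P) hn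
    · exact (hcross _ _ hc).1
    · exact (hcross _ _ hc).2
  rcases x.toValuationSubring.mem_or_inv_mem D.ubar with hx | hx
  · exact key D.chartFin hfin T.free_fin hx
  · exact key D.chartInf hinf T.free_inf hx

end Fermat.Agent.LLp
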