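import Fermat.Agent.LLp.Local.KummerUnit
import Fermat.Agent.BAD.Ordinary.SeriesCore

/-!
# The constants of the wild extension cut out by a Kummer class

The fields fixed by the inertia elements fixing `ζ`, resp. `ζ` and `η`, as fields of constants,
with uniformisers `ζ - 1` and `w`, and the action of a wild symmetry on series over them.
-/

set_option autoImplicit false
set_option linter.unusedSectionVars false

noncomputable section

namespace Fermat.Agent.LLp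

open ModularCurve IsLocalRing
open Fermat.Agent.Galois (Qbar GalQ)
open Fermat.Agent.BAD
open Fermat.Agent.BAD.Ordinary (Consts exists_fixed_residue)

/-- Inertia elements fixing `ζ`. -/
def tameGrp (A : ValuationSubring Qbar) (ζ : Qbar) : Subgroup GalQ :=
  A.inertiaSubgroupIn ℚ ⊓ MulAction.stabilizer GalQ ζ

/-- Inertia elements fixing `ζ` and `η`. -/
def wildGrp (A : ValuationSubring Qbar) (ζ η : Qbar) : Subgroup GalQ :=
  tameGrp A ζ ⊓ MulAction.stabilizer GalQ η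

namespace WildConsts

variable {p : ℕ} [Fact p.Prime] {A : ValuationSubring Qbar} {ζ η : Qbar}

theorem mem_tameGrp {s : GalQ} :
    s ∈ tameGrp A ζ ↔ s ∈ A.inertiaSubgroupIn ℚ ∧ s ζ = ζ := Iff.rfl

theorem mem_wildGrp {s : GalQ} :
    s ∈ wildGrp A ζ η ↔ (s ∈ A.inertiaSubgroupIn ℚ ∧ s ζ = ζ) ∧ s η = η := Iff.rfl

theorem tameGrp_le : tameGrp A ζ ≤ A.inertiaSubgroupIn ℚ := inf_le_left

theorem wildGrp_le : wildGrp A ζ η ≤ tameGrp A ζ := inf_le_left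

theorem wildGrp_le_inertia : wildGrp A ζ η ≤ A.inertiaSubgroupIn ℚ := wildGrp_le.trans tameGrp_le

/-- The smaller group is normalised by the larger one. -/
theorem conj_mem (hζ : IsPrimitiveRoot ζ p) (hη0 : η ≠ 0)
    (hη : ∀ σ ∈ A.inertiaSubgroupIn ℚ, σ (η ^ p) = η ^ p) {σ s : GalQ}
    (hσ : σ ∈ tameGrp A ζ) (hs : s ∈ wildGrp A ζ η) : σ⁻¹ * s * σ ∈ wildGrp A ζ η := by
  have : NeZero p := ⟨(Fact.out : p.Prime).ne_zero⟩
  obtain ⟨hσI, hσζ⟩ := mem_tameGrp.mp hσ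
  obtain ⟨⟨hsI, hsζ⟩, hsη⟩ := mem_wildGrp.mp hs
  refine mem_wildGrp.mpr ⟨⟨mul_mem (mul_mem (inv_mem hσI) hsI) hσI, ?_⟩, ?_⟩
  · rw [AlgEquiv.mul_apply, AlgEquiv.mul_apply, hσζ, hsζ]
    conv_lhs => rw [← hσζ, Galois.galQ_inv_apply]
  · obtain ⟨i, -, hi⟩ := hζ.eq_pow_of_pow_eq_one (show (σ η / η) ^ p = 1 by
      rw [div_pow, ← map_pow, hη σ hσI, div_self (pow_ne_zero _ hη0)])
    have hση : σ η = ζ ^ i * η := by rw [hi, div_mul_cancel₀ _ hη0]
    rw [AlgEquiv.mul_apply, AlgEquiv.mul_apply, hση, map_mul s, map_pow s, hsζ, hsη, ← hση,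
      Galois.galQ_inv_apply]

/-- The field fixed by a group. -/
def fixK (H : Subgroup GalQ) : Subfield Qbar :=
  (IntermediateField.fixedField H).toSubfield

theorem mem_fixK {H : Subgroup GalQ} {c : Qbar} : c ∈ fixK H ↔ ∀ s ∈ H, s c = c :=
  IntermediateField.mem_fixedField_iff H c

theorem valuation_p_pos : 0 < A.valuation (p : Qbar) :=
  zero_lt_iff.mpr (ECFormal.valuation_natPrime_ne_zero (Fact.out : p.Prime) A)

theorem valuation_zeta_sub_one (hζ : IsPrimitiveRoot ζ p) :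
    A.valuation (ζ - 1) ^ (p - 1) = A.valuation (p : Qbar) :=
  S13.val_zeta_sub_one_pow A.valuation Fact.out hζ

theorem valuation_lt_one_of_pow (hA : A.LiesOverPrime p) {x : Qbar} {n : ℕ}
    (hx : A.valuation x ^ n = A.valuation (p : Qbar)) : A.valuation x < 1 :=
  not_le.mp fun h =>
    (ECFormal.valuation_natPrime_lt_one hA).not_ge (hx ▸ one_le_pow_of_one_le' h _)

theorem valuation_ne_zero_of_pow {x : Qbar} {n : ℕ} (hn : n ≠ 0)
    (hx : A.valuation x ^ n = A.valuation (p : Qbar)) : x ≠ 0 := fun h => by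
  rw [h, map_zero, zero_pow hn] at hx
  exact valuation_p_pos.ne hx

/-- The constants fixed by the inertia elements fixing `ζ`. -/
def tameConsts (hA : A.LiesOverPrime p) (hζ : IsPrimitiveRoot ζ p) : Consts A where
  K := fixK (tameGrp A ζ)
  ϖ := ζ - 1
  ϖ_mem := mem_fixK.mpr fun s hs => by rw [map_sub, map_one, (mem_tameGrp.mp hs).2]
  ϖ_ne := sub_ne_zero.mpr (hζ.ne_one (Fact.out : p.Prime).one_lt)
  ϖ_lt := valuation_lt_one_of_pow hA (valuation_zeta_sub_one hζ)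
  exists_eq x hx hx0 := by
    have hp : p.Prime := Fact.out
    obtain ⟨m, hm⟩ := KummerUnit.valuation_pow_pred_of_fixed hA hζ hx0
      fun σ hσ hσζ => mem_fixK.mp hx σ (mem_tameGrp.mpr ⟨hσ, hσζ⟩)
    refine ⟨m, (pow_left_inj₀ zero_le zero_le (Nat.sub_pos_of_lt hp.one_lt).ne').mp ?_⟩
    rw [hm, ← valuation_zeta_sub_one hζ, ← zpow_natCast, ← zpow_natCast, ← zpow_mul, ← zpow_mul,
      mul_comm]
  exists_res y := by
    obtain ⟨a, ha, hay⟩ := exists_fixed_residue hA y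
    exact ⟨a, mem_fixK.mpr fun s hs => ha s (tameGrp_le hs), hay⟩

/-- The constants fixed by the inertia elements fixing `ζ` and `η`, with uniformiser `w`. -/
def wildConsts (hA : A.LiesOverPrime p) (hζ : IsPrimitiveRoot ζ p) (hη0 : η ≠ 0)
    (hη : ∀ σ ∈ A.inertiaSubgroupIn ℚ, σ (η ^ p) = η ^ p) {w : Qbar}
    (hw : A.valuation w ^ (p * (p - 1)) = A.valuation (p : Qbar))
    (hwmem : w ∈ fixK (wildGrp A ζ η)) : Consts A where
  K := fixK (wildGrp A ζ η)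
  ϖ := w
  ϖ_mem := hwmem
  ϖ_ne := valuation_ne_zero_of_pow (Nat.mul_ne_zero (Fact.out : p.Prime).ne_zero
    (Nat.sub_pos_of_lt (Fact.out : p.Prime).one_lt).ne') hw
  ϖ_lt := valuation_lt_one_of_pow hA hw
  exists_eq x hx hx0 := KummerUnit.valuation_eq_zpow_wild hA hζ hη0 hη hw hx0
    fun σ hσ h1 h2 => mem_fixK.mp hx σ (mem_wildGrp.mpr ⟨⟨hσ, h1⟩, h2⟩)
  exists_res y := by
    obtain ⟨a, ha, hay⟩ := exists_fixed_residue hA y
    exact ⟨a, mem_fixK.mpr fun s hs => ha s (wildGrp_le_inertia hs), hay⟩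

/-- A wild symmetry with the lowest break. -/
structure Break (p : ℕ) (A : ValuationSubring Qbar) (ζ η : Qbar) where
  σ : GalQ
  σ_mem : σ ∈ tameGrp A ζ
  w : Qbar
  w_mem : w ∈ fixK (wildGrp A ζ η)
  w_pow : A.valuation w ^ (p * (p - 1)) = A.valuation (p : Qbar)
  γ : A
  γ_ne : residue A γ ≠ 0
  σ_w : σ w = w * (1 + w * γ)

/-- The moved case gives a wild symmetry. -/
theorem exists_break (hp2 : p ≠ 2) (hA : A.LiesOverPrime p) (hζ : IsPrimitiveRoot ζ p)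
    (hη1 : A.valuation η = 1) (hη : ∀ σ ∈ A.inertiaSubgroupIn ℚ, σ (η ^ p) = η ^ p)
    (hmove : ∃ s ∈ tameGrp A ζ, s η ≠ η) : Nonempty (Break p A ζ η) := by
  obtain ⟨s, hs, hsη⟩ := hmove
  obtain ⟨hsI, hsζ⟩ := mem_tameGrp.mp hs
  rcases KummerUnit.exists_break hp2 hA hζ hη1 hη with h | ⟨σ, w, γ, hσ, hσζ, hw, hγ, hσw, hfix⟩
  · exact absurd (h s hsI hsζ) hsη
  have hγA : γ ∈ A := (A.valuation_le_one_iff γ).mp hγ.le
  have hu : IsUnit (⟨γ, hγA⟩ : A) := (A.valuation_eq_one_iff _).mpr hγ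
  refine ⟨⟨σ, mem_tameGrp.mpr ⟨hσ, hσζ⟩, w, mem_fixK.mpr fun t ht => ?_, hw, ⟨γ, hγA⟩,
    (hu.map (residue A)).ne_zero, hσw⟩⟩
  obtain ⟨⟨htI, htζ⟩, htη⟩ := mem_wildGrp.mp ht
  exact hfix t htI htζ htη

namespace Break

variable (B : Break p A ζ η)

theorem σ_inertia : B.σ ∈ A.inertiaSubgroupIn ℚ := tameGrp_le B.σ_mem

theorem σ_ζ : B.σ ζ = ζ := (mem_tameGrp.mp B.σ_mem).2

theorem w_ne : B.w ≠ 0 :=
  valuation_ne_zero_of_pow (Nat.mul_ne_zero (Fact.out : p.Prime).ne_zero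
    (Nat.sub_pos_of_lt (Fact.out : p.Prime).one_lt).ne') B.w_pow

theorem w_fix : ∀ s ∈ A.inertiaSubgroupIn ℚ, s ζ = ζ → s η = η → s B.w = B.w :=
  fun s hs h1 h2 => mem_fixK.mp B.w_mem s (mem_wildGrp.mpr ⟨⟨hs, h1⟩, h2⟩)

/-- The uniformiser below is the `p`-th power of the one above, up to a unit. -/
theorem valuation_zeta_sub_one_eq (hζ : IsPrimitiveRoot ζ p) :
    A.valuation (ζ - 1) = A.valuation B.w ^ p := by
  have hp : p.Prime := Fact.out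
  refine (pow_left_inj₀ zero_le zero_le (Nat.sub_pos_of_lt hp.one_lt).ne').mp ?_
  rw [valuation_zeta_sub_one hζ, ← pow_mul, B.w_pow]

/-- The constants fixed by the inertia elements fixing `ζ` and `η`. -/
def consts (hA : A.LiesOverPrime p) (hζ : IsPrimitiveRoot ζ p) (hη0 : η ≠ 0)
    (hη : ∀ σ ∈ A.inertiaSubgroupIn ℚ, σ (η ^ p) = η ^ p) : Consts A :=
  wildConsts hA hζ hη0 hη B.w_pow B.w_mem

omit B in
theorem apply_mem (hζ : IsPrimitiveRoot ζ p) (hη0 : η ≠ 0)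
    (hη : ∀ σ ∈ A.inertiaSubgroupIn ℚ, σ (η ^ p) = η ^ p) {σ : GalQ} (hσ : σ ∈ tameGrp A ζ)
    {x : Qbar} (hx : x ∈ fixK (wildGrp A ζ η)) : σ x ∈ fixK (wildGrp A ζ η) := by
  refine mem_fixK.mpr fun s hs => ?_
  obtain ⟨⟨hsI, hsζ⟩, hsη⟩ := mem_wildGrp.mp hs
  exact KummerUnit.apply_fixed hζ hη0 hη (tameGrp_le hσ) (mem_tameGrp.mp hσ).2
    (fun t h h1 h2 => mem_fixK.mp hx t (mem_wildGrp.mpr ⟨⟨h, h1⟩, h2⟩)) s hsI hsζ hsη

/-- Roots of unity among the constants are close to one. -/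
theorem zeta_close (hp2 : p ≠ 2) (hA : A.LiesOverPrime p) (hζ : IsPrimitiveRoot ζ p) {c : Qbar}
    (hc : c ^ p = 1) : (c - 1) / B.w ^ 3 ∈ A := by
  have : NeZero p := ⟨(Fact.out : p.Prime).ne_zero⟩
  obtain ⟨i, -, rfl⟩ := hζ.eq_pow_of_pow_eq_one hc
  have h1 : A.valuation (ζ ^ i - 1) ≤ A.valuation B.w ^ 3 := by
    refine le_trans ?_ (KummerUnit.zeta_sub_one_le hp2 hA hζ B.w_pow)
    rw [← mul_geom_sum, map_mul]
    refine mul_le_of_le_one_right' ((A.valuation_le_one_iff _).mpr (sum_mem fun j _ => ?_))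
    refine pow_mem ((A.valuation_le_one_iff _).mp (le_of_eq ?_)) j
    exact (pow_left_inj₀ zero_le zero_le (Fact.out : p.Prime).ne_zero).mp
      (by rw [← map_pow, hζ.pow_eq_one, map_one, one_pow])
  rw [← A.valuation_le_one_iff, map_div₀, map_pow, div_le_one₀ (pow_pos ?_ 3)]
  · exact h1
  · exact zero_lt_iff.mpr ((map_ne_zero _).mpr B.w_ne)

variable (hA : A.LiesOverPrime p) (hζ : IsPrimitiveRoot ζ p) (hη0 : η ≠ 0)
  (hη : ∀ σ ∈ A.inertiaSubgroupIn ℚ, σ (η ^ p) = η ^ p)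

/-- An integral series moves by multiples of `w ^ 2`. -/
theorem exists_intSer_smul {y : LaurentSeries Qbar}
    (hy : y ∈ (B.consts hA hζ hη0 hη).intSer) :
    ∃ z ∈ (B.consts hA hζ hη0 hη).intSer,
      coeffMap (B.σ : Qbar →+* Qbar) y = y + HahnSeries.C (B.w ^ 2) * z := by
  set Q := B.consts hA hζ hη0 hη
  have hw2 : B.w ^ 2 ≠ 0 := pow_ne_zero _ B.w_ne
  refine ⟨HahnSeries.C (B.w ^ 2)⁻¹ * (coeffMap (B.σ : Qbar →+* Qbar) y - y), fun n => ?_, ?_⟩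
  · rw [HahnSeries.C_mul_eq_smul, HahnSeries.coeff_smul, smul_eq_mul, HahnSeries.coeff_sub,
      coeffMap_coeff]
    obtain ⟨hA', hK⟩ := hy n
    refine ⟨(A.valuation_le_one_iff _).mp ?_,
      mul_mem (inv_mem (pow_mem B.w_mem 2)) (sub_mem (apply_mem hζ hη0 hη B.σ_mem hK) hK)⟩
    rw [map_mul, map_inv₀, map_pow,
      inv_mul_le_iff₀ (pow_pos (zero_lt_iff.mpr ((map_ne_zero _).mpr B.w_ne)) 2), mul_one]
    exact KummerUnit.valuation_apply_sub_le hA hζ hη0 hη B.w_pow B.w_fix B.σ_inertia B.σ_ζ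
      ((A.valuation_le_one_iff _).mpr B.γ.2) B.σ_w hA'
      fun s hs h1 h2 => mem_fixK.mp hK s (mem_wildGrp.mpr ⟨⟨hs, h1⟩, h2⟩)
  · rw [← mul_assoc, ← map_mul, mul_inv_cancel₀ hw2, map_one, one_mul, add_sub_cancel]

/-- The symmetry is congruent to the identity modulo `w ^ 2` on integral series. -/
theorem small_series {y : LaurentSeries Qbar} (hy : y ∈ (B.consts hA hζ hη0 hη).serField)
    (hyG : y ∈ Gauss.gaussRing (residue A)) :
    HahnSeries.C (B.w ^ 2)⁻¹ * (coeffMap (B.σ : Qbar →+* Qbar) y - y) ∈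
      Gauss.gaussRing (residue A) := by
  set Q := B.consts hA hζ hη0 hη
  rcases eq_or_ne y 0 with rfl | hy0
  · simp
  obtain ⟨a, ha, b, hb, rfl⟩ := Q.mem_serField_iff.mp hy
  obtain ⟨ha0, hb0⟩ := div_ne_zero_iff.mp hy0
  obtain ⟨i, a', ha', hra, hai⟩ := Q.exists_pow_mul_unit_intSer ha ha0
  obtain ⟨j, b', hb', hrb, hbj⟩ := Q.exists_pow_mul_unit_intSer hb hb0
  have hb'0 : b' ≠ 0 := fun h => hb0 (by rw [hbj, h, mul_zero])
  have hfrac : BAD.Gauss.IsFrac (residue A) (Q.liftA ha') (Q.liftA hb') (a' / b') :=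
    ⟨hrb, by rw [Q.coeffMap_liftA, Q.coeffMap_liftA, mul_div_cancel₀ _ hb'0]⟩
  have hu : a' / b' ∈ Gauss.gaussRing (residue A) := ⟨_, _, hfrac⟩
  have hru : Gauss.gaussRed (residue A) ⟨_, hu⟩ ≠ 0 := by
    rw [BAD.Gauss.gaussRed_eq hu hfrac]
    exact div_ne_zero hra hrb
  have he : a / b = HahnSeries.C (Q.ϖ ^ ((i : ℤ) - j)) * (a' / b') := by
    rw [hai, hbj, zpow_sub₀ Q.ϖ_ne, zpow_natCast, zpow_natCast, map_div₀, mul_div_mul_comm]
  obtain ⟨d, hd⟩ := Int.eq_ofNat_of_zero_le (Q.zpow_exponent_nonneg hyG hu hru he)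
  set c := HahnSeries.C (Q.ϖ ^ d) * a'
  have hc : c ∈ Q.intSer :=
    mul_mem (Q.C_mem_intSer (Q.pow_ϖ_mem d) (pow_mem Q.ϖ_mem d)) ha'
  have hec : a / b = c / b' := by rw [he, hd, zpow_natCast, mul_div_assoc]
  obtain ⟨c₁, hc₁, hσc⟩ := B.exists_intSer_smul hA hζ hη0 hη hc
  obtain ⟨b₁, hb₁, hσb⟩ := B.exists_intSer_smul hA hζ hη0 hη hb'
  have hw2 : HahnSeries.C (B.w ^ 2) * b₁ ∈ Q.intSer :=
    mul_mem (Q.C_mem_intSer (Q.pow_ϖ_mem 2) (pow_mem Q.ϖ_mem 2)) hb₁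
  have hsb : b' + HahnSeries.C (B.w ^ 2) * b₁ ∈ Q.intSer := add_mem hb' hw2
  set bb : Gauss.gaussRing (residue A) :=
    ⟨b', Q.mem_gaussRing_of_mem_intSer hb'⟩ * ⟨_, Q.mem_gaussRing_of_mem_intSer hsb⟩
  have hbb : Gauss.gaussRed (residue A) bb ≠ 0 := by
    have h2 : (⟨_, Q.mem_gaussRing_of_mem_intSer hsb⟩ : Gauss.gaussRing (residue A)) =
        ⟨b', Q.mem_gaussRing_of_mem_intSer hb'⟩ +
          ⟨_, Q.C_pow_mem_gaussRing 2⟩ * ⟨b₁, Q.mem_gaussRing_of_mem_intSer hb₁⟩ := rfl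
    have hr : Gauss.gaussRed (residue A) ⟨b', Q.mem_gaussRing_of_mem_intSer hb'⟩ ≠ 0 := by
      rw [Q.gaussRed_of_mem_intSer hb']
      exact hrb
    simp only [bb, map_mul, h2, map_add, Q.gaussRed_C_pow two_ne_zero, zero_mul, add_zero]
    exact mul_ne_zero hr hr
  have hb'' : b' + HahnSeries.C (B.w ^ 2) * b₁ ≠ 0 := fun h => hbb (by
    rw [show bb = 0 from Subtype.ext (show b' * (b' + HahnSeries.C (B.w ^ 2) * b₁) = 0 by rw [h, mul_zero]), map_zero])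
  have hkey : HahnSeries.C (B.w ^ 2)⁻¹ * (coeffMap (B.σ : Qbar →+* Qbar) (a / b) - a / b) =
      (c₁ * b' - c * b₁) * (bb : LaurentSeries Qbar)⁻¹ := by
    have hC : HahnSeries.C (B.w ^ 2) ≠ (0 : LaurentSeries Qbar) := fun h =>
      pow_ne_zero 2 B.w_ne (HahnSeries.C_injective (h.trans (map_zero _).symm))
    rw [hec, map_div₀, hσc, hσb, map_inv₀]
    simp only [bb, MulMemClass.coe_mul]
    field_simp
    ring
  rw [hkey]
  exact mul_mem (sub_mem (mul_mem (Q.mem_gaussRing_of_mem_intSer hc₁)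
      (Q.mem_gaussRing_of_mem_intSer hb'))
    (mul_mem (Q.mem_gaussRing_of_mem_intSer hc) (Q.mem_gaussRing_of_mem_intSer hb₁)))
    (BAD.Gauss.inv_mem_gaussRing hbb)

end Break

end WildConsts

end Fermat.Agent.LLp
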