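import Fermat.Agent.LLp.Local.ResidualAux

/-!
# Twisted functions are `p`-th powers residually up to a regular logarithmic differential

A function `f` with divisor divisible by `p`, rational over a wild extension `R` of `R₁`, whose
conjugate is `f q ^ c b ^ p` with `q` rational over `R₁` of reduction one: if its leading
coefficients at the cusps are `p`-th powers then all orders of its residual functions are
divisible by `p`. The proof follows the first digit of `b` along the special fibre.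
-/

set_option autoImplicit false
set_option linter.unusedSectionVars false

noncomputable section

open AlgebraicCurve Fermat.Agent.RED

namespace Fermat.Agent.LLp

variable {L k : Type*} [Field L] [Field k] {A : ValuationSubring L} {π : A →+* k}
  {F C : Type*} [Field F] [Algebra L F] [Field C] [Algebra k C] {D : BAD.BadCurve π F C}
  {R₁ R : RatField D.toBadBase} {p : ℕ}

/-- `σ f = f q ^ c b ^ p` with `q` rational over `R₁` of reduction one. -/
structure Twisted (W : WildExt R₁ R p) (f q b : F) (c : ℕ) : Prop where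
  f_mem : f ∈ R.FK
  f_ne : f ≠ 0
  q_mem : q ∈ R₁.FK
  q_mem_O : q ∈ D.O
  q_red : ∀ i, D.red i q = 1
  b_mem : b ∈ R.FK
  b_ne : b ≠ 0
  eq : W.σ • f = f * q ^ c * b ^ p

/-! ### Constants -/

theorem RatField.dig_algebraMap (i : Fin 2) {e : L} {c : A} (he : e = 1 + R.ϖ * c) :
    R.Dig i (algebraMap L F e) (algebraMap k C (π c)) := by
  have h1 : R.ϖ⁻¹ • (algebraMap L F e - 1) = algebraMap L F (c : L) := by
    rw [he, map_add, map_one, add_sub_cancel_left, map_mul, Algebra.smul_def, ← mul_assoc,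
      ← map_mul, inv_mul_cancel₀ R.ϖ_ne, map_one, one_mul]
  exact ⟨h1 ▸ D.algebraMap_mem i c, by rw [h1, D.red_algebraMap]⟩

theorem RatField.hasOrd_algebraMap (i : Fin 2) {d : L} {j : ℤ}
    (hd : A.valuation d = A.valuation R.ϖ ^ j) : R.HasOrd i (algebraMap L F d) j := by
  have hv : A.valuation ((R.ϖ ^ j)⁻¹ * d) = 1 := by
    rw [map_mul, map_inv₀, map_zpow₀, hd,
      inv_mul_cancel₀ (zpow_ne_zero _ R.valuation_ϖ_pos.ne')]
  have hmem : (R.ϖ ^ j)⁻¹ * d ∈ A := (A.valuation_le_one_iff _).mp hv.le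
  have hu : IsUnit (⟨_, hmem⟩ : A) := (A.valuation_eq_one_iff _).mpr hv
  have he : (R.ϖ ^ j)⁻¹ • algebraMap L F d = algebraMap L F ((⟨_, hmem⟩ : A) : L) := by
    rw [Algebra.smul_def, ← map_mul]
  refine ⟨he ▸ D.algebraMap_mem i _, ?_⟩
  rw [he, D.red_algebraMap]
  exact (map_ne_zero _).mpr (hu.map π).ne_zero

theorem RatField.valuation_eq_one_of_res (R : RatField D.toBadBase) {c : A} (hc : π c ≠ 0) : A.valuation (c : L) = 1 := by
  refine le_antisymm ((A.valuation_le_one_iff _).mpr c.2) (not_lt.mp fun hlt => hc ?_)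
  exact D.residue_eq_zero_of_nonunit c hlt

/-- A function congruent to one moved by a root of unity close to one has digit zero. -/
theorem WildExt.dig_zero_of_close (W : WildExt R₁ R p) {i : Fin 2} {Y : F} {δ : C}
    (hY : Y ∈ R.FK) (hd : R.Dig i Y δ) {ζ : L} (hζ : (ζ - 1) / R.ϖ ^ 3 ∈ A)
    (hσ : W.σ • Y = Y * algebraMap L F ζ) : δ = 0 := by
  by_contra hδ
  set w := Y - 1 with hw
  have hw1 : R.HasOrd i w 1 := by
    refine ⟨?_, ?_⟩ <;> rw [zpow_one]
    · exact hd.1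
    · rw [hd.2]; exact hδ
  have hwi := D.inv_mem_of_red_ne_zero hd.1 (by rw [hd.2]; exact hδ)
  have hwK : w ∈ R.FK := sub_mem hY (one_mem _)
  have hdw := W.dig_smul_div hwK hw1
  have hw0 : w ≠ 0 := hw1.ne_zero
  have hσw : W.σ • w = w + Y * algebraMap L F (ζ - 1) := by
    rw [hw, smul_sub, smul_one, hσ, map_sub, map_one]
    ring
  have he : R.ϖ⁻¹ • (W.σ • w / w - 1) =
      ((⟨R.ϖ, R.ϖ_mem_A⟩ : A) : L) •
        (algebraMap L F ((⟨_, hζ⟩ : A) : L) * Y * (R.ϖ⁻¹ • (Y - 1))⁻¹) := by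
    have hϖ : algebraMap L F R.ϖ ≠ 0 := (map_ne_zero _).mpr R.ϖ_ne
    rw [hσw, ← hw]
    show R.ϖ⁻¹ • _ = R.ϖ • (algebraMap L F ((ζ - 1) / R.ϖ ^ 3) * Y * _)
    simp only [Algebra.smul_def, map_inv₀, map_div₀, map_pow]
    field_simp
    ring
  have hm : algebraMap L F ((⟨_, hζ⟩ : A) : L) * Y * (R.ϖ⁻¹ • (Y - 1))⁻¹ ∈ D.V i :=
    mul_mem (mul_mem (D.algebraMap_mem i _) hd.mem) hwi
  have h2 := hdw.2
  rw [he, D.red_smul hm, R.π_ϖ, zero_smul, Int.cast_one, one_mul] at h2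
  exact (map_ne_zero _).mpr W.γ_ne h2.symm

/-! ### The digit of `b` -/

variable [Fact p.Prime] [CharP k p] {W : WildExt R₁ R p} {f q b : F} {c : ℕ}

/-- `b` is congruent to one on both branches. -/
theorem Twisted.exists_dig (H : Twisted W f q b c) (i : Fin 2) : ∃ β, R.Dig i b β := by
  have hp := (Fact.out : p.Prime)
  obtain ⟨n, hn⟩ := R.exists_hasOrd (i := i) H.f_mem H.f_ne
  have hd := W.dig_smul_div H.f_mem hn
  have hq := ((W.dig_eq_zero hp.two_le H.q_mem (D.mem_of_mem_O H.q_mem_O i) (H.q_red i)).pow c).inv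
  have he : b ^ p = W.σ • f / f * (q ^ c)⁻¹ := by
    have hq0 : q ≠ 0 := fun h0 => by
      have h1 := H.q_red i
      rw [h0, BAD.TwoBranch.red_zero] at h1
      exact zero_ne_one h1
    have := H.f_ne
    rw [H.eq]
    field_simp
  have hbp := hd.mul hq
  rw [← he] at hbp
  obtain ⟨hV, h1⟩ := RatField.HasOrd.root (R := R) H.b_mem H.b_ne hbp.red hbp.mem
  exact RatField.exists_dig H.b_mem hV h1

/-- The digit of the moved `b`. -/
theorem Twisted.dig_moved (H : Twisted W f q b c) {i : Fin 2} {β : C} (hb : R.Dig i b β)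
    {g h₀ : F} (hg : g ∈ R.FK) {m : ℤ} (hm : R.HasOrd i g m) (hh : h₀ ∈ R₁.FK)
    (hhV : h₀ ∈ D.V i) (hh1 : D.red i h₀ = 1) :
    R.Dig i (b * (W.σ • g / g) * (h₀ ^ c)⁻¹) (β + (m : C) * algebraMap k C (π W.γ)) := by
  have := H.f_ne
  have h1 := (hb.mul (W.dig_smul_div hg hm)).mul
    ((W.dig_eq_zero (Fact.out : p.Prime).two_le hh hhV hh1).pow c).inv
  simpa using h1

theorem Twisted.moved_eq (H : Twisted W f q b c) {g h₀ : F} (hg : g ≠ 0) (hh : h₀ ≠ 0) :
    W.σ • (f * g ^ p) =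
      f * g ^ p * (q * h₀ ^ p) ^ c * (b * (W.σ • g / g) * (h₀ ^ c)⁻¹) ^ p := by
  rw [smul_mul', smul_pow', H.eq, mul_pow, mul_pow, mul_pow, div_pow, inv_pow, ← pow_mul,
    ← pow_mul, mul_comm c p]
  field_simp

theorem Twisted.moved_mem (H : Twisted W f q b c) {g h₀ : F} (hg : g ∈ R.FK) (hh : h₀ ∈ R₁.FK) :
    b * (W.σ • g / g) * (h₀ ^ c)⁻¹ ∈ R.FK :=
  mul_mem (mul_mem H.b_mem (div_mem (W.maps g hg) hg)) (inv_mem (pow_mem (W.FK_le hh) c))

section Chart

variable [IsAlgClosed L] [IsAlgClosed k] [FF.IsFunctionField L F] {u : F} {ubar : C} {d : ℕ}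
  {h : BAD.Chart D.toBadBase u ubar d}

/-- The residual order at a smooth point is divisible by `p`. -/
theorem dvd_ord_lred_smooth {S : RatField D.toBadBase} (hS : S.RatChart h)
    {z : Fin 2 × Place k C} (hz : IsSmoothPt h z) (hf : f ∈ S.FK) (hf0 : f ≠ 0)
    (hdiv : AllSpec h z fun P => (p : ℤ) ∣ P.ord f) {n : ℤ} (hn : S.HasOrd z.1 f n) :
    (p : ℤ) ∣ z.2.ord (S.lred z.1 f n) := by
  obtain ⟨g, hg, hg0, hfree⟩ := exists_move_smooth hS hz hf hf0 hdiv
  obtain ⟨m, hm⟩ := S.exists_hasOrd (i := z.1) hg hg0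
  obtain ⟨hn', hord⟩ := hn.mul_pow hm p
  have h0 := (hfree.smooth_unit hS hz (mul_mem hf (pow_mem hg p)) hn').1
  rw [hord] at h0
  exact ⟨-z.2.ord (S.lred z.1 g m), by linarith⟩

variable (hR₁ : R₁.RatChart h) (hPd : ∀ P : Place L F, P.deg = 1)
include hR₁ hPd

/-- The third function of a twisted relation between free functions is free. -/
theorem free_of_eq {z : Fin 2 × Place k C} {f' q' b' : F} (hf : IsFreeAt h z f')
    (hq : IsFreeAt h z q') (hb : b' ≠ 0) (he : W.σ • f' = f' * q' ^ c * b' ^ p) :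
    IsFreeAt h z b' := by
  refine ⟨hb, fun P hP => ?_⟩
  have h1 := AllSpec.ord_smul (R := R₁) (S := fun a => a = 0) hPd hR₁.u_mem W.σ_mem hf.2 P hP
  dsimp only at h1 ⊢
  rw [he, P.ord_mul (mul_ne_zero hf.1 (pow_ne_zero _ hq.1)) (pow_ne_zero _ hb),
    P.ord_mul hf.1 (pow_ne_zero _ hq.1), ← zpow_natCast, ← zpow_natCast, P.ord_zpow, P.ord_zpow,
    hf.2 P hP, hq.2 P hP, mul_zero, zero_add, zero_add] at h1
  exact (mul_eq_zero.mp h1).resolve_left
    (Int.natCast_ne_zero.mpr (Fact.out : p.Prime).ne_zero)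

/-- Moving `f`, `q` and `b` to be free at a smooth point. -/
theorem Twisted.exists_local_smooth (H : Twisted W f q b c) {z : Fin 2 × Place k C}
    (hz : IsSmoothPt h z) (hdivf : AllSpec h z fun P => (p : ℤ) ∣ P.ord f)
    (hdivq : AllSpec h z fun P => (p : ℤ) ∣ P.ord q) :
    ∃ g ∈ R.FK, g ≠ 0 ∧ ∃ q' ∈ R₁.FK, ∃ b' ∈ R.FK, IsFreeAt h z (f * g ^ p) ∧
      IsFreeAt h z q' ∧ IsFreeAt h z b' ∧
      W.σ • (f * g ^ p) = f * g ^ p * q' ^ c * b' ^ p ∧
      ∀ (β : C) (m : ℤ), R.Dig z.1 b β → R.HasOrd z.1 g m →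
        R.Dig z.1 b' (β + (m : C) * algebraMap k C (π W.γ)) := by
  have hR := hR₁.mono W.FK_le
  obtain ⟨g, hg, hg0, hff⟩ := exists_move_smooth hR hz H.f_mem H.f_ne hdivf
  obtain ⟨h₀, hh, hhO, hhne, hh1, hqf⟩ :=
    exists_normalise_smooth hR₁ hz H.q_mem H.q_mem_O H.q_red hdivq
  have hh0 : h₀ ≠ 0 := fun h0 => hhne 0 (by rw [h0, BAD.TwoBranch.red_zero])
  have he := H.moved_eq hg0 hh0
  refine ⟨g, hg, hg0, _, mul_mem H.q_mem (pow_mem hh p), _, H.moved_mem hg hh, hff, hqf,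
    free_of_eq hR₁ hPd hff hqf ?_ he, he,
    fun β m hβ hm => H.dig_moved hβ hg hm hh (D.mem_of_mem_O hhO _) hh1⟩
  exact mul_ne_zero (mul_ne_zero H.b_ne
    (div_ne_zero ((smul_ne_zero_iff_ne W.σ).mpr hg0) hg0)) (inv_ne_zero (pow_ne_zero _ hh0))

omit hR₁ in
/-- The digit function of a free `b'` is regular above the point. -/
theorem digit_regular {z : Fin 2 × Place k C} {b' : F} (hb : IsFreeAt h z b') :
    AllSpec h z fun P => 0 ≤ P.ord (R.ϖ⁻¹ • (b' - 1)) := fun P hP =>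
  ord_nonneg_of_mem P (BAD.smul_mem_place
    (sub_mem (mem_of_ord_nonneg P (hb.2 P hP).ge) (one_mem _)) _)

/-- At a smooth point the digit is regular. -/
theorem Twisted.regular_smooth (H : Twisted W f q b c) {z : Fin 2 × Place k C}
    (hz : IsSmoothPt h z) (hdivf : AllSpec h z fun P => (p : ℤ) ∣ P.ord f)
    (hdivq : AllSpec h z fun P => (p : ℤ) ∣ P.ord q) {β : C} (hβ : R.Dig z.1 b β) :
    β ∈ z.2.toValuationSubring := by
  obtain ⟨g, hg, hg0, q', -, b', hb'K, -, -, hbf, -, hdig⟩ :=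
    H.exists_local_smooth hR₁ hPd hz hdivf hdivq
  obtain ⟨m, hm⟩ := R.exists_hasOrd (i := z.1) hg hg0
  have hd := hdig β m hβ hm
  have h1 := (red_mem_of_smooth (hR₁.mono W.FK_le) hz
    (R.smul_mem (by rw [map_inv₀]; exact inv_mem R.ϖ_mem) (sub_mem hb'K (one_mem _))) hd.1
    (digit_regular hPd hbf)).1
  rw [hd.2] at h1
  have h2 := sub_mem h1 (mul_mem (intCast_mem z.2.toValuationSubring m)
    (z.2.algebraMap_mem' (π W.γ)))
  rwa [add_sub_cancel_right] at h2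

/-- At a crossing the digits are regular and, if constant, force the residual orders to be
divisible by `p`. -/
theorem Twisted.crossing (H : Twisted W f q b c) (T : Thickness D R₁ p) {x y : Place k C}
    (hxy : IsCrossing h x y) (hZ : IsFreeAt h ((0 : Fin 2), x) T.Z)
    (hdivf : AllSpec h ((0 : Fin 2), x) fun P => (p : ℤ) ∣ P.ord f)
    (hdivq : AllSpec h ((0 : Fin 2), x) fun P => (p : ℤ) ∣ P.ord q) {β₀ β₁ : C}
    (hβ₀ : R.Dig 0 b β₀) (hβ₁ : R.Dig 1 b β₁) :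
    β₀ ∈ x.toValuationSubring ∧ β₁ ∈ y.toValuationSubring ∧
      ∀ n₀ n₁ m₀ m₁ : ℤ, R.HasOrd 0 f n₀ → R.HasOrd 1 f n₁ → n₀ = p * m₀ → n₁ = p * m₁ →
        β₀ = (m₀ : C) * algebraMap k C (π W.γ) → β₁ = (m₁ : C) * algebraMap k C (π W.γ) →
        (p : ℤ) ∣ x.ord (R.lred 0 f n₀) ∧ (p : ℤ) ∣ y.ord (R.lred 1 f n₁) := by
  have hp := (Fact.out : p.Prime)
  have hR := hR₁.mono W.FK_le
  obtain ⟨hx, hy, hrel⟩ := hxy
  have hxy : IsCrossing h x y := ⟨hx, hy, hrel⟩
  -- coordinates at the crossing over both constant fields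
  have hM₁ := T.hasOrd
  obtain ⟨t₁, X₁, hX₁, ht₁⟩ := exists_nodeCoord hR₁ hxy (M := T.M) T.mem T.mem_O T.red₀ T.red₁ hZ
    (by rw [← zpow_natCast]; exact hM₁.1) (by rw [← zpow_natCast]; exact hM₁.2)
  have hM := (hM₁.transfer W.val_ϖ).1
  rw [← Nat.cast_mul] at hM
  obtain ⟨t, X, hX, ht⟩ := exists_nodeCoord hR hxy (M := p * T.M) (W.FK_le T.mem) T.mem_O T.red₀
    T.red₁ hZ (by rw [← zpow_natCast]; exact hM.1) (by rw [← zpow_natCast]; exact hM.2)
  have hMne : (T.M : ℤ) ≠ 0 := Int.natCast_ne_zero.mpr fun h0 => T.not_dvd (h0 ▸ dvd_zero p)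
  have hord0 : x.ord (D.red 0 T.Z) ≠ 0 := fun h0 => hMne (by rw [← ht₁, h0, mul_zero])
  have htt : (t : ℤ) = p * t₁ := mul_right_cancel₀ hord0 (by
    rw [ht, Nat.cast_mul, ← ht₁, mul_assoc])
  have ht₁p : ¬ (p : ℤ) ∣ t₁ := fun hd => T.not_dvd (Int.natCast_dvd_natCast.mp
    (ht₁ ▸ hd.mul_right _))
  -- move everything away from the crossing
  obtain ⟨g, hg, hg0, hff⟩ := exists_move_crossing hR hxy hX H.f_mem H.f_ne hdivf
  obtain ⟨h₀, hh, hhO, hh1, hqf⟩ :=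
    exists_normalise_crossing hR₁ hxy hX₁ H.q_mem H.q_mem_O H.q_red hdivq
  have hh0 : h₀ ≠ 0 := fun h0 => by
    have := hh1 0
    rw [h0, BAD.TwoBranch.red_zero] at this
    exact zero_ne_one this
  set b' := b * (W.σ • g / g) * (h₀ ^ c)⁻¹ with hb'
  have hbf : IsFreeAt h ((0 : Fin 2), x) b' := free_of_eq hR₁ hPd hff hqf
    (mul_ne_zero (mul_ne_zero H.b_ne (div_ne_zero ((smul_ne_zero_iff_ne W.σ).mpr hg0) hg0))
      (inv_ne_zero (pow_ne_zero _ hh0))) (H.moved_eq hg0 hh0)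
  obtain ⟨g₀, hg₀⟩ := R.exists_hasOrd (i := 0) hg hg0
  obtain ⟨g₁, hg₁⟩ := R.exists_hasOrd (i := 1) hg hg0
  have hd₀ := H.dig_moved hβ₀ hg hg₀ hh (D.mem_of_mem_O hhO 0) (hh1 0)
  have hd₁ := H.dig_moved hβ₁ hg hg₁ hh (D.mem_of_mem_O hhO 1) (hh1 1)
  have hO : R.ϖ⁻¹ • (b' - 1) ∈ D.O :=
    D.mem_O.mpr (Fin.forall_fin_two.mpr ⟨hd₀.1, hd₁.1⟩)
  obtain ⟨hm₀, hglue, -⟩ := red_mem_of_regular (h := h) (z := ((0 : Fin 2), x)) hx hO
    (digit_regular hPd hbf)
  have hreg₁ : AllSpec h ((1 : Fin 2), y) fun P => 0 ≤ P.ord (R.ϖ⁻¹ • (b' - 1)) := fun P hP =>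
    digit_regular hPd hbf P (hP.of_rel h hrel.symm hx)
  obtain ⟨hm₁, -, -⟩ := red_mem_of_regular (h := h) (z := ((1 : Fin 2), y)) hy hO hreg₁
  have hglue := hglue ((1 : Fin 2), y) hy hrel
  dsimp only at hm₀ hm₁ hglue
  rw [hd₀.2] at hm₀ hglue
  rw [hd₁.2] at hm₁ hglue
  refine ⟨?_, ?_, ?_⟩
  · have h2 := sub_mem hm₀ (mul_mem (intCast_mem x.toValuationSubring g₀)
      (x.algebraMap_mem' (π W.γ)))
    rwa [add_sub_cancel_right] at h2
  · have h2 := sub_mem hm₁ (mul_mem (intCast_mem y.toValuationSubring g₁)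
      (y.algebraMap_mem' (π W.γ)))
    rwa [add_sub_cancel_right] at h2
  intro n₀ n₁ m₀ m₁ hn₀ hn₁ hp₀ hp₁ hc₀ hc₁
  obtain ⟨hn₀', ho₀⟩ := hn₀.mul_pow hg₀ p
  obtain ⟨hn₁', ho₁⟩ := hn₁.mul_pow hg₁ p
  obtain ⟨hdiff, hy'⟩ := hff.crossing_unit hR hxy hX (mul_mem H.f_mem (pow_mem hg p)) hn₀' hn₁'
  set o := x.ord (R.lred 0 (f * g ^ p) (n₀ + p * g₀)) with ho
  have hsum : (m₁ + g₁) - (m₀ + g₀) = t₁ * o :=
    mul_left_cancel₀ (Int.natCast_ne_zero.mpr hp.ne_zero) (by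
      calc (p : ℤ) * ((m₁ + g₁) - (m₀ + g₀)) = (n₁ + p * g₁) - (n₀ + p * g₀) := by
            rw [hp₀, hp₁]; ring
        _ = p * (t₁ * o) := by rw [hdiff, htt, mul_assoc])
  have hmod : (p : ℤ) ∣ (m₁ + g₁) - (m₀ + g₀) := by
    rw [hc₀, hc₁, ← add_mul, ← add_mul, ← Int.cast_add, ← Int.cast_add,
      ← map_intCast (algebraMap k C), ← map_intCast (algebraMap k C), ← map_mul, ← map_mul,
      BAD.pv_algebraMap, BAD.pv_algebraMap] at hglue
    exact ((CharP.intCast_eq_intCast k p).mp (mul_right_cancel₀ W.γ_ne hglue).symm).dvd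
  rw [hsum] at hmod
  have hpo : (p : ℤ) ∣ o := ((Nat.prime_iff_prime_int.mp hp).dvd_or_dvd hmod).resolve_left ht₁p
  constructor
  · rw [ho, ho₀] at hpo
    exact (dvd_add_left (dvd_mul_right _ _)).mp hpo
  · rw [ho₁] at hy'
    exact (dvd_add_left (dvd_mul_right _ _)).mp (hy' ▸ dvd_neg.mpr hpo)

end Chart

section Cusp

variable [IsAlgClosed L] [IsAlgClosed k] [FF.IsFunctionField L F]

theorem Cusps.lead_one (K : Cusps D R₁) (i : Fin 2) : K.lead i 1 = 1 := by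
  have h1 := K.lead_mul i 1 1 one_ne_zero one_ne_zero
  rw [one_mul] at h1
  exact (mul_eq_left₀ (K.lead_ne i 1 one_ne_zero)).mp h1.symm

theorem Cusps.lead_pow (K : Cusps D R₁) (i : Fin 2) {g : F} (hg : g ≠ 0) (n : ℕ) :
    K.lead i (g ^ n) = K.lead i g ^ n := by
  induction n with
  | zero => simp [K.lead_one]
  | succ n ih => rw [pow_succ, pow_succ, K.lead_mul i _ _ (pow_ne_zero _ hg) hg, ih]

theorem Cusps.lead_mem (K : Cusps D R₁) (i : Fin 2) {S : RatField D.toBadBase}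
    (hle : S.gal ≤ R₁.gal) {g : F} (hg : g ∈ S.FK) (hg0 : g ≠ 0) :
    algebraMap L F (K.lead i g) ∈ S.FK :=
  (S.mem_iff _).mpr fun τ hτ => by
    rw [SemilinearAut.smul_algebraMap, ← K.lead_smul i τ (hle hτ) g hg0,
      RatField.smul_eq_self hτ hg]

/-- At a cusp the value of `f` is divisible by `p` and determines the digit. -/
theorem Twisted.cusp (H : Twisted W f q b c) (hR₁ : R₁.RatChart D.chartInf)
    (hPd : ∀ P : Place L F, P.deg = 1) (K : Cusps D R₁) (i : Fin 2)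
    (hdivf : ∀ P : Place L F, (p : ℤ) ∣ P.ord f) (hdivq : ∀ P : Place L F, (p : ℤ) ∣ P.ord q)
    {r : L} (hr : algebraMap L F r ∈ R.FK) (hlead : K.lead i f = r ^ p) {n : ℤ}
    (hn : R.HasOrd i f n) {a : k} (hβ : R.Dig i b (algebraMap k C a)) :
    ∃ m : ℤ, n = p * m ∧ a = (m : k) * π W.γ := by
  have hp := (Fact.out : p.Prime)
  have hR := hR₁.mono W.FK_le
  have hz := K.smooth i
  obtain ⟨g, hg, hg0, q', hq'K, b', hb'K, hff, hqf, hbf, he, hdig⟩ :=
    H.exists_local_smooth hR₁ hPd hz (fun P _ => hdivf P) fun P _ => hdivq P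
  obtain ⟨mg, hmg⟩ := R.exists_hasOrd (i := i) hg hg0
  obtain ⟨hn', -⟩ := hn.mul_pow hmg p
  set P := K.P i with hP
  have hspec := K.spec i
  have hf' : f * g ^ p ≠ 0 := hff.1
  -- the leading coefficient of the moved function is a `p`-th power
  set d := r * K.lead i g with hd
  have hdK : algebraMap L F d ∈ R.FK := by
    rw [hd, map_mul]
    exact mul_mem hr (K.lead_mem i W.le hg hg0)
  have hleadf : K.lead i (f * g ^ p) = d ^ p := by
    rw [K.lead_mul i _ _ H.f_ne (pow_ne_zero _ hg0), K.lead_pow i hg0, hlead, hd, mul_pow]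
  have hd0 : d ≠ 0 := fun h0 => K.lead_ne i _ hf' (by rw [hleadf, h0, zero_pow hp.ne_zero])
  obtain ⟨hz0, hval⟩ := hff.smooth_unit hR hz (mul_mem H.f_mem (pow_mem hg p)) hn'
  obtain ⟨c₀, hc₀, hπc₀⟩ := hval P hspec
  dsimp only at hz0 hπc₀
  have hc₀u : A.valuation (c₀ : L) = 1 := by
    refine R.valuation_eq_one_of_res (fun h0 => ?_)
    rw [h0] at hπc₀
    rcases (BAD.pv_eq_zero_iff (mem_of_ord_nonneg _ hz0.ge)).mp hπc₀.symm with h1 | h1
    · exact hn'.2 h1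
    · exact absurd hz0 (ne_of_gt h1)
  obtain ⟨j, hj⟩ := R.exists_zpow d hdK hd0
  have hpj : j * p = n + p * mg := by
    refine zpow_right_injective₀ R.valuation_ϖ_pos R.valuation_ϖ_lt_one.ne ?_
    show A.valuation R.ϖ ^ (j * p) = A.valuation R.ϖ ^ (n + p * mg)
    rw [zpow_mul, ← hj, zpow_natCast, ← map_pow, ← hleadf, K.lead_eq i _ hf' (hff.2 P hspec),
      hc₀, map_mul, map_zpow₀, hc₀u, mul_one]
  -- the value of `b'`
  have hd' := hdig _ mg hβ hmg
  obtain ⟨-, hval'⟩ := red_mem_of_smooth hR hz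
    (R.smul_mem (by rw [map_inv₀]; exact inv_mem R.ϖ_mem) (sub_mem hb'K (one_mem _))) hd'.1
    (digit_regular hPd hbf)
  obtain ⟨c₁, hc₁, hπc₁⟩ := hval' P hspec
  dsimp only at hd' hπc₁
  rw [hd'.2, ← map_intCast (algebraMap k C), ← map_mul, ← map_add, BAD.pv_algebraMap] at hπc₁
  set e := pval P b' with hee
  have hb'P : b' ∈ P.toValuationSubring := mem_of_ord_nonneg P (hbf.2 P hspec).ge
  have hec : e = 1 + R.ϖ * c₁ := by
    rw [Algebra.smul_def, pval_mul (hPd P) (P.algebraMap_mem' _) (sub_mem hb'P (one_mem _)),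
      pval_algebraMap (hPd P), pval_sub (hPd P) hb'P (one_mem _), pval_one (hPd P)] at hc₁
    rw [← hc₁, ← mul_assoc, mul_inv_cancel₀ R.ϖ_ne, one_mul, hee]
    ring
  have he0 : e ≠ 0 := (pval_ne_zero_iff (hPd P) hb'P).mpr ⟨hbf.1, hbf.2 P hspec⟩
  have hdig_e := R.dig_algebraMap i hec
  have hdig_d := W.dig_smul_div hdK (R.hasOrd_algebraMap i hj)
  -- the twisted relation at the cusp
  set s := SemilinearAut.baseAut W.σ with hs
  set Q := K.lead i q' with hQ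
  have hrel : s d ^ p = d ^ p * Q ^ c * e ^ p := by
    have h1 := congrArg (K.lead i) he
    rw [K.lead_smul i _ W.σ_mem _ hf', K.lead_mul i _ _ (mul_ne_zero hf' (pow_ne_zero _ hqf.1))
      (pow_ne_zero _ hbf.1), K.lead_mul i _ _ hf' (pow_ne_zero _ hqf.1), K.lead_pow i hqf.1,
      K.lead_pow i hbf.1, hleadf, map_pow, K.lead_eq i b' hbf.1 (hbf.2 P hspec)] at h1
    exact h1
  set y := e * d / s d with hy
  have hsd0 : s d ≠ 0 := (map_ne_zero s).mpr hd0
  have hsQ : s Q = Q := by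
    rw [hQ, hs, ← K.lead_smul i _ W.σ_mem _ hqf.1, W.σ_fix hq'K]
  have hQ0 : Q ≠ 0 := K.lead_ne i _ hqf.1
  have hyp : y ^ p = (Q ^ c)⁻¹ := by
    rw [hy, div_pow, mul_pow, hrel]
    field_simp
  have hy0 : y ≠ 0 := div_ne_zero (mul_ne_zero he0 hd0) hsd0
  have hyK : algebraMap L F y ∈ R.FK := by
    rw [hy, map_div₀, map_mul, hee, ← K.lead_eq i b' hbf.1 (hbf.2 P hspec)]
    refine div_mem (mul_mem (K.lead_mem i W.le hb'K hbf.1) hdK) ?_
    rw [hs, ← SemilinearAut.smul_algebraMap]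
    exact W.maps _ hdK
  set ζ := s y / y with hζ
  have hζK : algebraMap L F ζ ∈ R.FK := by
    rw [hζ, map_div₀, hs, ← SemilinearAut.smul_algebraMap]
    exact div_mem (W.maps _ hyK) hyK
  have hζp : ζ ^ p = 1 := by
    rw [hζ, div_pow, ← map_pow, hyp, map_inv₀, map_pow, hsQ, div_self]
    exact inv_ne_zero (pow_ne_zero _ hQ0)
  have hdig_y : R.Dig i (algebraMap L F y)
      (algebraMap k C (π c₁) + -((j : C) * algebraMap k C (π W.γ))) := by
    have h1 := hdig_e.mul hdig_d.inv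
    convert h1 using 1
    rw [SemilinearAut.smul_algebraMap, hy, map_div₀, map_mul, inv_div, mul_div_assoc]
  have hzero := W.dig_zero_of_close hyK hdig_y (W.zeta_close ζ hζK hζp) (by
    rw [SemilinearAut.smul_algebraMap, ← map_mul, hζ, mul_div_cancel₀ _ hy0])
  rw [← map_intCast (algebraMap k C), ← map_mul, ← map_neg, ← map_add,
    map_eq_zero_iff _ (algebraMap k C).injective, ← hπc₁] at hzero
  refine ⟨j - mg, by linarith [hpj], ?_⟩
  push_cast
  linear_combination hzero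

/-- The wild case. -/
theorem dvd_ord_lred_of_twisted [FF.IsFunctionField k C] (H : Twisted W f q b c)
    (hfin : R₁.RatChart D.chartFin) (hinf : R₁.RatChart D.chartInf)
    (hPd : ∀ P : Place L F, P.deg = 1) (K : Cusps D R₁) (T : Thickness D R₁ p)
    (hdivf : ∀ P : Place L F, (p : ℤ) ∣ P.ord f) (hdivq : ∀ P : Place L F, (p : ℤ) ∣ P.ord q)
    (hlead : ∀ i, ∃ r : L, algebraMap L F r ∈ R.FK ∧ K.lead i f = r ^ p) (i : Fin 2) {n : ℤ}
    (hn : R.HasOrd i f n) (x : Place k C) : (p : ℤ) ∣ x.ord (R.lred i f n) := by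
  choose β hβ using H.exists_dig
  -- the digits are regular everywhere
  have hreg : ∀ {u : F} {ubar : C} {d : ℕ} (h : BAD.Chart D.toBadBase u ubar d),
      R₁.RatChart h → (∀ x y, IsCrossing h x y → IsFreeAt h ((0 : Fin 2), x) T.Z) →
      ∀ (i : Fin 2) (x : Place k C), ubar ∈ x.toValuationSubring →
        β i ∈ x.toValuationSubring := by
    intro u ubar d h hR₁ hZ i x hx
    rcases smooth_or_crossing h i hx with hs | ⟨rfl, y, hc⟩ | ⟨rfl, w, hc⟩
    · exact H.regular_smooth hR₁ hPd hs (fun P _ => hdivf P) (fun P _ => hdivq P) (hβ i)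
    · exact (H.crossing hR₁ hPd T hc (hZ _ _ hc) (fun P _ => hdivf P) (fun P _ => hdivq P)
        (hβ 0) (hβ 1)).1
    · exact (H.crossing hR₁ hPd T hc (hZ _ _ hc) (fun P _ => hdivf P) (fun P _ => hdivq P)
        (hβ 0) (hβ 1)).2.1
  have hall : ∀ (i : Fin 2) (x : Place k C), β i ∈ x.toValuationSubring := fun i x => by
    rcases x.toValuationSubring.mem_or_inv_mem D.ubar with hx | hx
    · exact hreg D.chartFin hfin T.free_fin i x hx
    · exact hreg D.chartInf hinf T.free_inf i x hx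
  choose a ha using fun i => exists_eq_algebraMap (hall i)
  choose N hN using fun i => R.exists_hasOrd (i := i) H.f_mem H.f_ne
  choose r hrK hr using hlead
  choose m hm hma using fun i => H.cusp hinf hPd K i hdivf hdivq (hrK i) (hr i) (hN i)
    (a := a i) ((ha i).symm ▸ hβ i)
  have hβm : ∀ i, β i = (m i : C) * algebraMap k C (π W.γ) := fun i => by
    rw [← ha i, hma i, map_mul, map_intCast]
  obtain rfl := hn.unique (hN i)
  have key : ∀ {u : F} {ubar : C} {d : ℕ} (h : BAD.Chart D.toBadBase u ubar d),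
      R₁.RatChart h → (∀ x y, IsCrossing h x y → IsFreeAt h ((0 : Fin 2), x) T.Z) →
      ubar ∈ x.toValuationSubring → (p : ℤ) ∣ x.ord (R.lred i f (N i)) := by
    intro u ubar d h hR₁ hZ hx
    rcases smooth_or_crossing h i hx with hs | ⟨rfl, y, hc⟩ | ⟨rfl, w, hc⟩
    · exact dvd_ord_lred_smooth (z := (i, x)) (hR₁.mono W.FK_le) hs H.f_mem H.f_ne
        (fun P _ => hdivf P) hn
    · exact ((H.crossing hR₁ hPd T hc (hZ _ _ hc) (fun P _ => hdivf P) (fun P _ => hdivq P)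
        (hβ 0) (hβ 1)).2.2 _ _ _ _ (hN 0) (hN 1) (hm 0) (hm 1) (hβm 0) (hβm 1)).1
    · exact ((H.crossing hR₁ hPd T hc (hZ _ _ hc) (fun P _ => hdivf P) (fun P _ => hdivq P)
        (hβ 0) (hβ 1)).2.2 _ _ _ _ (hN 0) (hN 1) (hm 0) (hm 1) (hβm 0) (hβm 1)).2
  rcases x.toValuationSubring.mem_or_inv_mem D.ubar with hx | hx
  · exact key D.chartFin hfin T.free_fin hx
  · exact key D.chartInf hinf T.free_inf hx

end Cusp

end Fermat.Agent.LLp
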