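import Fermat.Agent.LLp.Local.Galois
import Mathlib.Algebra.CharP.Basic

/-!
# The first digit of functions congruent to one, and wild symmetries
-/

set_option autoImplicit false

noncomputable section

open AlgebraicCurve Fermat.Agent.RED

namespace Fermat.Agent.LLp

variable {L k : Type*} [Field L] [Field k] {A : ValuationSubring L} {π : A →+* k}
  {F C : Type*} [Field F] [Algebra L F] [Field C] [Algebra k C] {D : BAD.BadBase π F C}

/-- `R` is obtained from `R₁` by a wildly ramified extension of constants of degree `p` with the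
lowest break. -/
structure WildExt (R₁ R : RatField D) (p : ℕ) where
  le : R.gal ≤ R₁.gal
  σ : SemilinearAut L F
  σ_mem : σ ∈ R₁.gal
  maps : ∀ x ∈ R.FK, σ • x ∈ R.FK
  val_ϖ : A.valuation R₁.ϖ = A.valuation R.ϖ ^ p
  small : ∀ (i : Fin 2), ∀ x ∈ R.FK, x ∈ D.V i → (R.ϖ ^ 2)⁻¹ • (σ • x - x) ∈ D.V i
  γ : A
  γ_ne : π γ ≠ 0
  σ_ϖ : SemilinearAut.baseAut σ R.ϖ = R.ϖ * (1 + R.ϖ * γ)
  zeta_close : ∀ c : L, algebraMap L F c ∈ R.FK → c ^ p = 1 → (c - 1) / R.ϖ ^ 3 ∈ A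

namespace RatField

variable (R : RatField D)

/-- `y` is congruent to one on branch `i`, with first digit `β`. -/
def Dig (i : Fin 2) (y : F) (β : C) : Prop :=
  R.ϖ⁻¹ • (y - 1) ∈ D.V i ∧ D.red i (R.ϖ⁻¹ • (y - 1)) = β

variable {R} {i : Fin 2} {y z : F} {β γ : C}

theorem sub_one_eq_smul (y : F) : y - 1 = R.ϖ • (R.ϖ⁻¹ • (y - 1)) := by
  rw [smul_smul, mul_inv_cancel₀ R.ϖ_ne, one_smul]

theorem Dig.mem (h : R.Dig i y β) : y ∈ D.V i := by
  have h1 := D.smul_mem h.1 ⟨R.ϖ, R.ϖ_mem_A⟩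
  rw [← sub_one_eq_smul] at h1
  simpa using add_mem h1 (one_mem (D.V i))

theorem Dig.red (h : R.Dig i y β) : D.red i y = 1 := by
  have h1 : y = ((⟨R.ϖ, R.ϖ_mem_A⟩ : A) : L) • (R.ϖ⁻¹ • (y - 1)) + 1 := by
    show y = R.ϖ • _ + 1
    rw [← sub_one_eq_smul, sub_add_cancel]
  rw [h1, D.red_add (D.smul_mem h.1 _) (one_mem _), D.red_smul h.1, R.π_ϖ, zero_smul,
    BAD.TwoBranch.red_one, zero_add]

theorem Dig.ne_zero (h : R.Dig i y β) : y ≠ 0 := fun h0 => by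
  have := h.red
  rw [h0, BAD.TwoBranch.red_zero] at this
  exact zero_ne_one this

theorem Dig.hasOrd (h : R.Dig i y β) : R.HasOrd i y 0 :=
  hasOrd_zero_iff.mpr ⟨h.mem, by rw [h.red]; exact one_ne_zero⟩

theorem dig_one : R.Dig i (1 : F) 0 := by simp [Dig, zero_mem]

theorem Dig.unique {β' : C} (h : R.Dig i y β) (h' : R.Dig i y β') : β = β' := h.2.symm.trans h'.2

theorem Dig.mul (h : R.Dig i y β) (h' : R.Dig i z γ) : R.Dig i (y * z) (β + γ) := by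
  have he : R.ϖ⁻¹ • (y * z - 1) = R.ϖ⁻¹ • (y - 1) * z + R.ϖ⁻¹ • (z - 1) := by
    rw [smul_mul_assoc, ← smul_add]
    congr 1
    ring
  refine ⟨he ▸ add_mem (mul_mem h.1 h'.mem) h'.1, ?_⟩
  rw [he, D.red_add (mul_mem h.1 h'.mem) h'.1, D.red_mul h.1 h'.mem, h'.red, mul_one, h.2, h'.2]

theorem Dig.inv (h : R.Dig i y β) : R.Dig i y⁻¹ (-β) := by
  have hy := h.ne_zero
  have hi := D.inv_mem_of_red_ne_zero h.mem (by rw [h.red]; exact one_ne_zero)
  have he : R.ϖ⁻¹ • (y⁻¹ - 1) = -(R.ϖ⁻¹ • (y - 1) * y⁻¹) := by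
    rw [smul_mul_assoc, ← smul_neg]
    congr 1
    field_simp
    ring
  refine ⟨he ▸ neg_mem (mul_mem h.1 hi), ?_⟩
  rw [he, D.red_neg (mul_mem h.1 hi), D.red_mul h.1 hi,
    D.red_inv h.mem (by rw [h.red]; exact one_ne_zero), h.red, inv_one, mul_one, h.2]

theorem Dig.pow (h : R.Dig i y β) (n : ℕ) : R.Dig i (y ^ n) ((n : C) * β) := by
  induction n with
  | zero => simpa using dig_one
  | succ n ih =>
    rw [pow_succ, Nat.cast_succ, add_mul, one_mul]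
    exact ih.mul h

theorem Dig.zpow (h : R.Dig i y β) (n : ℤ) : R.Dig i (y ^ n) ((n : C) * β) := by
  obtain ⟨m, rfl | rfl⟩ := Int.eq_nat_or_neg n
  · simpa using h.pow m
  · simpa using (h.pow m).inv

theorem exists_dig {y : F} (hy : y ∈ R.FK) (hV : y ∈ D.V i) (h : D.red i y = 1) :
    ∃ β, R.Dig i y β :=
  ⟨_, R.inv_ϖ_smul_mem (sub_mem hy (one_mem _)) (sub_mem hV (one_mem _))
    (by rw [D.red_sub hV (one_mem _), h, BAD.TwoBranch.red_one, sub_self]), rfl⟩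

end RatField

namespace WildExt

variable {R₁ R : RatField D} {p : ℕ} (W : WildExt R₁ R p) {i : Fin 2}

include W in
theorem FK_le : R₁.FK ≤ R.FK := fun x hx =>
  (R.mem_iff x).mpr fun _ hτ => (R₁.mem_iff x).mp hx _ (W.le hτ)

theorem σ_fix {x : F} (hx : x ∈ R₁.FK) : W.σ • x = x := RatField.smul_eq_self W.σ_mem hx

/-- The constant `τ ϖ / ϖ`. -/
theorem dig_const : R.Dig i (algebraMap L F (1 + R.ϖ * W.γ)) (algebraMap k C (π W.γ)) := by
  have he : R.ϖ⁻¹ • (algebraMap L F (1 + R.ϖ * W.γ) - 1) = algebraMap L F (W.γ : L) := by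
    rw [map_add, map_one, add_sub_cancel_left, map_mul, Algebra.smul_def, ← mul_assoc, ← map_mul,
      inv_mul_cancel₀ R.ϖ_ne, map_one, one_mul]
  exact ⟨he ▸ D.algebraMap_mem i W.γ, by rw [he, D.red_algebraMap]⟩

/-- The digit of `σ x / x`. -/
theorem dig_smul_div {x : F} (hx : x ∈ R.FK) {n : ℤ} (hn : R.HasOrd i x n) :
    R.Dig i (W.σ • x / x) ((n : C) * algebraMap k C (π W.γ)) := by
  set x' := (R.ϖ ^ n)⁻¹ • x with hx'
  have hx'K : x' ∈ R.FK := R.zpow_smul_mem hx n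
  have hsm := W.small i x' hx'K hn.1
  have hxi := D.inv_mem_of_red_ne_zero hn.1 hn.2
  have hd : R.Dig i (W.σ • x' / x') 0 := by
    have hne : x' ≠ 0 := fun h0 => hn.2 (by rw [← hx', h0, BAD.TwoBranch.red_zero])
    have he : R.ϖ⁻¹ • (W.σ • x' / x' - 1) =
        ((⟨R.ϖ, R.ϖ_mem_A⟩ : A) : L) • ((R.ϖ ^ 2)⁻¹ • (W.σ • x' - x') * x'⁻¹) := by
      rw [div_sub_one hne, div_eq_mul_inv, ← smul_mul_assoc, ← smul_mul_assoc, smul_smul]
      congr 2
      show _ = R.ϖ * (R.ϖ ^ 2)⁻¹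
      rw [pow_two, mul_inv, ← mul_assoc, mul_inv_cancel₀ R.ϖ_ne, one_mul]
    refine ⟨he ▸ D.smul_mem (mul_mem hsm hxi) _, ?_⟩
    rw [he, D.red_smul (mul_mem hsm hxi), R.π_ϖ, zero_smul]
  have key : W.σ • x / x =
      algebraMap L F (1 + R.ϖ * W.γ) ^ n * (W.σ • x' / x') := by
    have hx0 := hn.ne_zero
    rw [hx', BAD.semilinear_smul_smul, map_inv₀, map_zpow₀, W.σ_ϖ, Algebra.smul_def,
      Algebra.smul_def, map_inv₀, map_inv₀, map_zpow₀, map_zpow₀, map_mul, mul_zpow]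
    have h1 : algebraMap L F R.ϖ ^ n ≠ 0 := zpow_ne_zero _ ((map_ne_zero _).mpr R.ϖ_ne)
    have h2 : algebraMap L F (1 + R.ϖ * W.γ) ^ n ≠ 0 :=
      zpow_ne_zero _ (W.dig_const (i := i)).ne_zero
    field_simp
  rw [key]
  simpa using (W.dig_const.zpow n).mul hd

include W in
/-- Elements of `R₁` congruent to one have digit zero. -/
theorem dig_eq_zero (hp : 2 ≤ p) {y : F} (hy : y ∈ R₁.FK) (hV : y ∈ D.V i)
    (h : D.red i y = 1) : R.Dig i y 0 := by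
  have h1 := R₁.inv_ϖ_smul_mem (sub_mem hy (one_mem _)) (sub_mem hV (one_mem _))
    (by rw [D.red_sub hV (one_mem _), h, BAD.TwoBranch.red_one, sub_self])
  have hn : R₁.ϖ / R.ϖ ∈ A.nonunits := by
    rw [ValuationSubring.mem_nonunits_iff, map_div₀, W.val_ϖ, div_eq_mul_inv, ← zpow_natCast,
      ← zpow_sub_one₀ R.valuation_ϖ_pos.ne']
    calc A.valuation R.ϖ ^ ((p : ℤ) - 1) ≤ A.valuation R.ϖ ^ (1 : ℤ) :=
          (zpow_le_zpow_iff_right_of_lt_one₀ R.valuation_ϖ_pos R.valuation_ϖ_lt_one).mpr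
            (by omega)
      _ < 1 := by rw [zpow_one]; exact R.valuation_ϖ_lt_one
  have he : R.ϖ⁻¹ • (y - 1) =
      ((⟨_, A.nonunits_subset hn⟩ : A) : L) • (R₁.ϖ⁻¹ • (y - 1)) := by
    rw [smul_smul]
    congr 1
    show _ = R₁.ϖ / R.ϖ * R₁.ϖ⁻¹
    field_simp [R₁.ϖ_ne]
  refine ⟨he ▸ D.smul_mem h1 _, ?_⟩
  rw [he, D.red_smul h1, D.residue_eq_zero_of_nonunit _ hn, zero_smul]

end WildExt

end Fermat.Agent.LLp
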