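import Fermat.Agent.LLp.Local.PointsDefs
import Fermat.Agent.BAD.Core.Symmetry

/-!
# Semilinear symmetries and specialisation
-/

set_option autoImplicit false

noncomputable section

open AlgebraicCurve Fermat.Agent.RED
open scoped Pointwise

namespace Fermat.Agent.LLp

variable {L k : Type*} [Field L] [Field k] {A : ValuationSubring L} {π : A →+* k}
  {F C : Type*} [Field F] [Algebra L F] [Field C] [Algebra k C] {D : BAD.BadBase π F C}
  {u : F} {ubar : C} {d : ℕ}

theorem smul_mem_smulPlace (τ : SemilinearAut L F) {P : Place L F} {a : F}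
    (ha : a ∈ P.toValuationSubring) : τ • a ∈ (τ • P).toValuationSubring := by
  rw [SemilinearAut.smul_toValuationSubring]
  exact ValuationSubring.smul_mem_pointwise_smul τ a _ ha

theorem pval_smul_place (τ : SemilinearAut L F) {P : Place L F} (hP : P.deg = 1) {a : F}
    (ha : a ∈ P.toValuationSubring) :
    pval (τ • P) (τ • a) = SemilinearAut.baseAut τ (pval P a) := by
  have hd : (τ • P).deg = 1 := by rw [SemilinearAut.deg_smul, hP]
  have hm := smul_mem_smulPlace τ ha
  have hc : τ • algebraMap L F (pval P a) = algebraMap L F (SemilinearAut.baseAut τ (pval P a)) :=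
    SemilinearAut.smul_algebraMap τ _
  rw [← sub_eq_zero, ← pval_algebraMap hd (SemilinearAut.baseAut τ (pval P a)),
    ← pval_sub hd hm ((τ • P).algebraMap_mem' _), ← hc, ← smul_sub]
  have hsub := sub_mem ha (P.algebraMap_mem' (pval P a))
  refine (pval_eq_zero_iff hd (smul_mem_smulPlace τ hsub)).mpr ?_
  rcases pval_sub_algebraMap hP ha with h0 | h0
  · exact Or.inl (by rw [h0, smul_zero])
  · exact Or.inr (by rw [SemilinearAut.ord_smul]; exact h0)

namespace RatField

variable (R : RatField D)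

/-- A constant is integral on a branch only if it is integral. -/
theorem mem_A_of_algebraMap_mem {c : L} {i : Fin 2} (hc : algebraMap L F c ∈ D.V i) : c ∈ A := by
  by_contra hcA
  have hn := BAD.TwoBranch.inv_mem_nonunits_of_notMem hcA
  have hc0 : c ≠ 0 := fun h => hcA (h ▸ zero_mem A)
  have h1 := D.red_mul (D.algebraMap_mem i ⟨c⁻¹, A.nonunits_subset hn⟩) hc
  rw [← map_mul, inv_mul_cancel₀ hc0, map_one, BAD.TwoBranch.red_one, D.red_algebraMap,
    D.residue_eq_zero_of_nonunit _ hn, map_zero, zero_mul] at h1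
  exact one_ne_zero h1

variable {R} {τ : SemilinearAut L F} (hτ : τ ∈ R.gal)
include hτ

theorem baseAut_mem {c : L} (hc : c ∈ A) : SemilinearAut.baseAut τ c ∈ A := by
  refine mem_A_of_algebraMap_mem (D := D) (i := 0) ?_
  rw [← SemilinearAut.smul_algebraMap]
  exact R.gal_mem τ hτ 0 _ (D.algebraMap_mem 0 ⟨c, hc⟩)

theorem π_baseAut (c : A) : π ⟨_, baseAut_mem hτ c.2⟩ = π c := by
  apply (algebraMap k C).injective
  rw [← D.red_algebraMap (i := 0), ← D.red_algebraMap (i := 0)]
  show D.red 0 (algebraMap L F (SemilinearAut.baseAut τ (c : L))) = _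
  rw [← SemilinearAut.smul_algebraMap, R.gal_red τ hτ 0 _ (D.algebraMap_mem 0 c)]

theorem smul_mem_O {f : F} (hf : f ∈ D.O) : τ • f ∈ D.O :=
  D.mem_O.mpr fun i => R.gal_mem τ hτ i f (D.mem_of_mem_O hf i)

theorem red2_smul {f : F} (hf : f ∈ D.O) : D.red2 (τ • f) = D.red2 f :=
  funext fun i => R.gal_red τ hτ i f (D.mem_of_mem_O hf i)

theorem smul_eq_self {x : F} (hx : x ∈ R.FK) : τ • x = x := (R.mem_iff x).mp hx τ hτ

end RatField

variable {h : BAD.Chart D u ubar d} {z : Fin 2 × Place k C} {P : Place L F}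

theorem ChartSpec.smul (hPd : ∀ P : Place L F, P.deg = 1) {R : RatField D} (hu : u ∈ R.FK)
    {τ : SemilinearAut L F} (hτ : τ ∈ R.gal) (hP : ChartSpec h P z) :
    ChartSpec h (τ • P) z := by
  have huτ := RatField.smul_eq_self hτ hu
  have humem : u ∈ (τ • P).toValuationSubring := huτ ▸ smul_mem_smulPlace τ hP.1.1
  refine ⟨⟨humem, ?_⟩, hP.2.1, fun a ha haO c hc => ?_⟩
  · rw [← huτ, pval_smul_place τ (hPd P) hP.1.1]
    exact RatField.baseAut_mem hτ hP.1.2
  · set b := τ⁻¹ • a with hb
    have hτi := R.gal.inv_mem hτ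
    have hbR : b ∈ coordRing L u :=
      BAD.semilinear_smul_mem_coordRing τ⁻¹ (RatField.smul_eq_self hτi hu) ha
    have hbO : b ∈ D.O := RatField.smul_mem_O hτi haO
    have hbP : b ∈ P.toValuationSubring := mem_place_of_mem_coordRing L u P hP.1.1 hbR
    have hab : a = τ • b := (smul_inv_smul τ a).symm
    have hcb : SemilinearAut.baseAut τ (pval P b) = (c : L) := by
      rw [← pval_smul_place τ (hPd P) hbP, ← hab, hc]
    have hinv : SemilinearAut.baseAut τ⁻¹ (c : L) = pval P b := by
      rw [SemilinearAut.baseAut_inv, ← hcb, RingEquiv.symm_apply_apply]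
    have h2 := hP.2.2 b hbR hbO ⟨_, RatField.baseAut_mem hτi c.2⟩ hinv.symm
    rw [hb, RatField.red2_smul hτi haO, RatField.π_baseAut hτi] at h2
    exact h2

theorem AllSpec.ord_smul (hPd : ∀ P : Place L F, P.deg = 1) {R : RatField D} (hu : u ∈ R.FK)
    {τ : SemilinearAut L F} (hτ : τ ∈ R.gal) {f : F} {S : ℤ → Prop}
    (hf : AllSpec h z fun P => S (P.ord f)) : AllSpec h z fun P => S (P.ord (τ • f)) := by
  intro P hP
  have h1 := hf _ (hP.smul hPd hu (R.gal.inv_mem hτ))
  dsimp only at h1 ⊢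
  rwa [← SemilinearAut.ord_smul τ, smul_inv_smul] at h1

end Fermat.Agent.LLp
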