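import Fermat.Agent.ECFormal.InertiaFixed
import Fermat.Agent.S13.Tame
import Fermat.Agent.BAD.Ordinary.Consts

/-!
# The wild extension cut out by the Kummer class of a unit

`ζ` a primitive `p`-th root of one and `η` a unit with `η ^ p` fixed by inertia at a place over
`p`. Write `H₁` for the inertia elements fixing `ζ`, `H₂` for those fixing `η` as well.
Either `H₁ = H₂`, or `ℚ̄^{H₂}/ℚ̄^{H₁}` is wild of degree `p` with the lowest break: some
`σ ∈ H₁` and `w` fixed by `H₂` have `v w ^ (p (p - 1)) = v p` and `σ w = w (1 + w γ)`, `v γ = 1`.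
-/

set_option autoImplicit false

noncomputable section

namespace Fermat.Agent.LLp.KummerUnit

open Fermat.Agent.Galois (Qbar GalQ)
open Fermat.Agent.ECFormal (valuation_apply_of_mem_decomposition valuation_eq_zpow_of_fixed
  valuation_natPrime_lt_one valuation_natPrime_ne_zero)

variable {p : ℕ} [Fact p.Prime] {A : ValuationSubring Qbar}

theorem mem_decomposition {σ : GalQ} (hσ : σ ∈ A.inertiaSubgroupIn ℚ) :
    σ ∈ A.decompositionSubgroup ℚ := Galois.inertia_le_decomposition A hσ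

/-- The product over the image of a homomorphism to a finite group. -/
theorem exists_norm_fixed (hA : A.LiesOverPrime p) {G : Type*} [Group G] [Fintype G]
    (H : Subgroup GalQ) (hH : ∀ σ ∈ H, σ ∈ A.decompositionSubgroup ℚ) (φ : ↥H →* G) {x : Qbar}
    (hx : x ≠ 0) (hfix : ∀ σ : ↥H, φ σ = 1 → (σ : GalQ) x = x) :
    ∃ N : Qbar, N ≠ 0 ∧ (∀ σ ∈ H, σ N = N) ∧ A.valuation N = A.valuation x ^ Fintype.card G := by
  classical
  choose s hs using fun g : φ.range => MonoidHom.mem_range.mp g.2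
  have hv : ∀ g, A.valuation ((s g : GalQ) x) = A.valuation x := fun g =>
    valuation_apply_of_mem_decomposition (hH _ (s g).2) hA Fact.out x
  refine ⟨(∏ g, (s g : GalQ) x) ^ φ.range.index, ?_, fun σ hσ => ?_, ?_⟩
  · exact pow_ne_zero _ (Finset.prod_ne_zero_iff.mpr fun g _ => (map_ne_zero _).mpr hx)
  · rw [map_pow, map_prod]
    congr 1
    refine Fintype.prod_equiv (Equiv.mulLeft ⟨φ ⟨σ, hσ⟩, MonoidHom.mem_range.mpr ⟨_, rfl⟩⟩) _ _
      fun g => ?_
    set g' := Equiv.mulLeft (⟨φ ⟨σ, hσ⟩, MonoidHom.mem_range.mpr ⟨_, rfl⟩⟩ : φ.range) g with hg'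
    have he : φ ((s g')⁻¹ * ⟨σ, hσ⟩ * s g) = 1 := by
      rw [map_mul, map_mul, map_inv, hs, hs, hg']
      simp only [Equiv.coe_mulLeft, Subgroup.coe_mul]
      group
    have h1 := hfix _ he
    have h2 := congrArg (s g' : GalQ) h1
    simp only [Subgroup.coe_mul, Subgroup.coe_inv, AlgEquiv.mul_apply,
      Galois.galQ_apply_inv] at h2
    exact h2
  · rw [map_pow, map_prod, Finset.prod_congr rfl fun g _ => hv g, Finset.prod_const,
      Finset.card_univ, ← pow_mul, ← Nat.card_eq_fintype_card, ← Nat.card_eq_fintype_card,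
      φ.range.card_mul_index]

/-- An element fixed by the inertia elements fixing `ζ`. -/
theorem valuation_pow_pred_of_fixed (hA : A.LiesOverPrime p) {ζ : Qbar} (hζ : IsPrimitiveRoot ζ p)
    {x : Qbar} (hx : x ≠ 0) (hfix : ∀ σ ∈ A.inertiaSubgroupIn ℚ, σ ζ = ζ → σ x = x) :
    ∃ m : ℤ, A.valuation x ^ (p - 1) = A.valuation (p : Qbar) ^ m := by
  have hp : p.Prime := Fact.out
  have := NeZero.mk hp.ne_zero
  set hn := IsAlgClosed.card_rootsOfUnity_eq Qbar p
  let χ : ↥(A.inertiaSubgroupIn ℚ) →* (ZMod p)ˣ :=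
    MonoidHom.mk' (fun σ => modularCyclotomicCharacter Qbar hn ((σ : GalQ) : Qbar ≃+* Qbar))
      (fun a b => by rw [← map_mul]; congr 1)
  obtain ⟨N, hN0, hN, hvN⟩ := exists_norm_fixed hA _ (fun σ hσ => mem_decomposition hσ) χ hx
    fun σ hσ => by
      refine hfix _ σ.2 ?_
      have h := modularCyclotomicCharacter.spec Qbar hn ((σ : GalQ) : Qbar ≃+* Qbar)
        (t := (hζ.isUnit hp.ne_zero).unit)
        ((mem_rootsOfUnity _ _).mpr (Units.ext (by simp [hζ.pow_eq_one])))
      change modularCyclotomicCharacter Qbar hn ((σ : GalQ) : Qbar ≃+* Qbar) = 1 at hσ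
      rw [hσ, Units.val_one, ZMod.val_one, pow_one] at h
      simpa using h
  obtain ⟨m, hm⟩ := valuation_eq_zpow_of_fixed hA hp hN0 hN
  exact ⟨m, by rw [← hm, hvN, ZMod.card_units p]⟩

/-- An element fixed by the inertia elements fixing `ζ` and `η`. -/
theorem valuation_pow_of_fixed (hA : A.LiesOverPrime p) {ζ η : Qbar} (hζ : IsPrimitiveRoot ζ p)
    (hη0 : η ≠ 0) (hη : ∀ σ ∈ A.inertiaSubgroupIn ℚ, σ (η ^ p) = η ^ p) {x : Qbar} (hx : x ≠ 0)
    (hfix : ∀ σ ∈ A.inertiaSubgroupIn ℚ, σ ζ = ζ → σ η = η → σ x = x) :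
    ∃ m : ℤ, A.valuation x ^ (p * (p - 1)) = A.valuation (p : Qbar) ^ m := by
  have hp : p.Prime := Fact.out
  have := NeZero.mk hp.ne_zero
  set H := A.inertiaSubgroupIn ℚ ⊓ MulAction.stabilizer GalQ ζ with hH
  have hmem : ∀ {σ : GalQ}, σ ∈ H ↔ σ ∈ A.inertiaSubgroupIn ℚ ∧ σ ζ = ζ := Iff.rfl
  have : Finite (rootsOfUnity p Qbar) := Nat.finite_of_card_ne_zero (by
    rw [IsAlgClosed.card_rootsOfUnity_eq Qbar p]; exact hp.ne_zero)
  let _ := Fintype.ofFinite (rootsOfUnity p Qbar)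
  have hroot : ∀ σ : ↥H, ((σ : GalQ) η / η) ^ p = 1 := fun σ => by
    rw [div_pow, ← map_pow, hη _ (hmem.mp σ.2).1, div_self (pow_ne_zero _ hη0)]
  let φ : ↥H →* rootsOfUnity p Qbar :=
    MonoidHom.mk' (fun σ => rootsOfUnity.mkOfPowEq ((σ : GalQ) η / η) (hroot σ)) fun a b => by
      refine rootsOfUnity.coe_injective ?_
      simp only [Subgroup.coe_mul, Units.val_mul, rootsOfUnity.val_mkOfPowEq_coe, AlgEquiv.mul_apply]
      obtain ⟨i, -, hi⟩ := hζ.eq_pow_of_pow_eq_one (hroot b)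
      have : (b : GalQ) η = ζ ^ i * η := by rw [hi, div_mul_cancel₀ _ hη0]
      rw [this, map_mul, map_pow, (hmem.mp a.2).2]
      field_simp
  obtain ⟨N, hN0, hN, hvN⟩ := exists_norm_fixed hA H (fun σ hσ => mem_decomposition (hmem.mp hσ).1)
    φ hx fun σ hσ => by
      refine hfix _ (hmem.mp σ.2).1 (hmem.mp σ.2).2 ?_
      have := congrArg (fun t : rootsOfUnity p Qbar => ((t : Qbarˣ) : Qbar)) hσ
      simpa [φ, div_eq_one_iff_eq hη0] using this
  obtain ⟨m, hm⟩ := valuation_pow_pred_of_fixed hA hζ hN0 fun σ hσ hσζ => hN σ (hmem.mpr ⟨hσ, hσζ⟩)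
  refine ⟨m, ?_⟩
  rw [← hm, hvN, ← pow_mul, ← Nat.card_eq_fintype_card,
    IsAlgClosed.card_rootsOfUnity_eq Qbar p]

/-- The valuations of the elements fixed by `H₂` are powers of that of `w`. -/
theorem valuation_eq_zpow_wild (hA : A.LiesOverPrime p) {ζ η w : Qbar}
    (hζ : IsPrimitiveRoot ζ p) (hη0 : η ≠ 0)
    (hη : ∀ σ ∈ A.inertiaSubgroupIn ℚ, σ (η ^ p) = η ^ p)
    (hw : A.valuation w ^ (p * (p - 1)) = A.valuation (p : Qbar)) {x : Qbar} (hx : x ≠ 0)
    (hfix : ∀ σ ∈ A.inertiaSubgroupIn ℚ, σ ζ = ζ → σ η = η → σ x = x) :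
    ∃ m : ℤ, A.valuation x = A.valuation w ^ m := by
  obtain ⟨m, hm⟩ := valuation_pow_of_fixed hA hζ hη0 hη hx hfix
  have hp : p.Prime := Fact.out
  refine ⟨m, (pow_left_inj₀ zero_le zero_le
    (Nat.mul_ne_zero hp.ne_zero (Nat.sub_pos_of_lt hp.one_lt).ne')).mp ?_⟩
  rw [hm, ← hw, ← zpow_natCast, ← zpow_natCast, ← zpow_mul, ← zpow_mul, mul_comm]

/-- `ζ - 1` is divisible by `w ^ 3`. -/
theorem zeta_sub_one_le (hp2 : p ≠ 2) (hA : A.LiesOverPrime p) {ζ w : Qbar}
    (hζ : IsPrimitiveRoot ζ p)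
    (hw : A.valuation w ^ (p * (p - 1)) = A.valuation (p : Qbar)) :
    A.valuation (ζ - 1) ≤ A.valuation w ^ 3 := by
  have hp : p.Prime := Fact.out
  have h2 := hp.two_le
  have hlt : A.valuation (p : Qbar) < 1 := valuation_natPrime_lt_one hA
  have he : A.valuation (ζ - 1) = A.valuation w ^ p := by
    refine (pow_left_inj₀ zero_le zero_le (show p - 1 ≠ 0 by omega)).mp ?_
    rw [S13.val_zeta_sub_one_pow A.valuation hp hζ, ← hw, pow_mul]
  have hw1 : A.valuation w ≤ 1 := by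
    refine not_lt.mp fun h => hlt.not_ge ?_
    rw [← hw]
    exact one_le_pow_of_one_le' h.le _
  rw [he]
  exact pow_le_pow_right_of_le_one' hw1 (by omega)

/-- The dichotomy. -/
theorem exists_break (hp2 : p ≠ 2) (hA : A.LiesOverPrime p) {ζ η : Qbar} (hζ : IsPrimitiveRoot ζ p)
    (hη1 : A.valuation η = 1) (hη : ∀ σ ∈ A.inertiaSubgroupIn ℚ, σ (η ^ p) = η ^ p) :
    (∀ σ ∈ A.inertiaSubgroupIn ℚ, σ ζ = ζ → σ η = η) ∨
      ∃ (σ : GalQ) (w γ : Qbar), σ ∈ A.inertiaSubgroupIn ℚ ∧ σ ζ = ζ ∧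
        A.valuation w ^ (p * (p - 1)) = A.valuation (p : Qbar) ∧ A.valuation γ = 1 ∧
        σ w = w * (1 + w * γ) ∧
        ∀ s ∈ A.inertiaSubgroupIn ℚ, s ζ = ζ → s η = η → s w = w := by
  classical
  have hp : p.Prime := Fact.out
  have h2 := hp.two_le
  refine or_iff_not_imp_left.mpr fun hmove => ?_
  push Not at hmove
  obtain ⟨σ, hσ, hσζ, hση⟩ := hmove
  have hσd := mem_decomposition hσ
  have hη0 : η ≠ 0 := fun h => by rw [h, map_zero] at hη1; exact zero_ne_one hη1
  have hηA : η ∈ A := (A.valuation_le_one_iff η).mp hη1.le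
  obtain ⟨a, hafix, har⟩ :=
    BAD.Ordinary.exists_fixed_residue hA (IsLocalRing.residue A ⟨η, hηA⟩)
  have hηa : A.valuation (η - a) < 1 :=
    A.mem_nonunits_iff.mp (Galois.residue_eq_residue_iff.mp har.symm)
  have hva : A.valuation (a : Qbar) = 1 := by
    rw [show (a : Qbar) = η - (η - a) by ring, A.valuation.map_sub_eq_of_lt_left (by rwa [hη1]),
      hη1]
  have ha0 : (a : Qbar) ≠ 0 := fun h => by rw [h, map_zero] at hva; exact zero_ne_one hva
  set e := η / (a : Qbar) with he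
  set y := e - 1 with hy
  have hvy : A.valuation y < 1 := by
    rw [hy, he, div_sub_one ha0, map_div₀, hva, div_one]
    exact hηa
  have hmove_e : ∀ s ∈ A.inertiaSubgroupIn ℚ, s e = s η / a := fun s hs => by
    rw [he, map_div₀, hafix s hs]
  have hve : A.valuation e = 1 := by rw [he, map_div₀, hη1, hva, div_one]
  set π := A.valuation (p : Qbar) with hπ
  have hπ0 : 0 < π := zero_lt_iff.mpr (valuation_natPrime_ne_zero hp A)
  have hπ1 : π < 1 := valuation_natPrime_lt_one hA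
  -- `e ^ p - 1` is fixed, so its value is a power of `π`
  have hpow : ∀ s ∈ A.inertiaSubgroupIn ℚ, s (e ^ p - 1) = e ^ p - 1 := fun s hs => by
    rw [map_sub, map_one, he, div_pow, map_div₀, map_pow s (a : Qbar), hafix s hs, hη s hs]
  -- the middle terms of `(1 + y) ^ p`
  obtain ⟨r, hr⟩ : ∃ r : ℕ, r + 1 = p := ⟨p - 1, by omega⟩
  have hexp : A.valuation (e ^ p - 1 - y ^ p) ≤ π * A.valuation y := by
    have h1 : e ^ p - 1 - y ^ p = ∑ i ∈ Finset.Ico 1 p, y ^ i * (p.choose i : Qbar) := by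
      have h2' := add_pow y (1 : Qbar) p
      rw [show y + 1 = e by rw [hy]; ring] at h2'
      rw [h2', Finset.sum_range_succ, Finset.range_eq_Ico,
        Finset.sum_eq_sum_Ico_succ_bot (show 0 < p by omega)]
      simp only [pow_zero, Nat.choose_zero_right, Nat.cast_one, one_pow, mul_one, Nat.sub_self,
        Nat.choose_self]
      ring
    rw [h1]
    refine A.valuation.map_sum_le fun i hi => ?_
    obtain ⟨hi1, hi2⟩ := Finset.mem_Ico.mp hi
    obtain ⟨d, hd⟩ := hp.dvd_choose_self (show i ≠ 0 by omega) hi2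
    rw [map_mul, map_pow, hd, Nat.cast_mul, map_mul, ← hπ, mul_comm]
    refine mul_le_mul' (mul_le_of_le_one_right' ?_) ?_
    · exact (A.valuation_le_one_iff _).mpr (natCast_mem A d)
    · exact pow_le_of_le_one zero_le hvy.le (by omega)
  -- the first digit of `y`
  have hyp : A.valuation y ^ p = π := by
    rcases eq_or_ne (A.valuation y) 0 with hy0 | hy0
    · exfalso
      refine hση ?_
      have he1 : e = 1 := sub_eq_zero.mp ((map_eq_zero _).mp hy0)
      have h := hmove_e σ hσ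
      rw [he1, map_one, eq_div_iff ha0, one_mul] at h
      rw [← h]
      exact ((div_eq_one_iff_eq ha0).mp he1).symm
    by_contra hne
    -- otherwise a root of `X ^ p = e ^ p` lies strictly closer to `1` than the others
    have hle : A.valuation y ^ p ≤ π := by
      by_contra hgt
      rw [not_le] at hgt
      have hval : A.valuation (e ^ p - 1) = A.valuation y ^ p := by
        rw [show e ^ p - 1 = y ^ p + (e ^ p - 1 - y ^ p) by ring,
          A.valuation.map_add_eq_of_lt_left, map_pow]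
        rw [map_pow]
        exact (hexp.trans (mul_le_of_le_one_right' hvy.le)).trans_lt hgt
      obtain ⟨m, hm⟩ := valuation_eq_zpow_of_fixed hA hp (x := e ^ p - 1) (fun h0 => by
        rw [h0, map_zero] at hval; exact pow_ne_zero p hy0 hval.symm) hpow
      rw [hval, ← hπ] at hm
      have h1 : π ^ m < 1 := hm ▸ pow_lt_one₀ zero_le hvy hp.ne_zero
      rw [← zpow_zero π, zpow_lt_zpow_iff_right_of_lt_one₀ hπ0 hπ1] at h1
      rw [hm] at hgt
      nth_rewrite 1 [← zpow_one π] at hgt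
      rw [zpow_lt_zpow_iff_right_of_lt_one₀ hπ0 hπ1] at hgt
      omega
    have hsmall : A.valuation (e ^ p - 1) < π := by
      rw [show e ^ p - 1 = y ^ p + (e ^ p - 1 - y ^ p) by ring]
      refine A.valuation.map_add_lt ?_ (hexp.trans_lt (mul_lt_of_lt_one_right hπ0 hvy))
      rw [map_pow]; exact lt_of_le_of_ne hle hne
    have hlev : A.valuation (e ^ p - 1) < A.valuation (ζ - 1) ^ p := by
      have hζlt : A.valuation (ζ - 1) < 1 := by
        refine not_le.mp fun h => hπ1.not_ge ?_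
        rw [hπ, ← S13.val_zeta_sub_one_pow A.valuation hp hζ]
        exact one_le_pow_of_one_le' h _
      have hζp : A.valuation (ζ - 1) ^ p = π * A.valuation (ζ - 1) := by
        rw [hπ, ← S13.val_zeta_sub_one_pow A.valuation hp hζ, ← pow_succ,
          show p - 1 + 1 = p by omega]
      rw [hζp]
      rcases eq_or_ne (e ^ p - 1) 0 with h0 | h0
      · rw [h0, map_zero]
        exact mul_pos hπ0 (zero_lt_iff.mpr ((map_ne_zero _).mpr
          (sub_ne_zero.mpr (hζ.ne_one hp.one_lt))))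
      obtain ⟨m, hm⟩ := valuation_eq_zpow_of_fixed hA hp h0 hpow
      rw [← hπ] at hm
      rw [hm] at hsmall
      nth_rewrite 2 [← zpow_one π] at hsmall
      rw [zpow_lt_zpow_iff_right_of_lt_one₀ hπ0 hπ1] at hsmall
      calc A.valuation (e ^ p - 1) = π ^ m := hm
        _ ≤ π ^ (2 : ℤ) :=
            (zpow_le_zpow_iff_right_of_lt_one₀ hπ0 hπ1).mpr (by omega)
        _ = π * A.valuation (ζ - 1) ^ (p - 1) := by
            rw [S13.val_zeta_sub_one_pow A.valuation hp hζ, ← hπ, zpow_two]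
        _ < π * A.valuation (ζ - 1) := by
            refine mul_lt_mul_of_pos_left ?_ hπ0
            exact pow_lt_self_of_lt_one₀ (zero_lt_iff.mpr ((map_ne_zero _).mpr
              (sub_ne_zero.mpr (hζ.ne_one hp.one_lt)))) hζlt (by
                rcases lt_or_eq_of_le h2 with h3 | h3
                · omega
                · exact absurd h3.symm hp2)
    obtain ⟨i, hi⟩ : ∃ i < p, A.valuation (e - ζ ^ i) < A.valuation (ζ - 1) := by
      by_contra hall
      push Not at hall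
      refine hlev.not_ge ?_
      have hprod : e ^ p - 1 = ∏ i ∈ Finset.range p, (e - ζ ^ i) := by
        have h1 := congrArg (Polynomial.eval e) (Polynomial.X_pow_sub_one_eq_prod hp.pos hζ)
        rw [Polynomial.eval_sub, Polynomial.eval_pow, Polynomial.eval_X, Polynomial.eval_one,
          Polynomial.eval_prod] at h1
        rw [h1, Polynomial.nthRootsFinset, Finset.prod_eq_multiset_prod, Multiset.toFinset_val,
          Multiset.dedup_eq_self.mpr (hζ.nthRoots_one_nodup), hζ.nthRoots_eq (one_pow p),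
          Multiset.map_map, ← Finset.range_val, ← Finset.prod_eq_multiset_prod]
        simp
      rw [hprod, map_prod]
      calc A.valuation (ζ - 1) ^ p = ∏ _i ∈ Finset.range p, A.valuation (ζ - 1) := by simp
        _ ≤ _ := Finset.prod_le_prod' fun i hi => hall i (Finset.mem_range.mp hi)
    refine hση ?_
    have hσe : σ e = e := by
      have hd : A.valuation (σ e - ζ ^ i) = A.valuation (e - ζ ^ i) := by
        rw [← valuation_apply_of_mem_decomposition hσd hA hp (e - ζ ^ i), map_sub σ, map_pow σ,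
          hσζ]
      obtain ⟨j, hj, hje⟩ := hζ.eq_pow_of_pow_eq_one (show (σ e / e) ^ p = 1 by
        have h := hpow σ hσ
        rw [map_sub, map_one, sub_left_inj, map_pow] at h
        rw [div_pow, h, div_self]
        exact pow_ne_zero _ (div_ne_zero hη0 ha0))
      rcases Nat.eq_zero_or_pos j with rfl | hj0
      · rw [pow_zero, eq_comm, div_eq_one_iff_eq (div_ne_zero hη0 ha0)] at hje
        exact hje
      exfalso
      have hlt : A.valuation (ζ ^ j - 1) < A.valuation (ζ - 1) := by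
        have h' : A.valuation ((ζ ^ j - 1) * e) < A.valuation (ζ - 1) := by
          rw [hje, sub_mul, one_mul, div_mul_cancel₀ _ (div_ne_zero hη0 ha0),
            show σ e - e = (σ e - ζ ^ i) - (e - ζ ^ i) by ring]
          exact A.valuation.map_sub_lt (hd.trans_lt hi.2) hi.2
        rwa [map_mul, hve, mul_one] at h'
      have hjp : IsPrimitiveRoot (ζ ^ j) p :=
        hζ.pow_of_coprime _ (hp.coprime_iff_not_dvd.mpr
          fun hd' => by have := Nat.le_of_dvd hj0 hd'; omega).symm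
      exact hlt.ne ((pow_left_inj₀ zero_le zero_le (show p - 1 ≠ 0 by omega)).mp
        ((S13.val_zeta_sub_one_pow A.valuation hp hjp).trans
          (S13.val_zeta_sub_one_pow A.valuation hp hζ).symm))
    have h := hmove_e σ hσ
    rw [hσe, he, div_left_inj' ha0] at h
    exact h.symm
  -- the break
  have hy0 : y ≠ 0 := fun h => hπ0.ne' (by rw [← hyp, h, map_zero, zero_pow hp.ne_zero])
  have hζ10 : ζ - 1 ≠ 0 := sub_ne_zero.mpr (hζ.ne_one hp.one_lt)
  set w := (ζ - 1) / y with hw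
  refine ⟨σ, w, -(σ y - y) * y / (σ y * (ζ - 1)), hσ, hσζ, ?_, ?_, ?_, fun s hs hsζ hsη => ?_⟩
  · rw [hw, map_div₀, div_pow, mul_comm p, pow_mul, S13.val_zeta_sub_one_pow A.valuation hp hζ,
      mul_comm (p - 1), pow_mul, hyp, ← hπ, div_eq_iff (pow_ne_zero _ hπ0.ne'), ← pow_succ',
      show p - 1 + 1 = p by omega]
  · have hdiff : A.valuation (σ y - y) = A.valuation (ζ - 1) := by
      obtain ⟨j, hj, hje⟩ := hζ.eq_pow_of_pow_eq_one (show (σ η / η) ^ p = 1 by
        rw [div_pow, ← map_pow, hη σ hσ, div_self (pow_ne_zero _ hη0)])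
      have hj0 : 0 < j := by
        rcases Nat.eq_zero_or_pos j with rfl | h
        · rw [pow_zero, eq_comm, div_eq_one_iff_eq hη0] at hje; exact absurd hje hση
        · exact h
      have hjp : IsPrimitiveRoot (ζ ^ j) p :=
        hζ.pow_of_coprime _ (hp.coprime_iff_not_dvd.mpr
          fun hd' => by have := Nat.le_of_dvd hj0 hd'; omega).symm
      rw [hy, map_sub σ, map_one σ, sub_sub_sub_cancel_right, hmove_e σ hσ, he,
        show σ η / a - η / a = (ζ ^ j - 1) * (η / a) by rw [hje]; field_simp, map_mul, ← he, hve,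
        mul_one]
      exact (pow_left_inj₀ zero_le zero_le (show p - 1 ≠ 0 by omega)).mp
        ((S13.val_zeta_sub_one_pow A.valuation hp hjp).trans
          (S13.val_zeta_sub_one_pow A.valuation hp hζ).symm)
    rw [map_div₀, map_mul, map_mul, Valuation.map_neg, hdiff,
      valuation_apply_of_mem_decomposition hσd hA hp, mul_comm, div_self]
    exact mul_ne_zero ((map_ne_zero _).mpr hy0) ((map_ne_zero _).mpr hζ10)
  · have hσy0 : σ y ≠ 0 := (map_ne_zero _).mpr hy0
    rw [hw, map_div₀, map_sub, map_one, hσζ]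
    field_simp
    ring
  · rw [hw, map_div₀, hy, map_sub, map_sub, map_one, hmove_e s hs, hsζ, hsη, he]

/-- The elements fixed by `H₂` are stable under `H₁`. -/
theorem apply_fixed {ζ η : Qbar} (hζ : IsPrimitiveRoot ζ p) (hη0 : η ≠ 0)
    (hη : ∀ σ ∈ A.inertiaSubgroupIn ℚ, σ (η ^ p) = η ^ p) {σ : GalQ}
    (hσ : σ ∈ A.inertiaSubgroupIn ℚ) (hσζ : σ ζ = ζ) {x : Qbar}
    (hfix : ∀ s ∈ A.inertiaSubgroupIn ℚ, s ζ = ζ → s η = η → s x = x) :
    ∀ s ∈ A.inertiaSubgroupIn ℚ, s ζ = ζ → s η = η → s (σ x) = σ x := by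
  intro s hs hsζ hsη
  have h1 : σ⁻¹ * s * σ ∈ A.inertiaSubgroupIn ℚ := mul_mem (mul_mem (inv_mem hσ) hs) hσ
  obtain ⟨i, -, hi⟩ := hζ.eq_pow_of_pow_eq_one (show (σ η / η) ^ p = 1 by
    rw [div_pow, ← map_pow, hη σ hσ, div_self (pow_ne_zero _ hη0)])
  have hση : σ η = ζ ^ i * η := by rw [hi, div_mul_cancel₀ _ hη0]
  have h2 := hfix _ h1 (by
      rw [AlgEquiv.mul_apply, AlgEquiv.mul_apply, hσζ, hsζ, ← hσζ, Galois.galQ_inv_apply, hσζ])
    (by
      rw [AlgEquiv.mul_apply, AlgEquiv.mul_apply, hση, map_mul, map_pow, hsζ, hsη, ← hση,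
        Galois.galQ_inv_apply])
  have h3 := congrArg σ h2
  rwa [AlgEquiv.mul_apply, AlgEquiv.mul_apply, Galois.galQ_apply_inv] at h3

/-- Nonunits fixed by `H₂` are divisible by `w`. -/
theorem valuation_le_wild (hA : A.LiesOverPrime p) {ζ η w : Qbar} (hζ : IsPrimitiveRoot ζ p)
    (hη0 : η ≠ 0) (hη : ∀ σ ∈ A.inertiaSubgroupIn ℚ, σ (η ^ p) = η ^ p)
    (hw : A.valuation w ^ (p * (p - 1)) = A.valuation (p : Qbar)) {x : Qbar}
    (hx : A.valuation x < 1)
    (hfix : ∀ s ∈ A.inertiaSubgroupIn ℚ, s ζ = ζ → s η = η → s x = x) :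
    A.valuation x ≤ A.valuation w := by
  rcases eq_or_ne x 0 with rfl | hx0
  · rw [map_zero]; exact zero_le
  obtain ⟨m, hm⟩ := valuation_eq_zpow_wild hA hζ hη0 hη hw hx0 hfix
  have hp : p.Prime := Fact.out
  have hne : p * (p - 1) ≠ 0 := Nat.mul_ne_zero hp.ne_zero (Nat.sub_pos_of_lt hp.one_lt).ne'
  have hπ1 : A.valuation (p : Qbar) < 1 := valuation_natPrime_lt_one hA
  have hw0 : 0 < A.valuation w := zero_lt_iff.mpr fun h => by
    rw [h, zero_pow hne] at hw
    exact valuation_natPrime_ne_zero hp A hw.symm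
  have hw1 : A.valuation w < 1 :=
    not_le.mp fun h => hπ1.not_ge (hw ▸ one_le_pow_of_one_le' h _)
  rw [hm] at hx ⊢
  rw [← zpow_zero (A.valuation w), zpow_lt_zpow_iff_right_of_lt_one₀ hw0 hw1] at hx
  conv_rhs => rw [← zpow_one (A.valuation w)]
  exact (zpow_le_zpow_iff_right_of_lt_one₀ hw0 hw1).mpr (by omega)

/-- The break is the lowest one: integral elements fixed by `H₂` move by multiples of `w ^ 2`. -/
theorem valuation_apply_sub_le (hA : A.LiesOverPrime p) {ζ η w γ : Qbar}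
    (hζ : IsPrimitiveRoot ζ p) (hη0 : η ≠ 0)
    (hη : ∀ σ ∈ A.inertiaSubgroupIn ℚ, σ (η ^ p) = η ^ p)
    (hw : A.valuation w ^ (p * (p - 1)) = A.valuation (p : Qbar))
    (hwfix : ∀ s ∈ A.inertiaSubgroupIn ℚ, s ζ = ζ → s η = η → s w = w) {σ : GalQ}
    (hσ : σ ∈ A.inertiaSubgroupIn ℚ) (hσζ : σ ζ = ζ) (hγ : A.valuation γ ≤ 1)
    (hσw : σ w = w * (1 + w * γ)) {x : Qbar} (hx : x ∈ A)
    (hfix : ∀ s ∈ A.inertiaSubgroupIn ℚ, s ζ = ζ → s η = η → s x = x) :
    A.valuation (σ x - x) ≤ A.valuation w ^ 2 := by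
  obtain ⟨a, hafix, har⟩ := BAD.Ordinary.exists_fixed_residue hA (IsLocalRing.residue A ⟨x, hx⟩)
  have hxa : A.valuation (x - a) < 1 :=
    A.mem_nonunits_iff.mp (Galois.residue_eq_residue_iff.mp har.symm)
  have hw0 : w ≠ 0 := fun h => by
    rw [h, map_zero, zero_pow (Nat.mul_ne_zero (Fact.out : p.Prime).ne_zero
      (Nat.sub_pos_of_lt (Fact.out : p.Prime).one_lt).ne')] at hw
    exact valuation_natPrime_ne_zero Fact.out A hw.symm
  set z := (x - a) / w with hz
  have hzfix : ∀ s ∈ A.inertiaSubgroupIn ℚ, s ζ = ζ → s η = η → s z = z := fun s hs h1 h2 => by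
    rw [hz, map_div₀, map_sub, hfix s hs h1 h2, hafix s hs, hwfix s hs h1 h2]
  have hzA : z ∈ A := by
    rw [← A.valuation_le_one_iff, hz, map_div₀,
      div_le_one₀ (zero_lt_iff.mpr ((map_ne_zero _).mpr hw0))]
    exact valuation_le_wild hA hζ hη0 hη hw hxa fun s hs h1 h2 => by
      rw [map_sub, hfix s hs h1 h2, hafix s hs]
  have hσz : A.valuation (σ z - z) ≤ A.valuation w :=
    valuation_le_wild hA hζ hη0 hη hw
      (A.mem_nonunits_iff.mp (Galois.inertia_sub_mem_nonunits hσ hzA)) fun s hs h1 h2 => by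
        rw [map_sub, apply_fixed hζ hη0 hη hσ hσζ hzfix s hs h1 h2, hzfix s hs h1 h2]
  have hxeq : x = a + w * z := by rw [hz, mul_div_cancel₀ _ hw0]; ring
  rw [show σ x - x = w * (σ z - z) + w ^ 2 * (γ * σ z) by
    rw [hxeq, map_add, map_mul, hafix σ hσ, hσw]; ring]
  refine A.valuation.map_add_le ?_ ?_
  · rw [map_mul, sq]; exact mul_le_mul' le_rfl hσz
  · rw [map_mul, map_pow, map_mul]
    exact mul_le_of_le_one_right' (mul_le_one' hγ ((A.valuation_le_one_iff _).mpr
      (Galois.decomposition_apply_mem (mem_decomposition hσ) hzA)))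

end Fermat.Agent.LLp.KummerUnit
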