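import Fermat.Agent.LLp.Local.Points
import Mathlib.Algebra.CharP.Frobenius

/-!
# Rational functions near a crossing
-/

set_option autoImplicit false

noncomputable section

open AlgebraicCurve Fermat.Agent.RED

namespace Fermat.Agent.LLp

variable {L k : Type*} [Field L] [Field k] {A : ValuationSubring L} {π : A →+* k}
  {F C : Type*} [Field F] [Algebra L F] [Field C] [Algebra k C] {D : BAD.BadBase π F C}
  {u : F} {ubar : C} {d : ℕ} [IsAlgClosed L] [IsAlgClosed k] [FF.IsFunctionField L F]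
  {R : RatField D} {h : BAD.Chart D u ubar d} {x y : Place k C}

/-- Glued pairs regular at the crossing lift. -/
theorem exists_lift_crossing (hR : R.RatChart h) (hxy : IsCrossing h x y) {c : Fin 2 → C}
    (hc0 : c 0 ∈ x.toValuationSubring) (hc1 : c 1 ∈ y.toValuationSubring)
    (hglue : BAD.pv x (h.coord.deg_one x) (c 0) = BAD.pv y (h.coord.deg_one y) (c 1)) :
    ∃ a ∈ R.FK, a ∈ D.O ∧ D.red2 a = c ∧
      AllSpec h ((0 : Fin 2), x) fun P => 0 ≤ P.ord a := by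
  have hcl : ∀ w : Fin 2 × Place k C, ubar ∈ w.2.toValuationSubring →
      h.Rel ((0 : Fin 2), x) w → w = ((0 : Fin 2), x) ∨ w = ((1 : Fin 2), y) := by
    rintro ⟨i, v⟩ hv hr
    rcases (by omega : i = 0 ∨ i = 1) with rfl | rfl
    · exact Or.inl (Prod.ext rfl (h.eq_of_rel_same hxy.1 hv hr).symm)
    · exact Or.inr (Prod.ext rfl (h.eq_of_rel_same hxy.2.1 hv ((hxy.2.2.symm h).trans h hr)).symm)
  refine exists_lift_regular (z := ((0 : Fin 2), x)) hR hxy.1 (c := c)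
    (fun w hw hr => ?_) (fun w hw hr => ?_)
  · rcases hcl w hw hr with rfl | rfl
    · exact hc0
    · exact hc1
  · rcases hcl w hw hr with rfl | rfl
    · rfl
    · exact hglue.symm

/-- A regular function cannot be a unit on one side of a crossing and vanish on the other. -/
theorem not_hasOrd_pos_of_unit (hxy : IsCrossing h x y) {G : F}
    (hreg : AllSpec h ((0 : Fin 2), x) fun P => 0 ≤ P.ord G) (h₀ : R.HasOrd 0 G 0)
    (hx0 : x.ord (D.red 0 G) = 0) {n : ℤ} (h₁ : R.HasOrd 1 G n) (hn : 0 < n) : False := by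
  obtain ⟨hV0, hne⟩ := RatField.hasOrd_zero_iff.mp h₀
  obtain ⟨hV1, hz1⟩ := h₁.mem_V hn.le
  have hO : G ∈ D.O := D.mem_O.mpr (Fin.forall_fin_two.mpr ⟨hV0, hV1⟩)
  have hg := (red_mem_of_regular h (z := ((0 : Fin 2), x)) hxy.1 hO hreg).2.1
    ((1 : Fin 2), y) hxy.2.1 hxy.2.2
  rw [hz1 hn, BAD.pv_zero] at hg
  exact pv_ne_zero_of_ord_eq_zero (h.coord.deg_one x) hne hx0 hg.symm

/-- Lifts `X`, `Y` of `(s, 0)`, `(0, r)` whose product is `ϖ ^ j • w`. -/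
structure CrossLifts (R : RatField D) (h : BAD.Chart D u ubar d) (x : Place k C) (s r : C)
    (j : ℕ) (X Y w : F) : Prop where
  pos : 1 ≤ j
  memX : X ∈ R.FK
  memY : Y ∈ R.FK
  memW : w ∈ R.FK
  intX : X ∈ D.O
  intY : Y ∈ D.O
  intW : w ∈ D.O
  redX₀ : D.red 0 X = s
  redX₁ : D.red 1 X = 0
  redY₀ : D.red 0 Y = 0
  redY₁ : D.red 1 Y = r
  regX : AllSpec h ((0 : Fin 2), x) fun P => 0 ≤ P.ord X
  regY : AllSpec h ((0 : Fin 2), x) fun P => 0 ≤ P.ord Y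
  regW : AllSpec h ((0 : Fin 2), x) fun P => 0 ≤ P.ord w
  mul_eq : X * Y = R.ϖ ^ j • w

/-- Uniformisers at the two sides of a crossing lift to `X`, `Y` with `XY` divisible by `ϖ`. -/
theorem exists_crossLifts (hR : R.RatChart h) (hxy : IsCrossing h x y) {s r : C}
    (hs : x.ord s = 1) (hr : y.ord r = 1) : ∃ X Y w, CrossLifts R h x s r 1 X Y w := by
  have hsm := mem_of_ord_nonneg x (by omega : 0 ≤ x.ord s)
  have hrm := mem_of_ord_nonneg y (by omega : 0 ≤ y.ord r)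
  obtain ⟨X, hXK, hXO, hX, hXr⟩ := exists_lift_crossing hR hxy (c := ![s, 0]) hsm (zero_mem _)
    (by simp [pv_eq_zero_of_ord_pos _ (by omega : 0 < x.ord s), BAD.pv_zero])
  obtain ⟨Y, hYK, hYO, hY, hYr⟩ := exists_lift_crossing hR hxy (c := ![0, r]) (zero_mem _) hrm
    (by simp [pv_eq_zero_of_ord_pos _ (by omega : 0 < y.ord r), BAD.pv_zero])
  have e : ∀ i, D.red i X = ![s, 0] i ∧ D.red i Y = ![0, r] i := fun i =>
    ⟨congrFun hX i, congrFun hY i⟩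
  have hsmall := R.small_of_red_eq_zero (mul_mem hXK hYK) (mul_mem hXO hYO) fun i => by
    rw [D.red_mul (D.mem_of_mem_O hXO i) (D.mem_of_mem_O hYO i), (e i).1, (e i).2]
    fin_cases i <;> simp
  refine ⟨X, Y, R.ϖ⁻¹ • (X * Y), le_rfl, hXK, hYK, ?_, hXO, hYO, hsmall, by simpa using (e 0).1,
    by simpa using (e 1).1, by simpa using (e 0).2, by simpa using (e 1).2, hXr, hYr,
    fun P hP => ?_, by rw [pow_one, smul_smul, mul_inv_cancel₀ R.ϖ_ne, one_smul]⟩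
  · simpa using R.zpow_smul_mem (mul_mem hXK hYK) 1
  · exact ord_nonneg_of_mem P (const_smul_mem_place P
      (mul_mem (mem_of_ord_nonneg P (hXr P hP)) (mem_of_ord_nonneg P (hYr P hP))) _)

/-- If `w` vanishes at the crossing, the product can be made divisible once more. -/
theorem CrossLifts.step (hR : R.RatChart h) (hxy : IsCrossing h x y) {s r : C}
    (hs : x.ord s = 1) (hr : y.ord r = 1) {j : ℕ} {X Y w : F}
    (H : CrossLifts R h x s r j X Y w)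
    (hw : BAD.pv x (h.coord.deg_one x) (D.red 0 w) = 0) :
    ∃ X' Y' w', CrossLifts R h x s r (j + 1) X' Y' w' := by
  have hs0 : s ≠ 0 := fun e => by simp [e] at hs
  have hr0 : r ≠ 0 := fun e => by simp [e] at hr
  obtain ⟨hw0m, hwg, -⟩ :=
    red_mem_of_regular h (z := ((0 : Fin 2), x)) hxy.1 H.intW H.regW
  obtain ⟨hw1m, -, -⟩ := red_mem_of_regular h (z := ((1 : Fin 2), y)) hxy.2.1 H.intW
    (AllSpec.of_rel H.regW (hxy.2.2.symm h) hxy.1)
  have hw1 : BAD.pv y (h.coord.deg_one y) (D.red 1 w) = 0 :=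
    (hwg ((1 : Fin 2), y) hxy.2.1 hxy.2.2).trans hw
  have hquot : ∀ (v : Place k C) (c t : C), c ∈ v.toValuationSubring →
      BAD.pv v (h.coord.deg_one v) c = 0 → v.ord t = 1 → t ≠ 0 →
      c / t ∈ v.toValuationSubring := fun v c t hc hcv ht ht0 => by
    rcases eq_or_ne c 0 with rfl | hc0
    · rw [zero_div]; exact zero_mem _
    refine mem_of_ord_nonneg v ?_
    have := ((BAD.pv_eq_zero_iff hc).mp hcv).resolve_left hc0
    rw [ord_div_eq_sub v hc0 ht0]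
    omega
  have ha0 := hquot x _ s hw0m hw hs hs0
  have ha1 := hquot y _ r hw1m hw1 hr hr0
  obtain ⟨L₀, hL₀K, hL₀O, hL₀, hL₀r⟩ := exists_lift_crossing hR hxy
    (c := ![D.red 0 w / s, algebraMap k C (BAD.pv x (h.coord.deg_one x) (D.red 0 w / s))])
    ha0 (y.algebraMap_mem' _) (by simp [BAD.pv_algebraMap])
  obtain ⟨L₁, hL₁K, hL₁O, hL₁, hL₁r⟩ := exists_lift_crossing hR hxy
    (c := ![algebraMap k C (BAD.pv y (h.coord.deg_one y) (D.red 1 w / r)), D.red 1 w / r])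
    (x.algebraMap_mem' _) ha1 (by simp [BAD.pv_algebraMap])
  set a : A := ⟨R.ϖ, R.ϖ_mem_A⟩ ^ j with ha
  have haj : (a : L) = R.ϖ ^ j := by rw [ha, SubmonoidClass.coe_pow]
  have hπa : π a = 0 := by rw [ha, map_pow, R.π_ϖ, zero_pow]; have := H.pos; omega
  have haK : algebraMap L F (a : L) ∈ R.FK := by rw [haj, map_pow]; exact pow_mem R.ϖ_mem j
  set b := w - X * L₀ - Y * L₁ + (a : L) • (L₀ * L₁) with hb
  have hbK : b ∈ R.FK := add_mem
    (sub_mem (sub_mem H.memW (mul_mem H.memX hL₀K)) (mul_mem H.memY hL₁K))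
    (R.smul_mem haK (mul_mem hL₀K hL₁K))
  have hbO : b ∈ D.O := add_mem
    (sub_mem (sub_mem H.intW (mul_mem H.intX hL₀O)) (mul_mem H.intY hL₁O))
    (D.smul_mem_O (mul_mem hL₀O hL₁O) a.2)
  have hbred : ∀ i, D.red i b = 0 := fun i => by
    have m := fun {f : F} (hf : f ∈ D.O) => D.mem_of_mem_O hf i
    rw [hb, D.red_add (sub_mem (sub_mem (m H.intW) (mul_mem (m H.intX) (m hL₀O)))
        (mul_mem (m H.intY) (m hL₁O))) (D.smul_mem (mul_mem (m hL₀O) (m hL₁O)) a),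
      D.red_sub (sub_mem (m H.intW) (mul_mem (m H.intX) (m hL₀O)))
        (mul_mem (m H.intY) (m hL₁O)),
      D.red_sub (m H.intW) (mul_mem (m H.intX) (m hL₀O)), D.red_mul (m H.intX) (m hL₀O),
      D.red_mul (m H.intY) (m hL₁O), D.red_smul (mul_mem (m hL₀O) (m hL₁O)), hπa, zero_smul,
      add_zero, ← D.red2_apply L₀, hL₀, ← D.red2_apply L₁, hL₁]
    fin_cases i
    · simp [H.redX₀, H.redY₀, mul_div_cancel₀ _ hs0]
    · simp [H.redX₁, H.redY₁, mul_div_cancel₀ _ hr0]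
  have hreg : ∀ P, ChartSpec h P ((0 : Fin 2), x) →
      X - (a : L) • L₁ ∈ P.toValuationSubring ∧ Y - (a : L) • L₀ ∈ P.toValuationSubring ∧
        b ∈ P.toValuationSubring := fun P hP => by
    have mX := mem_of_ord_nonneg P (H.regX P hP)
    have mY := mem_of_ord_nonneg P (H.regY P hP)
    have m0 := mem_of_ord_nonneg P (hL₀r P hP)
    have m1 := mem_of_ord_nonneg P (hL₁r P hP)
    exact ⟨sub_mem mX (const_smul_mem_place P m1 _), sub_mem mY (const_smul_mem_place P m0 _),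
      add_mem (sub_mem (sub_mem (mem_of_ord_nonneg P (H.regW P hP)) (mul_mem mX m0))
        (mul_mem mY m1)) (const_smul_mem_place P (mul_mem m0 m1) _)⟩
  have hredX : ∀ i, D.red i (X - (a : L) • L₁) = D.red i X := fun i => by
    rw [D.red_sub (D.mem_of_mem_O H.intX i) (D.smul_mem (D.mem_of_mem_O hL₁O i) a),
      D.red_smul (D.mem_of_mem_O hL₁O i), hπa, zero_smul, sub_zero]
  have hredY : ∀ i, D.red i (Y - (a : L) • L₀) = D.red i Y := fun i => by
    rw [D.red_sub (D.mem_of_mem_O H.intY i) (D.smul_mem (D.mem_of_mem_O hL₀O i) a),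
      D.red_smul (D.mem_of_mem_O hL₀O i), hπa, zero_smul, sub_zero]
  refine ⟨X - (a : L) • L₁, Y - (a : L) • L₀, R.ϖ⁻¹ • b, by omega,
    sub_mem H.memX (R.smul_mem haK hL₁K), sub_mem H.memY (R.smul_mem haK hL₀K),
    by simpa using R.zpow_smul_mem hbK 1, sub_mem H.intX (D.smul_mem_O hL₁O a.2),
    sub_mem H.intY (D.smul_mem_O hL₀O a.2), R.small_of_red_eq_zero hbK hbO hbred,
    (hredX 0).trans H.redX₀, (hredX 1).trans H.redX₁, (hredY 0).trans H.redY₀,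
    (hredY 1).trans H.redY₁, fun P hP => ord_nonneg_of_mem P (hreg P hP).1,
    fun P hP => ord_nonneg_of_mem P (hreg P hP).2.1,
    fun P hP => ord_nonneg_of_mem P (const_smul_mem_place P (hreg P hP).2.2 _), ?_⟩
  rw [pow_succ, smul_smul, mul_assoc, mul_inv_cancel₀ R.ϖ_ne, mul_one, ← haj, hb]
  have e : X * Y = (a : L) • w := by rw [haj]; exact H.mul_eq
  simp only [Algebra.smul_def] at e ⊢
  linear_combination e

/-- The coordinate at a crossing, from a function `Z` which is a unit near it, vanishes on one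
branch and has value `M` there. -/
theorem exists_nodeCoord (hR : R.RatChart h) (hxy : IsCrossing h x y) {Z : F} {M : ℕ}
    (hZ : Z ∈ R.FK) (hZO : Z ∈ D.O) (hZ0 : D.red 0 Z ≠ 0) (hZ1 : D.red 1 Z = 0)
    (hZfree : IsFreeAt h ((0 : Fin 2), x) Z) (hZM : (R.ϖ ^ M)⁻¹ • Z ∈ D.V 1)
    (hZMne : D.red 1 ((R.ϖ ^ M)⁻¹ • Z) ≠ 0) :
    ∃ (t : ℕ) (X : F), NodeCoord R h x y t X ∧ (t : ℤ) * x.ord (D.red 0 Z) = M := by
  obtain ⟨s, hsR, hs⟩ := h.coord.exists_ord_one x hxy.1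
  obtain ⟨r, hrR, hr⟩ := h.coord.exists_ord_one y hxy.2.1
  have hs0 : s ≠ 0 := fun e => by simp [e] at hs
  have hr0 : r ≠ 0 := fun e => by simp [e] at hr
  obtain ⟨hZx, hZg, -⟩ := red_mem_of_regular h (z := ((0 : Fin 2), x)) hxy.1 hZO hZfree.regular
  have hm : 0 < x.ord (D.red 0 Z) := by
    have e := hZg ((1 : Fin 2), y) hxy.2.1 hxy.2.2
    rw [hZ1, BAD.pv_zero] at e
    exact ((BAD.pv_eq_zero_iff hZx).mp e.symm).resolve_left hZ0
  obtain ⟨m, hmo⟩ : ∃ m : ℕ, x.ord (D.red 0 Z) = m := Int.eq_ofNat_of_zero_le hm.le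
  have oZ0 : R.HasOrd 0 Z 0 := RatField.hasOrd_zero_iff.mpr ⟨D.mem_of_mem_O hZO 0, hZ0⟩
  have oZ1 : R.HasOrd 1 Z M :=
    ⟨by rw [zpow_natCast]; exact hZM, by rw [zpow_natCast]; exact hZMne⟩
  -- scales of lifts
  have key : ∀ {j : ℕ} {X Y w : F}, CrossLifts R h x s r j X Y w →
      R.HasOrd 0 X 0 ∧ R.HasOrd 1 Y 0 ∧
        ∃ v : ℤ, R.HasOrd 1 X v ∧ (j : ℤ) ≤ v ∧ (m : ℤ) * v ≤ M := by
    intro j X Y w H
    have oX0 : R.HasOrd 0 X 0 :=
      RatField.hasOrd_zero_iff.mpr ⟨D.mem_of_mem_O H.intX 0, H.redX₀ ▸ hs0⟩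
    have oY1 : R.HasOrd 1 Y 0 :=
      RatField.hasOrd_zero_iff.mpr ⟨D.mem_of_mem_O H.intY 1, H.redY₁ ▸ hr0⟩
    obtain ⟨v, hv⟩ := R.exists_hasOrd (i := 1) H.memX oX0.ne_zero
    refine ⟨oX0, oY1, v, hv, ?_, ?_⟩
    · have h1 := (hv.mul oY1).1
      rw [add_zero, H.mul_eq] at h1
      refine h1.le_of_mem ?_
      rw [zpow_natCast, inv_smul_smul₀ (pow_ne_zero j R.ϖ_ne)]
      exact D.mem_of_mem_O H.intW 1
    · by_contra hlt
      obtain ⟨g0, g0'⟩ := (oX0.pow m).1.div oZ0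
      rw [(oX0.pow m).2, mul_zero, sub_zero, RatField.lred_zero, RatField.lred_zero,
        RatField.lred_zero, H.redX₀] at g0'
      rw [mul_zero, sub_zero] at g0
      refine not_hasOrd_pos_of_unit (R := R) hxy (G := X ^ m / Z) (fun P hP => ?_) g0 ?_
        ((hv.pow m).1.div oZ1).1 (by omega)
      · show 0 ≤ P.ord (X ^ m / Z)
        rw [ord_div_eq_sub P (pow_ne_zero _ oX0.ne_zero) oZ0.ne_zero, hZfree.2 P hP, sub_zero,
          ord_pow' P oX0.ne_zero]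
        exact mul_nonneg (Int.natCast_nonneg _) (H.regX P hP)
      · rw [g0', ord_div_eq_sub x (pow_ne_zero _ hs0) hZ0, ord_pow' x hs0, hs, hmo, mul_one,
          sub_self]
  -- some product has a unit cofactor
  obtain ⟨j, X, Y, w, H, hwne⟩ : ∃ j X Y w, CrossLifts R h x s r j X Y w ∧
      BAD.pv x (h.coord.deg_one x) (D.red 0 w) ≠ 0 := by
    by_contra hcon
    have hall : ∀ n : ℕ, 1 ≤ n → ∃ X Y w, CrossLifts R h x s r n X Y w := by
      intro n hn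
      induction n, hn using Nat.le_induction with
      | base => exact exists_crossLifts hR hxy hs hr
      | succ n _ ih =>
        obtain ⟨X, Y, w, H⟩ := ih
        exact H.step hR hxy hs hr (by_contra fun hw => hcon ⟨n, X, Y, w, H, hw⟩)
    obtain ⟨X, Y, w, H⟩ := hall (M + 1) (by omega)
    obtain ⟨-, -, v, -, hjv, hmv⟩ := key H
    have : v ≤ (m : ℤ) * v := le_mul_of_one_le_left (by omega) (by omega)
    omega
  obtain ⟨oX0, oY1, v, hv, hjv, hmv⟩ := key H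
  obtain ⟨hwm, hwg, -⟩ := red_mem_of_regular h (z := ((0 : Fin 2), x)) hxy.1 H.intW H.regW
  obtain ⟨hw1m, hw1ne, hw1o⟩ := ord_eq_zero_of_pv_ne_zero (hd := h.coord.deg_one y)
    (f := D.red 1 w) ((hwg ((1 : Fin 2), y) hxy.2.1 hxy.2.2).symm ▸ hwne)
  have hXYs : (R.ϖ ^ (j : ℤ))⁻¹ • (X * Y) = w := by
    rw [H.mul_eq, zpow_natCast, inv_smul_smul₀ (pow_ne_zero j R.ϖ_ne)]
  have oXY : R.HasOrd 1 (X * Y) j :=
    ⟨hXYs.symm ▸ D.mem_of_mem_O H.intW 1, hXYs.symm ▸ hw1ne⟩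
  have hvj : v = j := by
    have h1 := (hv.mul oY1).1
    rw [add_zero] at h1
    exact h1.unique oXY
  subst hvj
  -- values above the crossing
  have hd := (coordData_chart h).deg_one
  have hfree : ∀ P, ChartSpec h P ((0 : Fin 2), x) → P.ord X = 0 ∧
      A.valuation (pval P X) < 1 ∧ A.valuation R.ϖ ^ j < A.valuation (pval P X) := by
    intro P hP
    have mX := mem_of_ord_nonneg P (H.regX P hP)
    have mY := mem_of_ord_nonneg P (H.regY P hP)
    obtain ⟨cX, hcX, hcX'⟩ := exists_regular_val hP H.intX H.regX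
    obtain ⟨cY, hcY, hcY'⟩ := exists_regular_val hP H.intY H.regY
    obtain ⟨cw, hcw, hcw'⟩ := exists_regular_val hP H.intW H.regW
    dsimp only at hcX' hcY' hcw'
    rw [H.redX₀, pv_eq_zero_of_ord_pos _ (by omega : 0 < x.ord s)] at hcX'
    rw [H.redY₀, BAD.pv_zero] at hcY'
    have e : (cX : L) * cY = R.ϖ ^ j * cw := by
      rw [← hcX, ← hcY, ← pval_mul (hd P) mX mY, H.mul_eq,
        pval_const_smul (hd P) (mem_of_ord_nonneg P (H.regW P hP)), hcw]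
    have ev := congrArg A.valuation e
    have hwu : π cw ≠ 0 := by rw [hcw']; exact hwne
    rw [map_mul, map_mul, map_pow, valuation_eq_one_of_π (D := D) hwu, mul_one] at ev
    have hX0 : 0 < A.valuation (cX : L) := by
      rcases eq_or_ne (A.valuation (cX : L)) 0 with e0 | e0
      · rw [e0, zero_mul] at ev
        exact absurd ev.symm (pow_ne_zero _ R.valuation_ϖ_pos.ne')
      · exact zero_lt_iff.mpr e0
    refine ⟨((pval_ne_zero_iff (hd P) mX).mp ?_).2, ?_, ?_⟩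
    · rw [hcX]
      exact fun e0 => hX0.ne' (by rw [e0, map_zero])
    · rw [hcX]
      exact valuation_lt_one_of_π hcX'
    · rw [hcX, ← ev]
      exact mul_lt_of_lt_one_right hX0 (valuation_lt_one_of_π hcY')
  refine ⟨j, X, ⟨H.pos, H.memX, ⟨oX0.ne_zero, fun P hP => (hfree P hP).1⟩, oX0,
    by rw [RatField.lred_zero, H.redX₀, hs], hv, ?_, fun P hP => (hfree P hP).2⟩, ?_⟩
  · have h1 := (hv.mul oY1).2
    rw [add_zero, RatField.lred_zero, H.redY₁, RatField.lred, hXYs] at h1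
    rw [h1, y.ord_mul (show R.lred 1 X (j : ℤ) ≠ 0 from hv.2) hr0, hr] at hw1o
    omega
  · rw [hmo, mul_comm]
    refine le_antisymm hmv ?_
    by_contra hlt
    obtain ⟨g0, g0'⟩ := oZ0.div (oX0.pow m).1
    rw [(oX0.pow m).2, mul_zero, sub_zero, RatField.lred_zero, RatField.lred_zero,
      RatField.lred_zero, H.redX₀] at g0'
    rw [mul_zero, sub_zero] at g0
    refine not_hasOrd_pos_of_unit (R := R) hxy (G := Z / X ^ m) (fun P hP => ?_) g0 ?_
      (oZ1.div (hv.pow m).1).1 (by omega)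
    · show 0 ≤ P.ord (Z / X ^ m)
      rw [ord_div_eq_sub P oZ0.ne_zero (pow_ne_zero _ oX0.ne_zero), hZfree.2 P hP,
        ord_pow' P oX0.ne_zero, (hfree P hP).1, mul_zero, sub_zero]
    · rw [g0', ord_div_eq_sub x hZ0 (pow_ne_zero _ hs0), ord_pow' x hs0, hs, hmo, mul_one,
        sub_self]

variable {t : ℕ} {X : F}

/-- A free function at a crossing: the values differ by `t` times the residual order. -/
theorem IsFreeAt.crossing_unit (hR : R.RatChart h) (hxy : IsCrossing h x y)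
    (hX : NodeCoord R h x y t X) {f : F} (hf : f ∈ R.FK)
    (hfree : IsFreeAt h ((0 : Fin 2), x) f) {n₀ n₁ : ℤ} (h₀ : R.HasOrd 0 f n₀)
    (h₁ : R.HasOrd 1 f n₁) :
    n₁ - n₀ = t * x.ord (R.lred 0 f n₀) ∧ y.ord (R.lred 1 f n₁) = -x.ord (R.lred 0 f n₀) := by
  have ho := ((h₀.pow t).1.div (hX.ord₀.zpow (n₁ - n₀)).1)
  have ho' := ((h₁.pow t).1.div (hX.ord₁.zpow (n₁ - n₀)).1)
  obtain ⟨a0, a0'⟩ := ho
  obtain ⟨a1, a1'⟩ := ho'
  rw [(h₀.pow t).2, (hX.ord₀.zpow (n₁ - n₀)).2] at a0'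
  rw [(h₁.pow t).2, (hX.ord₁.zpow (n₁ - n₀)).2] at a1'
  obtain ⟨b0, b0'⟩ := a0.smul_zpow (t * n₀)
  obtain ⟨b1, b1'⟩ := a1.smul_zpow (t * n₀)
  rw [a0'] at b0'
  rw [a1'] at b1'
  have e0 : (t : ℤ) * n₀ - (n₁ - n₀) * 0 - t * n₀ = 0 := by ring
  have e1 : (t : ℤ) * n₁ - (n₁ - n₀) * t - t * n₀ = 0 := by ring
  rw [e0] at b0 b0'
  rw [e1] at b1 b1'
  set H := (R.ϖ ^ ((t : ℤ) * n₀))⁻¹ • (f ^ t / X ^ (n₁ - n₀)) with hH
  obtain ⟨hHO, hH0⟩ := RatField.mem_O_of_hasOrd (Fin.forall_fin_two.mpr ⟨b0, b1⟩)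
  have hfreeH : IsFreeAt h ((0 : Fin 2), x) H :=
    ((hfree.pow t).div (hX.free.zpow _)).const_smul (inv_ne_zero (R.zpow_ne _))
  have k0 := hfreeH.red_ord_eq_zero (z := ((0 : Fin 2), x)) hxy.1 hHO hH0
  have k1 := (hfreeH.of_rel (hxy.2.2.symm h) hxy.1).red_ord_eq_zero (z := ((1 : Fin 2), y))
    hxy.2.1 hHO hH0
  have l0 : R.lred 0 f n₀ ≠ 0 := h₀.2
  have l1 : R.lred 1 f n₁ ≠ 0 := h₁.2
  have lX0 : R.lred 0 X 0 ≠ 0 := hX.ord₀.2
  have lX1 : R.lred 1 X t ≠ 0 := hX.ord₁.2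
  rw [RatField.lred_zero] at b0' b1'
  dsimp only at k0 k1
  rw [b0', ord_div_eq_sub _ (pow_ne_zero _ l0) (zpow_ne_zero _ lX0), ord_pow' _ l0,
    x.ord_zpow, hX.red₀, mul_one] at k0
  rw [b1', ord_div_eq_sub _ (pow_ne_zero _ l1) (zpow_ne_zero _ lX1), ord_pow' _ l1,
    y.ord_zpow, hX.red₁, mul_neg_one] at k1
  refine ⟨by omega, ?_⟩
  have ht : (t : ℤ) ≠ 0 := by have := hX.pos; omega
  refine mul_left_cancel₀ ht ?_
  rw [mul_neg]
  omega

/-- The coordinate minus its value at a place above the crossing has one simple zero there. -/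
theorem NodeCoord.simple (hX : NodeCoord R h x y t X) (hxy : IsCrossing h x y) {P : Place L F}
    (hP : ChartSpec h P ((0 : Fin 2), x)) :
    X - algebraMap L F (pval P X) ≠ 0 ∧ P.ord (X - algebraMap L F (pval P X)) = 1 ∧
      ∀ Q, ChartSpec h Q ((0 : Fin 2), x) → Q ≠ P →
        Q.ord (X - algebraMap L F (pval P X)) = 0 := by
  have hd := (coordData_chart h).deg_one
  obtain ⟨hlt, hgt⟩ := hX.between P hP
  set α := pval P X with hα
  have hα0 : α ≠ 0 := fun e => by simp [e] at hgt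
  set a : A := ⟨α, (A.valuation_le_one_iff _).mp hlt.le⟩
  have hπa : π a = 0 := D.residue_eq_zero_of_nonunit a hlt
  obtain ⟨hXV, hXne⟩ := RatField.hasOrd_zero_iff.mp hX.ord₀
  set Y := X - algebraMap L F α with hY
  have hY0r : D.red 0 Y = D.red 0 X := by
    rw [hY, D.red_sub hXV (D.algebraMap_mem 0 a), show D.red 0 (algebraMap L F α) =
      algebraMap k C (π a) from D.red_algebraMap a, hπa, map_zero, sub_zero]
  have oY0 : R.HasOrd 0 Y 0 := RatField.hasOrd_zero_iff.mpr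
    ⟨sub_mem hXV (D.algebraMap_mem 0 a), hY0r ▸ hXne⟩
  have hY0 := oY0.ne_zero
  obtain ⟨E, hE⟩ := exists_isDivisorOf (L := L) hY0
  obtain ⟨EX, hEX⟩ := exists_isDivisorOf (L := L) hX.free.1
  -- on branch one `Y = -α (1 - X / α)`
  have hβ : R.ϖ ^ (t : ℤ) / α ∈ A.nonunits := by
    rw [ValuationSubring.mem_nonunits_iff, map_div₀, zpow_natCast, map_pow,
      div_lt_one₀ (lt_of_le_of_lt zero_le hgt)]
    exact hgt
  have hXα : α⁻¹ • X = ((⟨_, A.nonunits_subset hβ⟩ : A) : L) • ((R.ϖ ^ (t : ℤ))⁻¹ • X) := by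
    rw [smul_smul]
    congr 1
    show α⁻¹ = R.ϖ ^ (t : ℤ) / α * (R.ϖ ^ (t : ℤ))⁻¹
    field_simp [R.ϖ_ne]
  have hXαV : α⁻¹ • X ∈ D.V 1 := hXα ▸ D.smul_mem hX.ord₁.1 _
  have hU : D.red 1 (1 - α⁻¹ • X) = 1 := by
    rw [D.red_sub (one_mem _) hXαV, D.red_one, hXα, D.red_smul hX.ord₁.1,
      D.residue_eq_zero_of_nonunit _ hβ, zero_smul, sub_zero]
  have hfac : Y = (-α) • (1 - α⁻¹ • X) := by
    rw [hY, smul_sub, smul_smul, neg_mul, mul_inv_cancel₀ hα0, Algebra.smul_def, mul_one,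
      neg_smul, one_smul, map_neg, sub_neg_eq_add, neg_add_eq_sub]
  obtain ⟨N, j, hN, hNj⟩ := R.torsion α hα0
  have hcv : A.valuation ((R.ϖ ^ (j * t))⁻¹ * (-α) ^ (t * N)) = 1 := by
    rw [map_mul, map_inv₀, map_zpow₀, map_pow, Valuation.map_neg, mul_comm t N, pow_mul, hNj,
      ← zpow_natCast (A.valuation R.ϖ ^ j), ← zpow_mul]
    exact inv_mul_cancel₀ (zpow_ne_zero _ R.valuation_ϖ_pos.ne')
  set c : A := ⟨_, (A.valuation_le_one_iff _).mp hcv.le⟩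
  have hπc : π c ≠ 0 := ((IsUnit.map π ((A.valuation_eq_one_iff c).mpr hcv))).ne_zero
  have hUV : 1 - α⁻¹ • X ∈ D.V 1 := sub_mem (one_mem _) hXαV
  have hYpow : (R.ϖ ^ (j * t))⁻¹ • Y ^ (t * N) = (c : L) • (1 - α⁻¹ • X) ^ (t * N) := by
    rw [hfac, _root_.smul_pow, smul_smul]
  have hYred : R.lred 1 (Y ^ (t * N)) (j * t) = algebraMap k C (π c) := by
    rw [RatField.lred, hYpow, D.red_smul (pow_mem hUV _), D.red_pow hUV, hU, one_pow,
      Algebra.smul_def, mul_one]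
  have oY1 : R.HasOrd 1 (Y ^ (t * N)) (j * t) :=
    ⟨hYpow.symm ▸ D.smul_mem (pow_mem hUV _) c, by
      change R.lred 1 (Y ^ (t * N)) (j * t) ≠ 0
      rw [hYred]
      exact (_root_.map_ne_zero _).mpr hπc⟩
  -- equal scales on the two branches
  obtain ⟨g0, g0'⟩ := (oY0.pow (t * N)).1.div (hX.ord₀.zpow j).1
  obtain ⟨g1, g1'⟩ := oY1.div (hX.ord₁.zpow j).1
  rw [(oY0.pow (t * N)).2, (hX.ord₀.zpow j).2, mul_zero, mul_zero, sub_zero] at g0'
  simp only [RatField.lred_zero, hY0r] at g0'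
  rw [mul_zero, mul_zero, sub_zero] at g0
  rw [hYred, (hX.ord₁.zpow j).2, sub_self, RatField.lred_zero] at g1'
  rw [sub_self] at g1
  obtain ⟨hGO, hG0⟩ := RatField.mem_O_of_hasOrd (Fin.forall_fin_two.mpr ⟨g0, g1⟩)
  have hEG : IsDivisorOf (((t * N : ℕ) : ℤ) • E - j • EX : Divisor L F) (Y ^ (t * N) / X ^ j) :=
    fun Q => by
      rw [ord_div_eq_sub Q (pow_ne_zero _ hY0) (zpow_ne_zero _ hX.free.1), ord_pow' Q hY0,
        Q.ord_zpow, ← hE Q, ← hEX Q]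
      simp
  have hsum := specSum_eq_of_node h hGO hG0 hEG hxy.1 hxy.2.1 hxy.2.2
  have hx1 : x.ord (D.red 0 X) = 1 := by rw [← RatField.lred_zero (R := R)]; exact hX.red₀
  have hEX0 : specSum h ((0 : Fin 2), x) EX = 0 :=
    sumOver_eq_zero fun Q hQ => (hEX Q).trans (hX.free.2 Q hQ)
  have hlX : R.lred 1 X t ≠ 0 := hX.ord₁.2
  rw [g0', g1', map_sub, map_zsmul, map_zsmul, hEX0, smul_zero, sub_zero,
    ord_div_eq_sub x (pow_ne_zero _ hXne) (zpow_ne_zero _ hXne), ord_pow' x hXne, x.ord_zpow, hx1,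
    ord_div_eq_sub y ((_root_.map_ne_zero _).mpr hπc) (zpow_ne_zero _ hlX), ord_algebraMap',
    y.ord_zpow, hX.red₁, smul_eq_mul] at hsum
  have hsum1 : specSum h ((0 : Fin 2), x) E = 1 := by
    have htN : ((t * N : ℕ) : ℤ) ≠ 0 :=
      Int.natCast_ne_zero.mpr (mul_ne_zero hX.pos.ne' hN.ne')
    exact mul_left_cancel₀ htN (by rw [hsum]; ring)
  have hnn : AllSpec h ((0 : Fin 2), x) fun Q => 0 ≤ E Q := fun Q hQ => by
    show 0 ≤ E Q
    rw [hE Q]
    exact ord_nonneg_of_mem Q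
      (sub_mem (mem_of_ord_nonneg Q (hX.free.regular Q hQ)) (Q.algebraMap_mem' _))
  have hpos : 0 < E P := by
    rw [hE P]
    exact (pval_sub_algebraMap (hd P) (mem_of_ord_nonneg P (hX.free.regular P hP))).resolve_left hY0
  obtain ⟨h1, h2⟩ := simple_of_specSum hsum1 hnn hP hpos
  exact ⟨hY0, (hE P).symm.trans h1, fun Q hQ hne => (hE Q).symm.trans (h2 Q hQ hne)⟩

theorem exists_move_crossing (hR : R.RatChart h) (hxy : IsCrossing h x y)
    (hX : NodeCoord R h x y t X) {p : ℕ} {f : F} (hf : f ∈ R.FK) (hf0 : f ≠ 0)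
    (hdiv : AllSpec h ((0 : Fin 2), x) fun P => (p : ℤ) ∣ P.ord f) :
    ∃ g ∈ R.FK, g ≠ 0 ∧ IsFreeAt h ((0 : Fin 2), x) (f * g ^ p) := by
  exact exists_move_of_simple hR.u_mem hX.mem hX.free.regular (fun P hP => hX.simple hxy hP)
    hf hf0 hdiv

theorem exists_normalise_crossing (hR : R.RatChart h) (hxy : IsCrossing h x y)
    (hX : NodeCoord R h x y t X) {p : ℕ} [Fact p.Prime] [CharP k p] {q : F} (hq : q ∈ R.FK)
    (hqO : q ∈ D.O) (hq1 : ∀ i, D.red i q = 1)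
    (hdiv : AllSpec h ((0 : Fin 2), x) fun P => (p : ℤ) ∣ P.ord q) :
    ∃ g ∈ R.FK, g ∈ D.O ∧ (∀ i, D.red i g = 1) ∧
      IsFreeAt h ((0 : Fin 2), x) (q * g ^ p) := by
  have hp : 0 < p := (Fact.out : p.Prime).pos
  have hp' : (p : ℤ) ≠ 0 := by exact_mod_cast hp.ne'
  have hq0 : q ≠ 0 := fun e => by simpa [e] using hq1 0
  obtain ⟨g, hg, hg0, hfree⟩ := exists_move_crossing hR hxy hX hq hq0 hdiv
  choose n hn using fun b => R.exists_hasOrd (i := b) hg hg0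
  have hq' := R.hasOrd_of_mem_O hqO fun i => by rw [hq1]; exact one_ne_zero
  obtain ⟨o0, l0⟩ := (hq' 0).mul ((hn 0).pow p).1
  obtain ⟨o1, l1⟩ := (hq' 1).mul ((hn 1).pow p).1
  obtain ⟨k₁, k₂⟩ := hfree.crossing_unit hR hxy hX (mul_mem hq (pow_mem hg p)) o0 o1
  have r0 : R.lred 0 g (n 0) ≠ 0 := (hn 0).2
  have r1 : R.lred 1 g (n 1) ≠ 0 := (hn 1).2
  rw [l0, RatField.lred_zero, hq1, one_mul, ((hn 0).pow p).2, ord_pow' _ r0] at k₁ k₂
  rw [l1, RatField.lred_zero, hq1, one_mul, ((hn 1).pow p).2, ord_pow' _ r1] at k₂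
  set o := x.ord (R.lred 0 g (n 0)) with ho
  have hno : n 1 - n 0 = t * o := mul_left_cancel₀ hp' (by linear_combination k₁)
  have ho1 : y.ord (R.lred 1 g (n 1)) = -o := mul_left_cancel₀ hp' (by linear_combination k₂)
  -- scale `g` to a unit on both sides of the crossing
  set g₁ := (R.ϖ ^ n 0)⁻¹ • (g / X ^ o) with hg₁
  obtain ⟨a0, a0'⟩ := ((hn 0).div (hX.ord₀.zpow o).1).1.smul_zpow (n 0)
  obtain ⟨a1, a1'⟩ := ((hn 1).div (hX.ord₁.zpow o).1).1.smul_zpow (n 0)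
  rw [((hn 0).div (hX.ord₀.zpow o).1).2, (hX.ord₀.zpow o).2] at a0'
  rw [((hn 1).div (hX.ord₁.zpow o).1).2, (hX.ord₁.zpow o).2] at a1'
  have e0 : n 0 - o * 0 - n 0 = 0 := by ring
  have e1 : n 1 - o * t - n 0 = 0 := by linear_combination hno
  rw [e0] at a0 a0'
  rw [e1] at a1 a1'
  rw [RatField.lred_zero] at a0' a1'
  obtain ⟨h1O, h10⟩ := RatField.mem_O_of_hasOrd (Fin.forall_fin_two.mpr ⟨a0, a1⟩)
  have lX0 : R.lred 0 X 0 ≠ 0 := hX.ord₀.2
  have lX1 : R.lred 1 X t ≠ 0 := hX.ord₁.2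
  have hx0 : x.ord (D.red 0 g₁) = 0 := by
    rw [a0', ord_div_eq_sub _ r0 (zpow_ne_zero _ lX0), x.ord_zpow, hX.red₀, mul_one, ← ho,
      sub_self]
  have hy0 : y.ord (D.red 1 g₁) = 0 := by
    rw [a1', ord_div_eq_sub _ r1 (zpow_ne_zero _ lX1), y.ord_zpow, hX.red₁, ho1]
    ring
  have hfree1 : IsFreeAt h ((0 : Fin 2), x) (q * g₁ ^ p) := by
    have e : q * g₁ ^ p = ((R.ϖ ^ n 0)⁻¹) ^ p • (q * g ^ p / (X ^ o) ^ p) := by
      rw [hg₁, _root_.smul_pow, div_pow, mul_smul_comm, mul_div_assoc]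
    rw [e]
    exact (hfree.div ((hX.free.zpow o).pow p)).const_smul
      (pow_ne_zero _ (inv_ne_zero (R.zpow_ne _)))
  have hqp : ∀ b, D.red b (q * g₁ ^ p) = D.red b g₁ ^ p := fun b => by
    rw [D.red_mul (D.mem_of_mem_O hqO b) (pow_mem (D.mem_of_mem_O h1O b) p),
      D.red_pow (D.mem_of_mem_O h1O b), hq1, one_mul]
  have hmx := mem_of_ord_nonneg x hx0.ge
  have hmy := mem_of_ord_nonneg y hy0.ge
  have hg' := (red_mem_of_regular h (z := ((0 : Fin 2), x)) hxy.1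
    (mul_mem hqO (pow_mem h1O p)) hfree1.regular).2.1 ((1 : Fin 2), y) hxy.2.1 hxy.2.2
  dsimp only at hg'
  rw [hqp, hqp, BAD.pv_pow hmx, BAD.pv_pow hmy] at hg'
  have hglue := frobenius_inj k p hg'
  obtain ⟨l, hlK, hlO, hl, hlreg⟩ :=
    exists_lift_crossing hR hxy (c := fun b => D.red b g₁) hmx hmy hglue.symm
  have hli : ∀ b, D.red b l = D.red b g₁ := congrFun hl
  have hl0 : ∀ b, D.red b l ≠ 0 := fun b => hli b ▸ h10 b
  have hlf : IsFreeAt h ((0 : Fin 2), x) l :=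
    isFreeAt_of_specSum (fun e => hl0 0 (by rw [e, D.red_zero])) hlreg fun E hE => by
      rw [specSum_eq_of_node h hlO hl0 hE hxy.1 hxy.2.1 hxy.2.2, hli, hli, hx0, hy0, add_zero]
  have hlinv := D.inv_mem_O hlO hl0
  refine ⟨g₁ / l, div_mem (R.zpow_smul_mem (div_mem hg (zpow_mem hX.mem o)) _) hlK, ?_,
    fun b => ?_, ?_⟩
  · rw [div_eq_mul_inv]
    exact mul_mem h1O hlinv
  · rw [div_eq_mul_inv, D.red_mul (D.mem_of_mem_O h1O b) (D.mem_of_mem_O hlinv b),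
      D.red_inv (D.mem_of_mem_O hlO b) (hl0 b), hli, mul_inv_cancel₀ (h10 b)]
  · rw [div_pow, ← mul_div_assoc]
    exact hfree1.div (hlf.pow p)

end Fermat.Agent.LLp
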