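import Fermat.Agent.LLp.Local.PointsAux

/-!
# Rational functions near a smooth point
-/

set_option autoImplicit false

noncomputable section

open AlgebraicCurve Fermat.Agent.RED

namespace Fermat.Agent.LLp

variable {L k : Type*} [Field L] [Field k] {A : ValuationSubring L} {π : A →+* k}
  {F C : Type*} [Field F] [Algebra L F] [Field C] [Algebra k C] {D : BAD.BadBase π F C}
  {u : F} {ubar : C} {d : ℕ} [IsAlgClosed L] [IsAlgClosed k] [FF.IsFunctionField L F]
  {R : RatField D} {h : BAD.Chart D u ubar d} {z : Fin 2 × Place k C}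

/-- A free function with both reductions nonzero reduces to a unit. -/
theorem IsFreeAt.red_ord_eq_zero {f : F} (hz : ubar ∈ z.2.toValuationSubring) (hf : f ∈ D.O)
    (h0 : ∀ i, D.red i f ≠ 0) (hfree : IsFreeAt h z f) : z.2.ord (D.red z.1 f) = 0 := by
  obtain ⟨h1, -, -⟩ := red_mem_of_regular h hz hf hfree.regular
  obtain ⟨h2, -, -⟩ := red_mem_of_regular h hz (D.inv_mem_O hf h0) hfree.inv.regular
  rw [D.red_inv (D.mem_of_mem_O hf _) (h0 _)] at h2
  have e1 := ord_nonneg_of_mem _ h1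
  have e2 := ord_nonneg_of_mem _ h2
  rw [z.2.ord_inv] at e2
  omega

/-- Rational chart functions, each supported on one branch, one of them equal to one at a smooth
point. -/
theorem exists_branch_functions (hR : R.RatChart h) (hz : IsSmoothPt h z) :
    ∃ e : Fin 2 → F, (∀ i, e i ∈ R.FK ∧ e i ∈ coordRing L u ∧ e i ∈ D.O ∧
        D.red i (e i) ≠ 0 ∧ ∀ j, j ≠ i → D.red j (e i) = 0) ∧
      BAD.pv z.2 (h.coord.deg_one z.2) (D.red z.1 (e z.1)) = 1 := by
  classical
  obtain ⟨ε, hε, hεR, hδ⟩ := h.exists_delta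
  set T := (Finset.univ : Finset (Fin 2)) ×ˢ (h.finite_zeros hε hεR).toFinset with hT
  obtain ⟨p, hp, hpz, hpT⟩ := h.exists_indicator hz.1 T fun w hw => by
    simp [hT] at hw
    exact hw.1
  have hp1 : p z.1 ≠ 0 := fun e => by simp [BAD.Chart.ev, e, BAD.pv_zero] at hpz
  set g : Fin 2 → C := fun i => if i = z.1 then p i else ε with hg
  have hmem : ∀ i, Pi.single i (g i) ∈ BAD.Chart.chartAlg D u := fun i => by
    simp only [hg]
    split_ifs with hi
    swap
    · exact hδ i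
    refine h.mem_chartAlg_iff.mpr ⟨fun j => ?_, fun x y hx hy hr => ?_⟩
    · rcases eq_or_ne j i with rfl | hji
      · rw [Pi.single_eq_same]
        exact h.chartAlg_apply_mem hp j
      · rw [Pi.single_eq_of_ne hji]
        exact zero_mem _
    have h0 := hr _ (hδ 0)
    have h1 := hr _ (hδ 1)
    simp [BAD.Chart.ev, BAD.pv_zero] at h0 h1
    have hx0 : ¬ h.Rel z ((0 : Fin 2), x) := fun e => by
      have e1 := hz.2 _ hx e
      have e2 := hz.2 ((1 : Fin 2), y) hy (e.trans h hr)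
      rw [← e2] at e1
      simp at e1
    have hy0 : ¬ h.Rel z ((1 : Fin 2), y) := fun e => hx0 (e.trans h (hr.symm h))
    have vx := ((BAD.vanish_one_iff (hd := h.coord.deg_one x)).mp
      (hpT ((0 : Fin 2), x) (by simp [hT, hx, h0]) hx0)).2
    have vy := ((BAD.vanish_one_iff (hd := h.coord.deg_one y)).mp
      (hpT ((1 : Fin 2), y) (by simp [hT, hy, h1.symm]) hy0)).2
    rcases (by omega : i = 0 ∨ i = 1) with rfl | rfl
    · simp only [Pi.single_eq_same, Pi.single_eq_of_ne (show (1 : Fin 2) ≠ 0 by decide),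
        BAD.pv_zero]
      exact vx
    · simp only [Pi.single_eq_same, Pi.single_eq_of_ne (show (0 : Fin 2) ≠ 1 by decide),
        BAD.pv_zero]
      exact vy.symm
  choose e heK heR heO he using fun i => hR.lift _ (hmem i)
  refine ⟨e, fun i => ⟨heK i, heR i, heO i, ?_, fun j hj => ?_⟩, ?_⟩
  · rw [← D.red2_apply, he, Pi.single_eq_same]
    simp only [hg]
    split_ifs with hi
    · exact hi ▸ hp1
    · exact hε
  · rw [← D.red2_apply, he, Pi.single_eq_of_ne hj]
  · rw [← D.red2_apply, he, Pi.single_eq_same]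
    simp only [hg, if_true]
    exact hpz

/-- Prescribed values on the two branches, with the leading value one at a smooth point. -/
theorem exists_scaled_free_val (hR : R.RatChart h) (hz : IsSmoothPt h z) (n : Fin 2 → ℤ) :
    ∃ W ∈ R.FK, IsFreeAt h z W ∧ (∀ i, R.HasOrd i W (n i)) ∧
      R.lred z.1 W (n z.1) ∈ z.2.toValuationSubring ∧
      BAD.pv z.2 (h.coord.deg_one z.2) (R.lred z.1 W (n z.1)) = 1 ∧
      ∀ P, ChartSpec h P z → ∃ c : A, pval P W = R.ϖ ^ n z.1 * c ∧ π c = 1 := by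
  obtain ⟨e, he, hez⟩ := exists_branch_functions hR hz
  obtain ⟨i, hi⟩ : ∃ i, z.1 = i := ⟨_, rfl⟩
  obtain ⟨j, hji, hcases⟩ : ∃ j, j ≠ i ∧ ∀ b : Fin 2, b = i ∨ b = j := by
    rcases (by omega : i = 0 ∨ i = 1) with rfl | rfl
    · exact ⟨1, by decide, fun b => by omega⟩
    · exact ⟨0, by decide, fun b => by omega⟩
  rw [hi] at hez ⊢
  obtain ⟨M₁, hM₁⟩ := D.exists_pow_smul_small (D.mem_of_mem_O (he i).2.2.1 j)
    ((he i).2.2.2.2 j hji) (R.ϖ ^ (n i - n j))
  obtain ⟨M₂, hM₂⟩ := D.exists_pow_smul_small (D.mem_of_mem_O (he j).2.2.1 i)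
    ((he j).2.2.2.2 i hji.symm) (R.ϖ ^ (n j - n i))
  set N := M₁ + M₂ + ((n i - n j).toNat + 1) with hN
  obtain ⟨sj, sj0⟩ := hM₁ N (by omega)
  obtain ⟨si, si0⟩ := hM₂ N (by omega)
  set W := R.ϖ ^ n i • e i ^ N + R.ϖ ^ n j • e j ^ N with hW
  have hscale : ∀ a b : ℤ, (R.ϖ ^ a)⁻¹ * R.ϖ ^ b = R.ϖ ^ (b - a) := fun a b => by
    rw [zpow_sub₀ R.ϖ_ne, mul_comm, div_eq_mul_inv]
  have hWi : (R.ϖ ^ n i)⁻¹ • W = e i ^ N + R.ϖ ^ (n j - n i) • e j ^ N := by
    rw [hW, smul_add, smul_smul, smul_smul, hscale, hscale, sub_self, zpow_zero, one_smul]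
  have hWj : (R.ϖ ^ n j)⁻¹ • W = R.ϖ ^ (n i - n j) • e i ^ N + e j ^ N := by
    rw [hW, smul_add, smul_smul, smul_smul, hscale, hscale, sub_self, zpow_zero, one_smul]
  have hpi : e i ^ N ∈ D.V i := pow_mem (D.mem_of_mem_O (he i).2.2.1 i) N
  have hpj : e j ^ N ∈ D.V j := pow_mem (D.mem_of_mem_O (he j).2.2.1 j) N
  have hri : R.lred i W (n i) = D.red i (e i) ^ N := by
    rw [RatField.lred, hWi, D.red_add hpi si, si0, add_zero,
      D.red_pow (D.mem_of_mem_O (he i).2.2.1 i)]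
  have hrj : R.lred j W (n j) = D.red j (e j) ^ N := by
    rw [RatField.lred, hWj, D.red_add sj hpj, sj0, zero_add,
      D.red_pow (D.mem_of_mem_O (he j).2.2.1 j)]
  have hord : ∀ b, R.HasOrd b W (n b) := fun b => by
    rcases hcases b with rfl | rfl
    · exact ⟨hWi ▸ add_mem hpi si,
        show R.lred b W (n b) ≠ 0 from hri ▸ pow_ne_zero _ (he b).2.2.2.1⟩
    · exact ⟨hWj ▸ add_mem sj hpj,
        show R.lred b W (n b) ≠ 0 from hrj ▸ pow_ne_zero _ (he b).2.2.2.1⟩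
  have heiz : D.red i (e i) ∈ z.2.toValuationSubring :=
    red_mem_place_of_chart h (he i).2.1 (he i).2.2.1 i hz.1
  have hWR : W ∈ coordRing L u := add_mem (Subalgebra.smul_mem _ (pow_mem (he i).2.1 N) _)
    (Subalgebra.smul_mem _ (pow_mem (he j).2.1 N) _)
  have hWK : W ∈ R.FK := add_mem (R.smul_mem (R.zpow_mem _) (pow_mem (he i).1 N))
    (R.smul_mem (R.zpow_mem _) (pow_mem (he j).1 N))
  have hval : ∀ P, ChartSpec h P z → ∃ c : A, pval P W = R.ϖ ^ n i * c ∧ π c = 1 := by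
    intro P hP
    have hd := (coordData_chart h).deg_one P
    have hP' : ∀ b, e b ∈ P.toValuationSubring := fun b =>
      mem_place_of_mem_coordRing L u P hP.1.1 (he b).2.1
    obtain ⟨ci, hci, hci'⟩ := exists_chart_val hP (he i).2.1 (he i).2.2.1
    rw [hi, hez] at hci'
    have hprod : ∀ b, D.red b (e j * e i) = 0 := fun b => by
      rw [D.red_mul (D.mem_of_mem_O (he j).2.2.1 b) (D.mem_of_mem_O (he i).2.2.1 b)]
      rcases hcases b with rfl | rfl
      · rw [(he j).2.2.2.2 b hji.symm, zero_mul]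
      · rw [(he i).2.2.2.2 b hji, mul_zero]
    have hq := R.small_of_red_eq_zero (mul_mem (he j).1 (he i).1)
      (mul_mem (he j).2.2.1 (he i).2.2.1) hprod
    obtain ⟨cq, hcq, -⟩ := exists_chart_val hP
      (Subalgebra.smul_mem _ (mul_mem (he j).2.1 (he i).2.1) _) hq
    rw [pval_const_smul hd (mul_mem (hP' j) (hP' i)), pval_mul hd (hP' j) (hP' i), hci] at hcq
    have hci0 : (ci : L) ≠ 0 := fun e0 => one_ne_zero (α := k) (by
      rw [← hci', show ci = 0 from Subtype.ext e0, map_zero])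
    set b : A := ⟨(cq : L) * (ci : L)⁻¹,
      mul_mem cq.2 (inv_mem_of_π (D := D) (hci' ▸ one_ne_zero))⟩
    have hcj : pval P (e j) = R.ϖ * (b : L) := by
      show _ = R.ϖ * ((cq : L) * (ci : L)⁻¹)
      rw [← hcq]
      field_simp [R.ϖ_ne]
    obtain ⟨M, hM, hM0⟩ : ∃ M : ℕ, (M : ℤ) = n j - n i + N ∧ M ≠ 0 :=
      ⟨(n j - n i + N).toNat, by omega, by omega⟩
    refine ⟨ci ^ N + ⟨R.ϖ, R.ϖ_mem_A⟩ ^ M * b ^ N, ?_, ?_⟩
    · rw [hW, pval_add hd (const_smul_mem_place P (pow_mem (hP' i) N) _)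
        (const_smul_mem_place P (pow_mem (hP' j) N) _), pval_const_smul hd (pow_mem (hP' i) N),
        pval_const_smul hd (pow_mem (hP' j) N), pval_pow' hd (hP' i), pval_pow' hd (hP' j), hci,
        hcj, mul_pow]
      push_cast
      rw [show n j = n i + (M - N : ℤ) by omega, zpow_add₀ R.ϖ_ne, zpow_sub₀ R.ϖ_ne, zpow_natCast,
        zpow_natCast]
      field_simp [R.ϖ_ne]
    · rw [map_add, map_mul, map_pow, map_pow, R.π_ϖ, zero_pow hM0, hci', one_pow, zero_mul,
        add_zero]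
  refine ⟨W, hWK, ⟨(hord i).ne_zero, fun P hP => ?_⟩, hord, hri ▸ pow_mem heiz N, ?_, hval⟩
  · have hd := (coordData_chart h).deg_one P
    obtain ⟨c, hc, hc'⟩ := hval P hP
    refine ((pval_ne_zero_iff hd (mem_place_of_mem_coordRing L u P hP.1.1 hWR)).mp ?_).2
    rw [hc]
    refine mul_ne_zero (R.zpow_ne _) fun e0 => one_ne_zero (α := k) ?_
    rw [← hc', show c = 0 from Subtype.ext e0, map_zero]
  · rw [hri, BAD.pv_pow heiz, hez, one_pow]

/-- Prescribed values on the two branches, a unit near a smooth point. -/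
theorem exists_scaled_free (hR : R.RatChart h) (hz : IsSmoothPt h z) (n : Fin 2 → ℤ) :
    ∃ W ∈ R.FK, IsFreeAt h z W ∧ ∀ i, R.HasOrd i W (n i) := by
  obtain ⟨W, hW, hWf, hWn, -⟩ := exists_scaled_free_val hR hz n
  exact ⟨W, hW, hWf, hWn⟩

omit [IsAlgClosed L] [IsAlgClosed k] [FF.IsFunctionField L F] in
/-- A nonzero rational function has exact values on both branches, the one at `i` prescribed. -/
theorem exists_ord_pair {f : F} (hf : f ∈ R.FK) {i : Fin 2} {m : ℤ} (hm : R.HasOrd i f m) :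
    ∃ n : Fin 2 → ℤ, n i = m ∧ ∀ b, R.HasOrd b f (n b) := by
  choose n hn using fun b => R.exists_hasOrd (i := b) hf hm.ne_zero
  exact ⟨n, (hn i).unique hm, hn⟩

/-- A function free near a smooth point reduces to a unit there and takes a value of that scale. -/
theorem IsFreeAt.smooth_unit (hR : R.RatChart h) (hz : IsSmoothPt h z) {f : F} (hf : f ∈ R.FK)
    (hfree : IsFreeAt h z f) {n : ℤ} (hn : R.HasOrd z.1 f n) :
    z.2.ord (R.lred z.1 f n) = 0 ∧ ∀ P, ChartSpec h P z →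
      ∃ c : A, pval P f = R.ϖ ^ n * c ∧
        π c = BAD.pv z.2 (h.coord.deg_one z.2) (R.lred z.1 f n) := by
  obtain ⟨m, hm, hmf⟩ := exists_ord_pair hf hn
  obtain ⟨W, hW, hWf, hWn, hWm, hWv, hWP⟩ := exists_scaled_free_val hR hz m
  have hG : ∀ b, R.HasOrd b (f / W) 0 := fun b => by
    simpa using ((hmf b).div (hWn b)).1
  obtain ⟨hGO, hG0⟩ := RatField.mem_O_of_hasOrd hG
  have hGf := hfree.div hWf
  have hord := hGf.red_ord_eq_zero hz.1 hGO hG0
  obtain ⟨hGm, -, -⟩ := red_mem_of_regular h hz.1 hGO hGf.regular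
  have hl : D.red z.1 (f / W) = R.lred z.1 f n / R.lred z.1 W n := by
    have e := (hn.div (hm ▸ hWn z.1)).2
    rwa [sub_self, RatField.lred_zero] at e
  rw [hm] at hWm hWv hWP
  obtain ⟨-, hW0, hWord⟩ := ord_eq_zero_of_pv_ne_zero (hd := h.coord.deg_one z.2)
    (hWv ▸ one_ne_zero)
  have hfl : R.lred z.1 f n = D.red z.1 (f / W) * R.lred z.1 W n := by
    rw [hl, div_mul_cancel₀ _ hW0]
  refine ⟨by rw [hfl, z.2.ord_mul (hG0 _) hW0, hord, hWord, add_zero], fun P hP => ?_⟩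
  have hd := (coordData_chart h).deg_one P
  obtain ⟨cG, hcG, hcG'⟩ := exists_regular_val hP hGO hGf.regular
  obtain ⟨cW, hcW, hcW'⟩ := hWP P hP
  refine ⟨cG * cW, ?_, ?_⟩
  · conv_lhs => rw [← div_mul_cancel₀ f hWf.1]
    rw [pval_mul hd (mem_of_ord_nonneg P (hGf.regular P hP))
      (mem_of_ord_nonneg P (hWf.regular P hP)), hcG, hcW]
    push_cast
    ring
  · rw [map_mul, hcW', mul_one, hfl, BAD.pv_mul hGm hWm, hWv, mul_one, hcG']

/-- A regular function integral on the branch of a smooth point reduces to a regular function. -/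
theorem red_mem_of_smooth (hR : R.RatChart h) (hz : IsSmoothPt h z) {f : F} (hf : f ∈ R.FK)
    (hfV : f ∈ D.V z.1) (hreg : AllSpec h z fun P => 0 ≤ P.ord f) :
    D.red z.1 f ∈ z.2.toValuationSubring ∧ ∀ P, ChartSpec h P z →
      ∃ c : A, pval P f = (c : L) ∧
        BAD.pv z.2 (h.coord.deg_one z.2) (D.red z.1 f) = π c := by
  by_cases hfO : f ∈ D.O
  · refine ⟨(red_mem_of_regular h hz.1 hfO hreg).1, fun P hP => ?_⟩
    obtain ⟨c, hc, hc'⟩ := exists_regular_val hP hfO hreg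
    exact ⟨c, hc, hc'.symm⟩
  have hf0 : f ≠ 0 := fun e => hfO (e ▸ zero_mem _)
  choose n hn using fun b => R.exists_hasOrd (i := b) hf hf0
  obtain ⟨W, hW, hWf, hWn, hWm, hWv, hWP⟩ :=
    exists_scaled_free_val hR hz fun b => if b = z.1 then 0 else -n b
  have hWz : R.HasOrd z.1 W 0 := by simpa using hWn z.1
  simp only [if_true, zpow_zero, one_mul, RatField.lred_zero] at hWm hWv hWP
  obtain ⟨hWV, -⟩ := RatField.hasOrd_zero_iff.mp hWz
  have hO : f * W ∈ D.O := D.mem_O.mpr fun b => by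
    rcases eq_or_ne b z.1 with rfl | hb
    · exact mul_mem hfV hWV
    · have e := hWn b
      rw [if_neg hb] at e
      have e2 := ((hn b).mul e).1
      rw [add_neg_cancel] at e2
      exact (RatField.hasOrd_zero_iff.mp e2).1
  have hregG : AllSpec h z fun P => 0 ≤ P.ord (f * W) := fun P hP => by
    show 0 ≤ P.ord (f * W)
    rw [P.ord_mul hf0 hWf.1, hWf.2 P hP, add_zero]
    exact hreg P hP
  obtain ⟨hG, -, -⟩ := red_mem_of_regular h hz.1 hO hregG
  rw [D.red_mul hfV hWV] at hG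
  obtain ⟨-, hW0, hWord⟩ := ord_eq_zero_of_pv_ne_zero (hd := h.coord.deg_one z.2)
    (hWv ▸ one_ne_zero)
  have hmem : D.red z.1 f ∈ z.2.toValuationSubring := by
    have hinv : (D.red z.1 W)⁻¹ ∈ z.2.toValuationSubring :=
      mem_of_ord_nonneg _ (by rw [z.2.ord_inv, hWord, neg_zero])
    have := mul_mem hG hinv
    rwa [mul_inv_cancel_right₀ hW0] at this
  refine ⟨hmem, fun P hP => ?_⟩
  obtain ⟨cW, hcW, hcW'⟩ := hWP P hP
  obtain ⟨cG, hcG, hcG'⟩ := exists_regular_val hP hO hregG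
  rw [pval_mul ((coordData_chart h).deg_one P) (mem_of_ord_nonneg P (hreg P hP))
    (mem_of_ord_nonneg P (hWf.regular P hP)), hcW] at hcG
  rw [D.red_mul hfV hWV, BAD.pv_mul hmem hWm, hWv, mul_one] at hcG'
  have hu : (cW : L) ≠ 0 := fun e => one_ne_zero (α := k) (by
    rw [← hcW', show cW = 0 from Subtype.ext e, map_zero])
  set c : A := ⟨(cG : L) * (cW : L)⁻¹,
    mul_mem cG.2 (inv_mem_of_π (D := D) (hcW' ▸ one_ne_zero))⟩ with hcdef
  have hcc : c * cW = cG := Subtype.ext (inv_mul_cancel_right₀ hu (cG : L))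
  refine ⟨c, ?_, ?_⟩
  · rw [hcdef]
    show pval P f = (cG : L) * (cW : L)⁻¹
    rw [← hcG, mul_inv_cancel_right₀ hu]
  · rw [← hcG', ← hcc, map_mul, hcW', mul_one]

/-- Residual functions regular at a smooth point lift. -/
theorem exists_lift_smooth (hR : R.RatChart h) (hz : IsSmoothPt h z) {c : C} (hc0 : c ≠ 0)
    (hc : c ∈ z.2.toValuationSubring) :
    ∃ t ∈ R.FK, t ∈ D.O ∧ (∀ i, D.red i t ≠ 0) ∧ D.red z.1 t = c ∧
      AllSpec h z fun P => 0 ≤ P.ord t := by
  classical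
  obtain ⟨a, haK, haO, ha, hreg⟩ := exists_lift_regular hR hz.1
    (c := fun b => if b = z.1 then c else 1)
    (fun w hw hr => by rw [hz.2 w hw hr]; simpa using hc)
    (fun w hw hr => by rw [hz.2 w hw hr])
  refine ⟨a, haK, haO, fun b => ?_, ?_, hreg⟩
  · rw [← D.red2_apply, ha]
    dsimp only
    split_ifs
    · exact hc0
    · exact one_ne_zero
  · rw [← D.red2_apply, ha]
    simp

/-- A rational function vanishing once above a smooth point, whatever value is subtracted. -/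
theorem exists_simple_smooth (hR : R.RatChart h) (hz : IsSmoothPt h z) :
    ∃ t ∈ R.FK, (AllSpec h z fun P => 0 ≤ P.ord t) ∧
      ∀ P, ChartSpec h P z → t - algebraMap L F (pval P t) ≠ 0 ∧
        P.ord (t - algebraMap L F (pval P t)) = 1 ∧
        ∀ Q, ChartSpec h Q z → Q ≠ P → Q.ord (t - algebraMap L F (pval P t)) = 0 := by
  obtain ⟨s, hsR, hs⟩ := h.coord.exists_ord_one z.2 hz.1
  have hs0 : s ≠ 0 := fun e => by simp [e] at hs
  obtain ⟨t, htK, htO, ht0, hts, htreg⟩ :=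
    exists_lift_smooth hR hz hs0 (mem_place_of_mem_coordRing _ _ _ hz.1 hsR)
  refine ⟨t, htK, htreg, fun P hP => ?_⟩
  have hd := (coordData_chart h).deg_one
  obtain ⟨c, hc, hc'⟩ := exists_regular_val hP htO htreg
  rw [hts, pv_eq_zero_of_ord_pos _ (by omega : 0 < z.2.ord s)] at hc'
  rw [hc]
  set y := t - algebraMap L F (c : L) with hy
  have hyO : y ∈ D.O := sub_mem htO (algebraMap_mem_O c)
  have hred : ∀ b, D.red b y = D.red b t := fun b => by
    rw [hy, D.red_sub (D.mem_of_mem_O htO b) (D.algebraMap_mem b c), D.red_algebraMap, hc',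
      map_zero, sub_zero]
  have hred0 : ∀ b, D.red b y ≠ 0 := fun b => hred b ▸ ht0 b
  have hy0 : y ≠ 0 := fun e => hred0 0 (by rw [e, D.red_zero])
  obtain ⟨E, hE⟩ := exists_isDivisorOf (L := L) hy0
  have hsum := specSum_eq_of_smooth h hyO hred0 hE hz.1 hz.2
  rw [hred, hts, hs] at hsum
  have hnn : AllSpec h z fun Q => 0 ≤ E Q := fun Q hQ => by
    show 0 ≤ E Q
    rw [hE Q]
    exact ord_nonneg_of_mem Q (sub_mem (mem_of_ord_nonneg Q (htreg Q hQ)) (Q.algebraMap_mem' _))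
  have hpos : 0 < E P := by
    rw [hE P]
    have := (pval_sub_algebraMap (hd P) (mem_of_ord_nonneg P (htreg P hP))).resolve_left
      (by rw [hc]; exact hy0)
    rwa [hc] at this
  obtain ⟨h1, h2⟩ := simple_of_specSum hsum hnn hP hpos
  exact ⟨hy0, (hE P).symm.trans h1, fun Q hQ hne => (hE Q).symm.trans (h2 Q hQ hne)⟩

/-- A `p`-th power moving a divisor away from a smooth point. -/
theorem exists_move_smooth (hR : R.RatChart h) (hz : IsSmoothPt h z) {p : ℕ} {f : F}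
    (hf : f ∈ R.FK) (hf0 : f ≠ 0) (hdiv : AllSpec h z fun P => (p : ℤ) ∣ P.ord f) :
    ∃ g ∈ R.FK, g ≠ 0 ∧ IsFreeAt h z (f * g ^ p) := by
  obtain ⟨t, htK, htreg, ht⟩ := exists_simple_smooth hR hz
  exact exists_move_of_simple hR.u_mem htK htreg ht hf hf0 hdiv

/-- A function with reduction one moved away from a smooth point keeping reduction one. -/
theorem exists_normalise_smooth (hR : R.RatChart h) (hz : IsSmoothPt h z) {p : ℕ} [Fact p.Prime]
    [CharP k p] {q : F} (hq : q ∈ R.FK) (hqO : q ∈ D.O) (hq1 : ∀ i, D.red i q = 1)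
    (hdiv : AllSpec h z fun P => (p : ℤ) ∣ P.ord q) :
    ∃ g ∈ R.FK, g ∈ D.O ∧ (∀ i, D.red i g ≠ 0) ∧ D.red z.1 g = 1 ∧
      IsFreeAt h z (q * g ^ p) := by
  have hp : 0 < p := (Fact.out : p.Prime).pos
  have hq0 : q ≠ 0 := fun e => by simpa [e] using hq1 0
  obtain ⟨g, hg, hg0, hfree⟩ := exists_move_smooth hR hz hq hq0 hdiv
  choose n hn using fun b => R.exists_hasOrd (i := b) hg hg0
  obtain ⟨W, hW, hWf, hWn⟩ := exists_scaled_free hR hz n
  have h1 : ∀ b, R.HasOrd b (g / W) 0 := fun b => by simpa using ((hn b).div (hWn b)).1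
  obtain ⟨h1O, h10⟩ := RatField.mem_O_of_hasOrd h1
  have hfree1 : IsFreeAt h z (q * (g / W) ^ p) := by
    rw [div_pow, ← mul_div_assoc]
    exact hfree.div (hWf.pow p)
  have hqp : ∀ b, D.red b (q * (g / W) ^ p) = D.red b (g / W) ^ p := fun b => by
    rw [D.red_mul (D.mem_of_mem_O hqO b) (pow_mem (D.mem_of_mem_O h1O b) p),
      D.red_pow (D.mem_of_mem_O h1O b), hq1, one_mul]
  have hord := hfree1.red_ord_eq_zero hz.1 (mul_mem hqO (pow_mem h1O p))
    fun b => by rw [hqp]; exact pow_ne_zero _ (h10 b)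
  rw [hqp, ord_pow' _ (h10 _)] at hord
  have hr : z.2.ord (D.red z.1 (g / W)) = 0 := by
    rcases mul_eq_zero.mp hord with e | e
    · exact absurd e (by exact_mod_cast hp.ne')
    · exact e
  obtain ⟨l, hlK, hlO, hl0, hlz, hlreg⟩ :=
    exists_lift_smooth hR hz (h10 z.1) (mem_of_ord_nonneg _ hr.ge)
  have hl : IsFreeAt h z l := isFreeAt_of_specSum (fun e => hl0 0 (by rw [e, D.red_zero])) hlreg
    fun E hE => by rw [specSum_eq_of_smooth h hlO hl0 hE hz.1 hz.2, hlz, hr]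
  have hli := D.inv_mem_O hlO hl0
  refine ⟨g / W / l, div_mem (div_mem hg hW) hlK, ?_, fun b => ?_, ?_, ?_⟩
  · rw [div_eq_mul_inv]
    exact mul_mem h1O hli
  · rw [div_eq_mul_inv _ l, D.red_mul (D.mem_of_mem_O h1O b) (D.mem_of_mem_O hli b),
      D.red_inv (D.mem_of_mem_O hlO b) (hl0 b)]
    exact mul_ne_zero (h10 b) (inv_ne_zero (hl0 b))
  · rw [div_eq_mul_inv _ l, D.red_mul (D.mem_of_mem_O h1O _) (D.mem_of_mem_O hli _),
      D.red_inv (D.mem_of_mem_O hlO _) (hl0 _), hlz, mul_inv_cancel₀ (h10 _)]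
  · rw [div_pow _ l, ← mul_div_assoc]
    exact hfree1.div (hl.pow p)

end Fermat.Agent.LLp
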