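import Fermat.Agent.LLp.Local.SpecTotal

/-!
# Orders are preserved by specialisation on a two-branch chart

See `SpecBase` for `pval_mem_of_chart`, `SpecPoint` for `exists_chartSpec`, `exists_clear` and
`red_mem_of_regular`.
-/

set_option autoImplicit false

noncomputable section

open AlgebraicCurve Fermat.Agent.RED

namespace Fermat.Agent.LLp

variable {L k : Type*} [Field L] [Field k] {A : ValuationSubring L} {π : A →+* k}
  {F C : Type*} [Field F] [Algebra L F] [Field C] [Algebra k C] {D : BAD.BadBase π F C}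
  {u : F} {ubar : C} {d : ℕ} [IsAlgClosed L] [IsAlgClosed k] [FF.IsFunctionField L F]
  (h : BAD.Chart D u ubar d)

/-- The count at a point glued to no other point. -/
theorem specSum_eq_of_smooth {f : F} (hf : f ∈ D.O) (h0 : ∀ i, D.red i f ≠ 0)
    {E : Divisor L F} (hE : IsDivisorOf E f) {z : Fin 2 × Place k C}
    (hz : ubar ∈ z.2.toValuationSubring)
    (hsmooth : ∀ w : Fin 2 × Place k C, ubar ∈ w.2.toValuationSubring → h.Rel z w → w = z) :
    specSum h z E = z.2.ord (D.red z.1 f) := by
  have hcls : cls h z = {z} := Finset.eq_singleton_iff_unique_mem.mpr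
    ⟨(mem_cls h).mpr ⟨hz, rel_refl h z⟩, fun w hw =>
      hsmooth w ((mem_cls h).mp hw).1 ((mem_cls h).mp hw).2⟩
  rw [countEq h hf h0 E hE z hz, classOrd, hcls, Finset.sum_singleton, D.red2_apply]

/-- The count at a crossing point. -/
theorem specSum_eq_of_node {f : F} (hf : f ∈ D.O) (h0 : ∀ i, D.red i f ≠ 0)
    {E : Divisor L F} (hE : IsDivisorOf E f) {x y : Place k C}
    (hx : ubar ∈ x.toValuationSubring) (hy : ubar ∈ y.toValuationSubring)
    (hr : h.Rel ((0 : Fin 2), x) ((1 : Fin 2), y)) :
    specSum h ((0 : Fin 2), x) E = x.ord (D.red 0 f) + y.ord (D.red 1 f) := by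
  classical
  have hcls : cls h ((0 : Fin 2), x) = {((0 : Fin 2), x), ((1 : Fin 2), y)} := by
    ext w
    simp only [Finset.mem_insert, Finset.mem_singleton]
    constructor
    · intro hw
      have hwm := (mem_cls h).mp hw
      rcases (by omega : w.1 = 0 ∨ w.1 = 1) with e | e
      · exact Or.inl (eq_of_mem_clsSet h hwm ⟨hx, rel_refl h _⟩ e)
      · exact Or.inr (eq_of_mem_clsSet h hwm ⟨hy, hr⟩ e)
    · rintro (rfl | rfl)
      · exact (mem_cls h).mpr ⟨hx, rel_refl h _⟩
      · exact (mem_cls h).mpr ⟨hy, hr⟩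
  rw [countEq h hf h0 E hE _ hx, classOrd, hcls, Finset.sum_pair (by simp), D.red2_apply,
    D.red2_apply]

end Fermat.Agent.LLp
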