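import Fermat.Agent.LLp.Local.Galois
import Fermat.Agent.LLp.Local.SpecCount
import Fermat.Agent.BAD.Core.Scale
import Mathlib.Algebra.Polynomial.BigOperators

/-!
# Auxiliary lemmas for functions near a point of the special fibre

Values and exact orders of rational functions, lifts of glued pairs regular at a point, and the
Galois-invariant product moving a divisor away from a point.
-/

set_option autoImplicit false

noncomputable section

open AlgebraicCurve Polynomial Fermat.Agent.RED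

namespace Fermat.Agent.LLp

variable {L k : Type*} [Field L] [Field k] {A : ValuationSubring L} {π : A →+* k}
  {F C : Type*} [Field F] [Algebra L F] [Field C] [Algebra k C] {D : BAD.BadBase π F C}
  {u : F} {ubar : C} {d : ℕ}

section Ord

variable {K E : Type*} [Field K] [Field E] [Algebra K E] (v : Place K E)

theorem ord_div_eq_sub {f g : E} (hf : f ≠ 0) (hg : g ≠ 0) :
    v.ord (f / g) = v.ord f - v.ord g := by
  rw [div_eq_mul_inv, v.ord_mul hf (inv_ne_zero hg), v.ord_inv, sub_eq_add_neg]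

theorem ord_const_smul {c : K} (hc : c ≠ 0) (f : E) : v.ord (c • f) = v.ord f := by
  rcases eq_or_ne f 0 with rfl | hf
  · rw [smul_zero]
  rw [Algebra.smul_def, v.ord_mul ((_root_.map_ne_zero _).mpr hc) hf, ord_algebraMap', zero_add]

theorem const_smul_mem_place {f : E} (hf : f ∈ v.toValuationSubring) (c : K) :
    c • f ∈ v.toValuationSubring := BAD.smul_mem_place hf c

variable {v}

theorem pval_const_smul (hv : v.deg = 1) {f : E} (hf : f ∈ v.toValuationSubring) (c : K) :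
    pval v (c • f) = c * pval v f := by
  rw [Algebra.smul_def, pval_mul hv (v.algebraMap_mem' c) hf, pval_algebraMap hv]

theorem ord_eq_zero_of_pv_ne_zero {hd : v.deg = 1} {f : E} (h : BAD.pv v hd f ≠ 0) :
    f ∈ v.toValuationSubring ∧ f ≠ 0 ∧ v.ord f = 0 := by
  have hf : f ∈ v.toValuationSubring := by
    by_contra hc
    exact h (dif_neg hc)
  rw [ne_eq, BAD.pv_eq_zero_iff hf, not_or] at h
  have := ord_nonneg_of_mem v hf
  exact ⟨hf, h.1, by omega⟩

theorem pv_ne_zero_of_ord_eq_zero (hd : v.deg = 1) {f : E} (hf : f ≠ 0) (h : v.ord f = 0) :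
    BAD.pv v hd f ≠ 0 := by
  rw [ne_eq, BAD.pv_eq_zero_iff (mem_of_ord_nonneg v h.ge), not_or]
  exact ⟨hf, by omega⟩

theorem pv_eq_zero_of_ord_pos (hd : v.deg = 1) {f : E} (h : 0 < v.ord f) :
    BAD.pv v hd f = 0 :=
  (BAD.pv_eq_zero_iff (mem_of_ord_nonneg v h.le)).mpr (Or.inr h)

end Ord

namespace RatField

variable {R : RatField D} {i : Fin 2} {x y : F} {m n : ℤ}

theorem zpow_smul_mem_V (R : RatField D) (hy : y ∈ D.V i) {e : ℤ} (he : 0 ≤ e) :
    R.ϖ ^ e • y ∈ D.V i ∧ (0 < e → D.red i (R.ϖ ^ e • y) = 0) := by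
  lift e to ℕ using he
  have h : R.ϖ ^ (e : ℤ) • y = (((⟨R.ϖ, R.ϖ_mem_A⟩ : A) ^ e : A) : L) • y := by
    rw [zpow_natCast, SubmonoidClass.coe_pow]
  exact ⟨h ▸ D.smul_mem hy _, fun he => by
    rw [h, D.red_smul hy, map_pow, R.π_ϖ, zero_pow (by omega), zero_smul]⟩

theorem HasOrd.mem_V (hx : R.HasOrd i x n) (hn : 0 ≤ n) :
    x ∈ D.V i ∧ (0 < n → D.red i x = 0) := by
  have h := R.zpow_smul_mem_V hx.1 hn
  rwa [smul_inv_smul₀ (R.zpow_ne n)] at h

/-- The value is the largest exponent dividing the function. -/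
theorem HasOrd.le_of_mem (hx : R.HasOrd i x n) {e : ℤ} (he : (R.ϖ ^ e)⁻¹ • x ∈ D.V i) :
    e ≤ n := by
  by_contra hlt
  have h := (R.zpow_smul_mem_V he (e := e - n) (by omega)).2 (by omega)
  rw [smul_smul, zpow_sub₀ R.ϖ_ne, div_mul_eq_mul_div, mul_inv_cancel₀ (R.zpow_ne e),
    one_div] at h
  exact hx.2 h

theorem HasOrd.pow (hx : R.HasOrd i x n) (a : ℕ) :
    R.HasOrd i (x ^ a) (a * n) ∧ R.lred i (x ^ a) (a * n) = R.lred i x n ^ a := by
  induction a with
  | zero =>
    rw [pow_zero, pow_zero, Nat.cast_zero, zero_mul, hasOrd_zero_iff, lred_zero]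
    exact ⟨⟨one_mem _, by rw [D.red_one]; exact one_ne_zero⟩, D.red_one⟩
  | succ a ih =>
    obtain ⟨h1, h2⟩ := ih.1.mul hx
    rw [pow_succ, pow_succ, Nat.cast_succ, add_one_mul]
    exact ⟨h1, by rw [h2, ih.2]⟩

theorem HasOrd.zpow (hx : R.HasOrd i x n) (a : ℤ) :
    R.HasOrd i (x ^ a) (a * n) ∧ R.lred i (x ^ a) (a * n) = R.lred i x n ^ a := by
  rcases Int.eq_nat_or_neg a with ⟨b, rfl | rfl⟩
  · rw [zpow_natCast, zpow_natCast]
    exact hx.pow b
  · rw [zpow_neg, zpow_neg, zpow_natCast, zpow_natCast, neg_mul]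
    exact ⟨(hx.pow b).1.inv.1, by rw [(hx.pow b).1.inv.2, (hx.pow b).2]⟩

theorem HasOrd.div (hx : R.HasOrd i x m) (hy : R.HasOrd i y n) :
    R.HasOrd i (x / y) (m - n) ∧
      R.lred i (x / y) (m - n) = R.lred i x m / R.lred i y n := by
  rw [div_eq_mul_inv, div_eq_mul_inv, sub_eq_add_neg]
  exact ⟨(hx.mul hy.inv.1).1, by rw [(hx.mul hy.inv.1).2, hy.inv.2]⟩

theorem HasOrd.smul_zpow (hx : R.HasOrd i x n) (a : ℤ) :
    R.HasOrd i ((R.ϖ ^ a)⁻¹ • x) (n - a) ∧
      R.lred i ((R.ϖ ^ a)⁻¹ • x) (n - a) = R.lred i x n := by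
  have e : (R.ϖ ^ (n - a))⁻¹ • (R.ϖ ^ a)⁻¹ • x = (R.ϖ ^ n)⁻¹ • x := by
    rw [smul_smul, ← mul_inv, ← zpow_add₀ R.ϖ_ne, sub_add_cancel]
  refine ⟨⟨e ▸ hx.1, ?_⟩, by rw [lred, e]; rfl⟩
  rw [e]
  exact hx.2

theorem mem_O_of_hasOrd (hx : ∀ i, R.HasOrd i x 0) : x ∈ D.O ∧ ∀ i, D.red i x ≠ 0 :=
  ⟨D.mem_O.mpr fun i => (hasOrd_zero_iff.mp (hx i)).1, fun i => (hasOrd_zero_iff.mp (hx i)).2⟩

theorem hasOrd_of_mem_O (R : RatField D) (hx : x ∈ D.O) (h0 : ∀ i, D.red i x ≠ 0) (i : Fin 2) :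
    R.HasOrd i x 0 := hasOrd_zero_iff.mpr ⟨D.mem_of_mem_O hx i, h0 i⟩

end RatField

section Residue

include D in
theorem valuation_eq_one_of_π {c : A} (hc : π c ≠ 0) : A.valuation (c : L) = 1 := by
  refine le_antisymm ((A.valuation_le_one_iff _).mpr c.2) (not_lt.mp fun hlt => hc ?_)
  exact D.residue_eq_zero_of_nonunit c hlt

include D in
theorem inv_mem_of_π {c : A} (hc : π c ≠ 0) : (c : L)⁻¹ ∈ A := by
  rw [← A.valuation_le_one_iff, map_inv₀, valuation_eq_one_of_π (D := D) hc, inv_one]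

theorem valuation_lt_one_of_π {c : A} (hc : π c = 0) : A.valuation (c : L) < 1 := by
  refine lt_of_le_of_ne ((A.valuation_le_one_iff _).mpr c.2) fun h => ?_
  have hu : IsUnit c := (A.valuation_eq_one_iff c).mpr h
  exact (hu.map π).ne_zero hc

end Residue

variable {h : BAD.Chart D u ubar d} {z : Fin 2 × Place k C}

section Spec

theorem AllSpec.of_rel {S : Place L F → Prop} (hS : AllSpec h z S) {w : Fin 2 × Place k C}
    (hr : h.Rel w z) (hz : ubar ∈ z.2.toValuationSubring) : AllSpec h w S :=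
  fun P hP => hS P (hP.of_rel h hr hz)

variable [IsAlgClosed L] [FF.IsFunctionField L F]

/-- Values of chart functions at a place above `z`. -/
theorem exists_chart_val {P : Place L F} (hP : ChartSpec h P z) {a : F}
    (ha : a ∈ coordRing L u) (haO : a ∈ D.O) :
    ∃ c : A, pval P a = (c : L) ∧
      π c = BAD.pv z.2 (h.coord.deg_one z.2) (D.red z.1 a) :=
  ⟨⟨_, pval_mem_of_chart h hP.1 ha haO⟩, rfl,
    (hP.2.2 a ha haO ⟨_, pval_mem_of_chart h hP.1 ha haO⟩ rfl).symm⟩

/-- Values of regular integral functions at a place above `z`. -/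
theorem exists_regular_val {P : Place L F} (hP : ChartSpec h P z) {f : F} (hf : f ∈ D.O)
    (hreg : AllSpec h z fun P => 0 ≤ P.ord f) :
    ∃ c : A, pval P f = (c : L) ∧
      π c = BAD.pv z.2 (h.coord.deg_one z.2) (D.red z.1 f) := by
  have hd := (coordData_chart h).deg_one P
  obtain ⟨s, hs, hsO, hsz, hsf⟩ := exists_clear h hP.2.1 hf hreg
  obtain ⟨cs, hcs, hcs'⟩ := exists_chart_val hP hs hsO
  obtain ⟨cf, hcf, -⟩ := exists_chart_val hP hsf (mul_mem hsO hf)
  have hne : π cs ≠ 0 := hcs' ▸ hsz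
  have hm : pval P f ∈ A := by
    have e : pval P f = (cs : L)⁻¹ * cf := by
      rw [← hcf, pval_mul hd (mem_place_of_mem_coordRing L u P hP.1.1 hs)
        (mem_of_ord_nonneg P (hreg P hP)), hcs, inv_mul_cancel_left₀]
      intro h0
      exact hne (by rw [show cs = 0 from Subtype.ext h0, map_zero])
    exact e ▸ mul_mem (inv_mem_of_π (D := D) hne) cf.2
  exact ⟨⟨_, hm⟩, rfl, ((red_mem_of_regular h hP.2.1 hf hreg).2.2 P hP ⟨_, hm⟩ rfl).symm⟩

omit [IsAlgClosed L] [FF.IsFunctionField L F] in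
theorem ord_eq_zero_of_specSum {E : Divisor L F} (hsum : specSum h z E = 0)
    (hnn : AllSpec h z fun P => 0 ≤ E P) : AllSpec h z fun P => E P = 0 := fun P hP => by
  have h1 : E P ≤ specSum h z E := le_sumOver (p := (ChartSpec h · z)) hnn hP
  have h2 : 0 ≤ E P := hnn P hP
  show E P = 0
  omega

omit [IsAlgClosed L] [FF.IsFunctionField L F] in
/-- A positive divisor of total one is one point. -/
theorem simple_of_specSum {E : Divisor L F} (hsum : specSum h z E = 1)
    (hnn : AllSpec h z fun P => 0 ≤ E P) {P : Place L F} (hP : ChartSpec h P z)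
    (hEP : 0 < E P) :
    E P = 1 ∧ ∀ Q, ChartSpec h Q z → Q ≠ P → E Q = 0 := by
  classical
  have h1 : E P ≤ specSum h z E := le_sumOver (p := (ChartSpec h · z)) hnn hP
  have hP1 : E P = 1 := by omega
  refine ⟨hP1, fun Q hQ hne => ?_⟩
  have hs : specSum h z (E - Finsupp.single P (1 : ℤ) : Divisor L F) = 0 := by
    rw [map_sub, hsum]
    simp [specSum, sumOver, hP]
  have h2 := ord_eq_zero_of_specSum hs (fun Q' hQ' => by
    show 0 ≤ (E - Finsupp.single P (1 : ℤ) : Divisor L F) Q'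
    rcases eq_or_ne Q' P with rfl | h'
    · simp [hP1]
    · simpa [h'.symm] using hnn Q' hQ') Q hQ
  simpa [hne.symm] using h2

/-- A unit reduction forces freeness. -/
theorem isFreeAt_of_specSum {f : F} (hf0 : f ≠ 0) (hreg : AllSpec h z fun P => 0 ≤ P.ord f)
    (hsum : ∀ E : Divisor L F, IsDivisorOf E f → specSum h z E = 0) : IsFreeAt h z f := by
  obtain ⟨E, hE⟩ := exists_isDivisorOf (L := L) hf0
  have h1 := ord_eq_zero_of_specSum (hsum E hE) (fun P hP => by
    show 0 ≤ E P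
    rw [hE P]
    exact hreg P hP)
  exact ⟨hf0, fun P hP => (hE P).symm.trans (h1 P hP)⟩

end Spec

section Free

variable {f g : F}

theorem IsFreeAt.regular (hf : IsFreeAt h z f) : AllSpec h z fun P => 0 ≤ P.ord f :=
  fun P hP => (hf.2 P hP).ge

theorem IsFreeAt.mul (hf : IsFreeAt h z f) (hg : IsFreeAt h z g) : IsFreeAt h z (f * g) :=
  ⟨mul_ne_zero hf.1 hg.1, fun P hP => by
    show P.ord (f * g) = 0
    rw [P.ord_mul hf.1 hg.1, hf.2 P hP, hg.2 P hP, add_zero]⟩

theorem IsFreeAt.inv (hf : IsFreeAt h z f) : IsFreeAt h z f⁻¹ :=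
  ⟨inv_ne_zero hf.1, fun P hP => by
    show P.ord f⁻¹ = 0
    rw [P.ord_inv, hf.2 P hP, neg_zero]⟩

theorem IsFreeAt.div (hf : IsFreeAt h z f) (hg : IsFreeAt h z g) : IsFreeAt h z (f / g) := by
  rw [div_eq_mul_inv]
  exact hf.mul hg.inv

theorem IsFreeAt.pow (hf : IsFreeAt h z f) (n : ℕ) : IsFreeAt h z (f ^ n) :=
  ⟨pow_ne_zero n hf.1, fun P hP => by
    show P.ord (f ^ n) = 0
    rw [ord_pow' P hf.1, hf.2 P hP, mul_zero]⟩

theorem IsFreeAt.zpow (hf : IsFreeAt h z f) (n : ℤ) : IsFreeAt h z (f ^ n) :=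
  ⟨zpow_ne_zero n hf.1, fun P hP => by
    show P.ord (f ^ n) = 0
    rw [P.ord_zpow, hf.2 P hP, mul_zero]⟩

theorem IsFreeAt.const_smul (hf : IsFreeAt h z f) {c : L} (hc : c ≠ 0) :
    IsFreeAt h z (c • f) :=
  ⟨smul_ne_zero hc hf.1, fun P hP => by
    show P.ord (c • f) = 0
    rw [ord_const_smul P hc, hf.2 P hP]⟩

theorem IsFreeAt.of_rel (hf : IsFreeAt h z f) {w : Fin 2 × Place k C} (hr : h.Rel w z)
    (hz : ubar ∈ z.2.toValuationSubring) : IsFreeAt h w f :=
  ⟨hf.1, AllSpec.of_rel hf.2 hr hz⟩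

end Free

section Lift

include h in
theorem const_aeval_mem_chartAlg (q : k[X]) :
    (fun _ : Fin 2 => aeval ubar q) ∈ BAD.Chart.chartAlg D u := by
  induction q using Polynomial.induction_on' with
  | add a b ha hb =>
    have e : (fun _ : Fin 2 => aeval ubar (a + b)) =
        (fun _ => aeval ubar a) + fun _ => aeval ubar b := funext fun _ => map_add _ _ _
    rw [e]
    exact add_mem ha hb
  | monomial n a =>
    have e : (fun _ : Fin 2 => aeval ubar (monomial n a)) =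
        a • (fun _ : Fin 2 => ubar) ^ n := funext fun _ => by
      rw [aeval_monomial, Pi.smul_apply, Pi.pow_apply, Algebra.smul_def]
    rw [e]
    exact Submodule.smul_mem _ _ (BAD.Chart.chartAlg_pow_mem h.const_ubar_mem n)

variable {R : RatField D}

/-- Pairs regular and glued at a point lift to rational functions regular above it. -/
theorem exists_lift_regular [IsAlgClosed L] [FF.IsFunctionField L F] (hR : R.RatChart h)
    (hz : ubar ∈ z.2.toValuationSubring) {c : Fin 2 → C}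
    (hc : ∀ w : Fin 2 × Place k C, ubar ∈ w.2.toValuationSubring → h.Rel z w →
      c w.1 ∈ w.2.toValuationSubring)
    (hglue : ∀ w : Fin 2 × Place k C, ubar ∈ w.2.toValuationSubring → h.Rel z w →
      BAD.pv w.2 (h.coord.deg_one w.2) (c w.1) = BAD.pv z.2 (h.coord.deg_one z.2) (c z.1)) :
    ∃ a ∈ R.FK, a ∈ D.O ∧ D.red2 a = c ∧ AllSpec h z fun P => 0 ≤ P.ord a := by
  classical
  have := h.finite_C
  obtain ⟨ε, hε, hεR, hδ⟩ := h.exists_delta
  choose q hq0 hq using fun i => BAD.exists_aeval_mul_mem_coordRing (K := k) (x := ubar) (c i)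
  set G : C := aeval ubar (q 0 * q 1) * ε with hG
  have hG0 : G ≠ 0 := by
    rw [hG, map_mul]
    exact mul_ne_zero (mul_ne_zero (hq0 0) (hq0 1)) hε
  have hGR : G ∈ coordRing k ubar := mul_mem (aeval_mem_coordRing k ubar _) hεR
  have hGs : ∀ i, Pi.single i G ∈ BAD.Chart.chartAlg D u := fun i => by
    have e : (Pi.single i G : Fin 2 → C) =
        (fun _ => aeval ubar (q 0 * q 1)) * Pi.single i ε := funext fun j => by
      rw [Pi.mul_apply, hG]
      rcases eq_or_ne j i with rfl | hji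
      · rw [Pi.single_eq_same, Pi.single_eq_same]
      · rw [Pi.single_eq_of_ne hji, Pi.single_eq_of_ne hji, mul_zero]
    rw [e]
    exact BAD.Chart.chartAlg_mul_mem (const_aeval_mem_chartAlg (h := h) _) (hδ i)
  set Z₀ := (h.finite_zeros hG0 hGR).toFinset with hZ₀
  have hmemZ : ∀ x, x ∈ Z₀ ↔
      ubar ∈ x.toValuationSubring ∧ BAD.pv x (h.coord.deg_one x) G = 0 := fun x => by
    simp [hZ₀]
  -- away from the zeros of `G` the components are regular
  have hoff : ∀ (i : Fin 2) (x : Place k C), ubar ∈ x.toValuationSubring → x ∉ Z₀ →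
      c i ∈ x.toValuationSubring := by
    intro i x hx hxZ
    obtain ⟨-, -, hord⟩ := ord_eq_zero_of_pv_ne_zero (hd := h.coord.deg_one x) (f := G)
      fun e => hxZ ((hmemZ x).mpr ⟨hx, e⟩)
    have hinv : G⁻¹ ∈ x.toValuationSubring :=
      mem_of_ord_nonneg x (by rw [x.ord_inv, hord, neg_zero])
    obtain ⟨r, hr, hre⟩ : ∃ r ∈ coordRing k ubar, G = aeval ubar (q i) * r := by
      fin_cases i
      · exact ⟨_, mul_mem (aeval_mem_coordRing k ubar (q 1)) hεR,
          by rw [hG, map_mul, mul_assoc]; rfl⟩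
      · exact ⟨_, mul_mem (aeval_mem_coordRing k ubar (q 0)) hεR,
          by rw [hG, map_mul]; show _ = aeval ubar (q 1) * _; ring⟩
    have e : c i = aeval ubar (q i) * c i * (r * G⁻¹) := by
      rw [show aeval ubar (q i) * c i * (r * G⁻¹) =
        c i * ((aeval ubar (q i) * r) * G⁻¹) by ring, ← hre, mul_inv_cancel₀ hG0, mul_one]
    rw [e]
    exact mul_mem (mem_place_of_mem_coordRing _ _ x hx (hq i))
      (mul_mem (mem_place_of_mem_coordRing _ _ x hx hr) hinv)
  have hcross : ∀ x y, ubar ∈ x.toValuationSubring → ubar ∈ y.toValuationSubring →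
      h.Rel ((0 : Fin 2), x) ((1 : Fin 2), y) → x ∈ Z₀ ∧ y ∈ Z₀ := by
    intro x y hx hy hr
    have h0 := hr _ (hGs 0)
    have h1 := hr _ (hGs 1)
    simp [BAD.Chart.ev, BAD.pv_zero] at h0 h1
    exact ⟨(hmemZ x).mpr ⟨hx, h0⟩, (hmemZ y).mpr ⟨hy, h1.symm⟩⟩
  -- an indicator of `z` which is nonzero on both branches
  set T := (Finset.univ : Finset (Fin 2)) ×ˢ Z₀ with hT
  have hTmem : ∀ w ∈ T, ubar ∈ w.2.toValuationSubring := fun w hw => by
    simp only [hT, Finset.mem_product, hmemZ] at hw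
    exact hw.2.1
  obtain ⟨e₀, he₀, he₀z, he₀T⟩ := h.exists_indicator hz T hTmem
  have he₀ne : e₀ z.1 ≠ 0 := fun e => by
    simp [BAD.Chart.ev, e, BAD.pv_zero] at he₀z
  set e : Fin 2 → C := fun i => if e₀ i = 0 then G else e₀ i with he
  have heA : e ∈ BAD.Chart.chartAlg D u := by
    have e1 : e = e₀ + ((if e₀ 0 = 0 then Pi.single 0 G else 0) +
        if e₀ 1 = 0 then Pi.single 1 G else 0) := funext fun i => by
      fin_cases i <;> by_cases h0 : e₀ 0 = 0 <;> by_cases h1 : e₀ 1 = 0 <;>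
        simp [he, h0, h1]
    rw [e1]
    refine add_mem he₀ (add_mem ?_ ?_) <;> split_ifs <;>
      first | exact hGs _ | exact Submodule.zero_mem _
  have hene : ∀ i, e i ≠ 0 := fun i => by
    simp only [he]
    split_ifs with h0
    · exact hG0
    · exact h0
  have hev : ∀ w : Fin 2 × Place k C, h.Rel z w →
      BAD.pv w.2 (h.coord.deg_one w.2) (e w.1) = 1 := fun w hw => by
    refine ((hw e heA).symm.trans ?_)
    show BAD.pv z.2 _ (e z.1) = 1
    rw [he]
    simp only [if_neg he₀ne]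
    exact he₀z
  have hvan : ∀ w ∈ T, ¬ h.Rel z w → BAD.Vanish w.2 1 (e w.1) := fun w hw hr => by
    simp only [he]
    split_ifs
    · simp only [hT, Finset.mem_product, hmemZ] at hw
      exact BAD.vanish_one_iff.mpr ⟨mem_place_of_mem_coordRing _ _ _ hw.2.1 hGR, hw.2.2⟩
    · exact he₀T w hw hr
  set N := T.sup (fun w => (-w.2.ord (c w.1)).toNat) + 1 with hN
  have hnum : ∀ w ∈ T, ¬ h.Rel z w → BAD.Vanish w.2 1 (c w.1 * e w.1 ^ N) := fun w hw hr => by
    rcases eq_or_ne (c w.1) 0 with h0 | h0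
    · exact BAD.vanish_iff.mpr (Or.inl (by rw [h0, zero_mul]))
    have h1 := (BAD.vanish_iff.mp ((hvan w hw hr).pow N)).resolve_left (pow_ne_zero _ (hene _))
    refine BAD.vanish_iff.mpr (Or.inr ?_)
    rw [w.2.ord_mul h0 (pow_ne_zero _ (hene _))]
    have := Finset.le_sup (f := fun w : Fin 2 × Place k C => (-w.2.ord (c w.1)).toNat) hw
    have := Int.self_le_toNat (-w.2.ord (c w.1))
    push_cast at h1 ⊢
    omega
  have hmem : ∀ (i : Fin 2) (x : Place k C), ubar ∈ x.toValuationSubring →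
      c i * e i ^ N ∈ x.toValuationSubring := by
    intro i x hx
    by_cases hr : h.Rel z (i, x)
    · exact mul_mem (hc (i, x) hx hr) (pow_mem (h.chartAlg_mem_place heA i hx) N)
    by_cases hxZ : x ∈ Z₀
    · exact ((BAD.vanish_one_iff (hd := h.coord.deg_one x)).mp
        (hnum (i, x) (by simp [hT, hxZ]) hr)).1
    · exact mul_mem (hoff i x hx hxZ) (pow_mem (h.chartAlg_mem_place heA i hx) N)
  have hnumA : (fun i => c i * e i ^ N) ∈ BAD.Chart.chartAlg D u := by
    refine h.mem_chartAlg_iff.mpr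
      ⟨fun i => h.coord.mem_coordRing_of_forall _ (hmem i), fun x y hx hy hr => ?_⟩
    obtain ⟨hxZ, hyZ⟩ := hcross x y hx hy hr
    by_cases hzr : h.Rel z ((0 : Fin 2), x)
    · have key : ∀ w : Fin 2 × Place k C, ubar ∈ w.2.toValuationSubring → h.Rel z w →
          BAD.pv w.2 (h.coord.deg_one w.2) (c w.1 * e w.1 ^ N) =
            BAD.pv z.2 (h.coord.deg_one z.2) (c z.1) := fun w hw hwr => by
        rw [BAD.pv_mul (hc w hw hwr) (pow_mem (h.chartAlg_mem_place heA _ hw) N),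
          BAD.pv_pow (h.chartAlg_mem_place heA _ hw), hev w hwr, one_pow, mul_one,
          hglue w hw hwr]
      exact (key ((0 : Fin 2), x) hx hzr).trans (key ((1 : Fin 2), y) hy (hzr.trans h hr)).symm
    · have hzr' : ¬ h.Rel z ((1 : Fin 2), y) := fun e' => hzr (e'.trans h (hr.symm h))
      exact ((BAD.vanish_one_iff (hd := h.coord.deg_one x)).mp
          (hnum ((0 : Fin 2), x) (by simp [hT, hxZ]) hzr)).2.trans
        ((BAD.vanish_one_iff (hd := h.coord.deg_one y)).mp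
          (hnum ((1 : Fin 2), y) (by simp [hT, hyZ]) hzr')).2.symm
  obtain ⟨a, haK, haR, haO, ha⟩ := hR.lift _ hnumA
  obtain ⟨b, hbK, hbR, hbO, hb⟩ := hR.lift _ (BAD.Chart.chartAlg_pow_mem heA N)
  have hbi : ∀ i, D.red i b = e i ^ N := fun i => congrFun hb i
  have hbne : ∀ i, D.red i b ≠ 0 := fun i => by
    rw [hbi]
    exact pow_ne_zero _ (hene i)
  refine ⟨a / b, div_mem haK hbK, ?_, funext fun i => ?_, fun P hP => ?_⟩
  · rw [div_eq_mul_inv]
    exact mul_mem haO (D.inv_mem_O hbO hbne)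
  · rw [D.red2_apply, div_eq_mul_inv, D.red_mul (D.mem_of_mem_O haO i)
      (D.mem_of_mem_O (D.inv_mem_O hbO hbne) i), D.red_inv (D.mem_of_mem_O hbO i) (hbne i),
      hbi, ← D.red2_apply a, ha, mul_inv_cancel_right₀ (pow_ne_zero _ (hene i))]
  · have hd := (coordData_chart h).deg_one P
    have hbP := mem_place_of_mem_coordRing L u P hP.1.1 hbR
    obtain ⟨cb, hcb, hcb'⟩ := exists_chart_val hP hbR hbO
    rw [hbi, BAD.pv_pow (h.chartAlg_mem_place heA _ hz), hev z (fun _ _ => rfl), one_pow] at hcb'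
    obtain ⟨hb0, hbord⟩ := (pval_ne_zero_iff hd hbP).mp fun e' => one_ne_zero (α := k) (by
      rw [← hcb', show cb = 0 from Subtype.ext (hcb.symm.trans e'), map_zero])
    refine ord_nonneg_of_mem P ?_
    rw [div_eq_mul_inv]
    exact mul_mem (mem_place_of_mem_coordRing L u P hP.1.1 haR)
      (mem_of_ord_nonneg P (by rw [P.ord_inv, hbord, neg_zero]))

end Lift

section Move

variable [IsAlgClosed L] [FF.IsFunctionField L F] {R : RatField D}

/-- The invariant product over the divisor of `f` near `z`. -/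
theorem exists_move_of_simple (hu : u ∈ R.FK) {T : F} (hT : T ∈ R.FK)
    (hTreg : AllSpec h z fun P => 0 ≤ P.ord T)
    (hsimple : ∀ P, ChartSpec h P z → T - algebraMap L F (pval P T) ≠ 0 ∧
      P.ord (T - algebraMap L F (pval P T)) = 1 ∧
      ∀ Q, ChartSpec h Q z → Q ≠ P → Q.ord (T - algebraMap L F (pval P T)) = 0)
    {p : ℕ} {f : F} (hf : f ∈ R.FK) (hf0 : f ≠ 0)
    (hdiv : AllSpec h z fun P => (p : ℤ) ∣ P.ord f) :
    ∃ g ∈ R.FK, g ≠ 0 ∧ IsFreeAt h z (f * g ^ p) := by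
  classical
  have hPd : ∀ P : Place L F, P.deg = 1 := (coordData_chart h).deg_one
  obtain ⟨E, hE⟩ := exists_isDivisorOf (L := L) hf0
  set S := E.support.filter fun P => ChartSpec h P z with hS
  have hmemS : ∀ P, P ∈ S ↔ P.ord f ≠ 0 ∧ ChartSpec h P z := fun P => by
    simp [hS, hE P]
  set φ : Place L F → F := fun P =>
    (T - algebraMap L F (pval P T)) ^ (-(P.ord f / p)) with hφ
  have hφ0 : ∀ P ∈ S, φ P ≠ 0 := fun P hP =>
    zpow_ne_zero _ (hsimple P ((hmemS P).mp hP).2).1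
  have hg0 : ∏ P ∈ S, φ P ≠ 0 := Finset.prod_ne_zero_iff.mpr hφ0
  refine ⟨∏ P ∈ S, φ P, (R.mem_iff _).mpr fun τ hτ => ?_, hg0, ?_⟩
  · have hfτ : ∀ P : Place L F, (τ • P).ord f = P.ord f := fun P => by
      conv_lhs => rw [← RatField.smul_eq_self hτ hf, SemilinearAut.ord_smul]
    have hfτ' : ∀ P : Place L F, (τ⁻¹ • P).ord f = P.ord f := fun P => by
      rw [← hfτ, smul_inv_smul]
    rw [Finset.smul_prod']
    refine Finset.prod_nbij' (τ • ·) (τ⁻¹ • ·) (fun P hP => ?_) (fun P hP => ?_)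
      (fun P _ => inv_smul_smul τ P) (fun P _ => smul_inv_smul τ P) (fun P hP => ?_)
    · obtain ⟨h1, h2⟩ := (hmemS P).mp hP
      exact (hmemS _).mpr ⟨by rwa [hfτ], h2.smul hPd hu hτ⟩
    · obtain ⟨h1, h2⟩ := (hmemS P).mp hP
      exact (hmemS _).mpr ⟨by rwa [hfτ'], h2.smul hPd hu (R.gal.inv_mem hτ)⟩
    · have hTP := mem_of_ord_nonneg P (hTreg P ((hmemS P).mp hP).2)
      have hv : pval (τ • P) T = SemilinearAut.baseAut τ (pval P T) := by
        rw [← pval_smul_place τ (hPd P) hTP, RatField.smul_eq_self hτ hT]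
      simp only [hφ]
      have key : τ • (T - algebraMap L F (pval P T)) =
          T - algebraMap L F (SemilinearAut.baseAut τ (pval P T)) := by
        rw [smul_sub, RatField.smul_eq_self hτ hT, SemilinearAut.smul_algebraMap]
      rw [hv, hfτ, ← key]
      exact map_zpow₀ (SemilinearAut.toRingAut τ) _ _
  · refine ⟨mul_ne_zero hf0 (pow_ne_zero _ hg0), fun P hP => ?_⟩
    show P.ord (f * (∏ Q ∈ S, φ Q) ^ p) = 0
    rw [P.ord_mul hf0 (pow_ne_zero _ hg0), ord_pow' P hg0, ord_prod' P S φ hφ0]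
    have hterm : ∀ Q ∈ S, P.ord (φ Q) = if Q = P then -(P.ord f / p) else 0 := fun Q hQ => by
      obtain ⟨-, hone, hother⟩ := hsimple Q ((hmemS Q).mp hQ).2
      simp only [hφ]
      rw [P.ord_zpow]
      split_ifs with e
      · subst e
        rw [hone, mul_one]
      · rw [hother P hP (Ne.symm e), mul_zero]
    rw [Finset.sum_congr rfl hterm, Finset.sum_ite_eq']
    split_ifs with hPS
    · rw [mul_neg, Int.mul_ediv_cancel' (hdiv P hP), add_neg_cancel]
    · have : P.ord f = 0 := by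
        by_contra h'
        exact hPS ((hmemS P).mpr ⟨h', hP⟩)
      rw [this, mul_zero, add_zero]

end Move

end Fermat.Agent.LLp
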