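import Fermat.Agent.LLp.Local.Node
import Fermat.Agent.LLp.Local.Digit
import Fermat.Agent.LLp.Local.ResidualDefs
import Fermat.Agent.FF.Approximation
import Mathlib.FieldTheory.IsAlgClosed.Basic

/-!
# Change of the constants and other tools for the residual theorem
-/

set_option autoImplicit false

noncomputable section

open AlgebraicCurve Fermat.Agent.RED

namespace Fermat.Agent.LLp

variable {L k : Type*} [Field L] [Field k] {A : ValuationSubring L} {π : A →+* k}
  {F C : Type*} [Field F] [Algebra L F] [Field C] [Algebra k C] {D : BAD.BadBase π F C}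
  {u : F} {ubar : C} {d : ℕ} {h : BAD.Chart D u ubar d} {R₁ R : RatField D}

theorem RatField.RatChart.mono (hle : R₁.FK ≤ R.FK) (hR : R₁.RatChart h) : R.RatChart h :=
  ⟨hle hR.u_mem, fun q hq => by
    obtain ⟨a, ha, h'⟩ := hR.lift q hq
    exact ⟨a, hle ha, h'⟩⟩

/-- Values over a subfield of constants, seen in the larger one. -/
theorem RatField.HasOrd.transfer {e : ℕ} (hval : A.valuation R₁.ϖ = A.valuation R.ϖ ^ e)
    {i : Fin 2} {x : F} {n : ℤ} (hx : R₁.HasOrd i x n) :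
    R.HasOrd i x (e * n) ∧
      ∀ z : Place k C, z.ord (R.lred i x (e * n)) = z.ord (R₁.lred i x n) := by
  have hc : A.valuation (R₁.ϖ ^ n / R.ϖ ^ ((e : ℤ) * n)) = 1 := by
    rw [map_div₀, map_zpow₀, map_zpow₀, hval, zpow_mul, zpow_natCast,
      div_self (zpow_ne_zero _ (pow_ne_zero _ R.valuation_ϖ_pos.ne'))]
  have hmem : R₁.ϖ ^ n / R.ϖ ^ ((e : ℤ) * n) ∈ A := (A.valuation_le_one_iff _).mp hc.le
  have hu : IsUnit (⟨_, hmem⟩ : A) := (A.valuation_eq_one_iff _).mpr hc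
  have hπ : π ⟨_, hmem⟩ ≠ 0 := (hu.map π).ne_zero
  have he : (R.ϖ ^ ((e : ℤ) * n))⁻¹ • x =
      ((⟨_, hmem⟩ : A) : L) • ((R₁.ϖ ^ n)⁻¹ • x) := by
    rw [smul_smul]
    show _ = (R₁.ϖ ^ n / R.ϖ ^ ((e : ℤ) * n) * (R₁.ϖ ^ n)⁻¹) • x
    rw [div_mul_eq_mul_div, mul_inv_cancel₀ (R₁.zpow_ne n), one_div]
  have hl : R.lred i x (e * n) = algebraMap k C (π ⟨_, hmem⟩) * R₁.lred i x n := by
    rw [RatField.lred, he, D.red_smul hx.1, Algebra.smul_def]
    rfl
  refine ⟨⟨he ▸ D.smul_mem hx.1 _, ?_⟩, fun z => ?_⟩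
  · show R.lred i x (e * n) ≠ 0
    rw [hl]
    exact mul_ne_zero ((map_ne_zero _).mpr hπ) hx.2
  · rw [hl, z.ord_mul ((map_ne_zero _).mpr hπ) (show R₁.lred i x n ≠ 0 from hx.2), FF.ord_algebraMap, zero_add]

/-- Multiplication by a `p`-th power. -/
theorem RatField.HasOrd.mul_pow {i : Fin 2} {f g : F} {n m : ℤ} (hf : R.HasOrd i f n)
    (hg : R.HasOrd i g m) (p : ℕ) :
    R.HasOrd i (f * g ^ p) (n + p * m) ∧ ∀ z : Place k C,
      z.ord (R.lred i (f * g ^ p) (n + p * m)) =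
        z.ord (R.lred i f n) + p * z.ord (R.lred i g m) := by
  obtain ⟨h1, h2⟩ := hg.pow p
  obtain ⟨h3, h4⟩ := hf.mul h1
  refine ⟨h3, fun z => ?_⟩
  rw [h4, h2, z.ord_mul (show R.lred i f n ≠ 0 from hf.2)
    (pow_ne_zero _ (show R.lred i g m ≠ 0 from hg.2)), ← zpow_natCast, z.ord_zpow]

/-- A root of a unit of value zero and reduction one. -/
theorem RatField.HasOrd.root {p : ℕ} [Fact p.Prime] [CharP k p] {i : Fin 2} {b : F}
    (hb : b ∈ R.FK) (hb0 : b ≠ 0) (h : D.red i (b ^ p) = 1) (hV : b ^ p ∈ D.V i) :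
    b ∈ D.V i ∧ D.red i b = 1 := by
  have hp := (Fact.out : p.Prime)
  have : CharP C p := charP_of_injective_algebraMap (algebraMap k C).injective p
  obtain ⟨m, hm⟩ := R.exists_hasOrd (i := i) hb hb0
  have h0 : R.HasOrd i (b ^ p) 0 := hasOrd_zero_iff.mpr ⟨hV, by rw [h]; exact one_ne_zero⟩
  have hpm := (hm.pow p).1.unique h0
  rcases mul_eq_zero.mp hpm with hp0 | hm0
  · exact absurd (Int.natCast_eq_zero.mp hp0) hp.ne_zero
  subst hm0
  obtain ⟨hbV, -⟩ := hasOrd_zero_iff.mp hm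
  refine ⟨hbV, ?_⟩
  rw [D.red_pow hbV] at h
  exact frobenius_inj C p (by rw [frobenius_def, frobenius_def, h, one_pow])

variable (h) in
/-- Every point of a chart is smooth or lies on a crossing. -/
theorem smooth_or_crossing (i : Fin 2) {x : Place k C} (hx : ubar ∈ x.toValuationSubring) :
    IsSmoothPt h (i, x) ∨ (i = 0 ∧ ∃ y, IsCrossing h x y) ∨ (i = 1 ∧ ∃ w, IsCrossing h w x) := by
  by_cases hs : IsSmoothPt h (i, x)
  · exact Or.inl hs
  simp only [IsSmoothPt, hx, true_and, not_forall] at hs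
  obtain ⟨⟨j, y⟩, hy, hr, hne⟩ := hs
  fin_cases i <;> fin_cases j
  · obtain rfl : x = y := h.eq_of_rel_same hx hy hr
    exact absurd rfl hne
  · exact Or.inr (Or.inl ⟨rfl, y, hx, hy, hr⟩)
  · exact Or.inr (Or.inr ⟨rfl, y, hy, hx, hr.symm⟩)
  · obtain rfl : x = y := h.eq_of_rel_same hx hy hr
    exact absurd rfl hne

/-- A residual function regular at every place is constant. -/
theorem exists_eq_algebraMap [IsAlgClosed k] [FF.IsFunctionField k C] {c : C}
    (hc : ∀ x : Place k C, c ∈ x.toValuationSubring) : ∃ a : k, algebraMap k C a = c := by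
  have halg := FF.isAlgebraic_of_forall_ord_nonneg (K := k) (y := c)
    fun x => ord_nonneg_of_mem x (hc x)
  have hint : IsIntegral k c := halg.isIntegral
  have hdeg := IsAlgClosed.degree_eq_one_of_irreducible k (minpoly.irreducible hint)
  exact (minpoly.degree_eq_one_iff.mp hdeg)

end Fermat.Agent.LLp
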