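import Fermat.Agent.BAD.Core.NodeAlgebra
import Fermat.Agent.RED.PlaceReductionCount

/-!
# Specialisation of places on a two-branch chart
-/

set_option autoImplicit false

noncomputable section

open AlgebraicCurve Fermat.Agent.RED

namespace Fermat.Agent.LLp

variable {L k : Type*} [Field L] [Field k] {A : ValuationSubring L} {π : A →+* k}
  {F C : Type*} [Field F] [Algebra L F] [Field C] [Algebra k C] {D : BAD.BadBase π F C}
  {u : F} {ubar : C} {d : ℕ}

/-- `P` specialises to the point `z` of the two-branch chart. -/
def ChartSpec (h : BAD.Chart D u ubar d) (P : Place L F) (z : Fin 2 × Place k C) : Prop :=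
  IsIntegralPlace A u P ∧ ubar ∈ z.2.toValuationSubring ∧
    ∀ a ∈ coordRing L u, a ∈ D.O → ∀ c : A, pval P a = (c : L) →
      BAD.Chart.ev h.coord.deg_one z (D.red2 a) = π c

/-- Every place specialising to `z` satisfies `R`. -/
def AllSpec (h : BAD.Chart D u ubar d) (z : Fin 2 × Place k C) (R : Place L F → Prop) : Prop :=
  ∀ P, ChartSpec h P z → R P

open Classical in
/-- The sum of a divisor over the places specialising to `z`. -/
def specSum (h : BAD.Chart D u ubar d) (z : Fin 2 × Place k C) : Divisor L F →+ ℤ :=
  sumOver (ChartSpec h · z)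

end Fermat.Agent.LLp
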