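import Fermat.Agent.LLp.Local.SpecPoint

/-!
# Orders at the classes of points of a two-branch chart

The orders of a function at the places specialising to a class of glued points add up to the
orders of its two reductions at the points of the class.
-/

set_option autoImplicit false

noncomputable section

open AlgebraicCurve IntermediateField Polynomial Fermat.Agent.RED

namespace Fermat.Agent.LLp

variable {L k : Type*} [Field L] [Field k] {A : ValuationSubring L} {π : A →+* k}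
  {F C : Type*} [Field F] [Algebra L F] [Field C] [Algebra k C] {D : BAD.BadBase π F C}
  {u : F} {ubar : C} {d : ℕ}

section Vanishing

variable {K E : Type*} [Field K] [Field E] [Algebra K E] {x : Place K E}

theorem vanish_sum {ι : Type*} (s : Finset ι) {r : ℕ} {f : ι → E}
    (hf : ∀ i ∈ s, BAD.Vanish x r (f i)) : BAD.Vanish x r (∑ i ∈ s, f i) := by
  classical
  induction s using Finset.induction_on with
  | empty => exact BAD.vanish_iff.mpr (Or.inl Finset.sum_empty)
  | insert a s ha ih =>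
    rw [Finset.sum_insert ha]
    exact (hf a (Finset.mem_insert_self _ _)).add
      (ih fun i hi => hf i (Finset.mem_insert_of_mem hi))

/-- Combinations of functions with distinct small orders do not vanish to high order. -/
theorem eq_zero_of_vanish_sum {ι : Type*} [Fintype ι] (a : ι → E) (e : ι → ℕ)
    (ha : ∀ j, a j ≠ 0) (hae : ∀ j, x.ord (a j) = e j) (hinj : Function.Injective e)
    {r : ℕ} (her : ∀ j, e j < r) {c : ι → K} (hc : BAD.Vanish x r (∑ j, c j • a j)) : c = 0 := by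
  classical
  by_contra hne
  obtain ⟨j₁, hj₁⟩ := Function.ne_iff.mp hne
  obtain ⟨j₀, hj₀, hmin⟩ := Finset.exists_min_image (Finset.univ.filter fun j => c j ≠ 0) e
    ⟨j₁, by simpa using hj₁⟩
  have hc0 : c j₀ ≠ 0 := (Finset.mem_filter.mp hj₀).2
  have hrest : BAD.Vanish x (e j₀ + 1) (∑ j ∈ Finset.univ.erase j₀, c j • a j) := by
    refine vanish_sum _ fun j hj => ?_
    rcases eq_or_ne (c j) 0 with h0 | h0
    · exact BAD.vanish_iff.mpr (Or.inl (by simp [h0]))
    · have hle := hmin j (by simp [h0])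
      have hne' : e j₀ ≠ e j := fun h' => (Finset.mem_erase.mp hj).1 (hinj h').symm
      exact ((BAD.vanish_iff.mpr (Or.inr (hae j).ge)).smul (c j)).mono (by omega)
  have hmain : BAD.Vanish x (e j₀ + 1) (c j₀ • a j₀) := by
    have h1 := (hc.mono (show e j₀ + 1 ≤ r from her j₀)).sub hrest
    rwa [← Finset.add_sum_erase _ _ (Finset.mem_univ j₀), add_sub_cancel_right] at h1
  have h2 := hmain.smul (c j₀)⁻¹
  rw [smul_smul, inv_mul_cancel₀ hc0, one_smul] at h2
  rcases BAD.vanish_iff.mp h2 with h0 | h0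
  · exact ha j₀ h0
  · rw [hae j₀] at h0
    omega

/-- Vanishing of the numerator of a quotient. -/
theorem vanish_num {hd : x.deg = 1} {s U g : E} {r : ℕ} (hU : U ∈ x.toValuationSubring)
    (hU0 : BAD.pv x hd U ≠ 0) (hg : g ≠ 0) (hgx : g ∈ x.toValuationSubring)
    (hW : BAD.Vanish x r (s * U / g)) : BAD.Vanish x (r + (x.ord g).toNat) s := by
  rw [ne_eq, BAD.pv_eq_zero_iff hU, not_or] at hU0
  have h0 := ord_nonneg_of_mem x hU
  have h1 := ord_nonneg_of_mem x hgx
  have hUi : BAD.Vanish x 0 U⁻¹ :=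
    BAD.vanish_zero_iff.mpr (mem_of_ord_nonneg x (by rw [x.ord_inv]; omega))
  have hgv : BAD.Vanish x (x.ord g).toNat g := BAD.vanish_iff.mpr (Or.inr (by omega))
  have h3 := (hW.mul hgv).mul hUi
  rwa [div_mul_cancel₀ _ hg, mul_inv_cancel_right₀ hU0.1, add_zero] at h3

end Vanishing

variable (h : BAD.Chart D u ubar d)

include h

theorem rel_refl (z : Fin 2 × Place k C) : h.Rel z z := fun _ _ => rfl

/-- The points of the finite part glued to `z`. -/
def clsSet (z : Fin 2 × Place k C) : Set (Fin 2 × Place k C) :=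
  {w | ubar ∈ w.2.toValuationSubring ∧ h.Rel z w}

theorem eq_of_mem_clsSet {z v w : Fin 2 × Place k C} (hv : v ∈ clsSet h z) (hw : w ∈ clsSet h z)
    (hvw : v.1 = w.1) : v = w := by
  obtain ⟨i, x⟩ := v
  obtain ⟨j, y⟩ := w
  simp only at hvw
  subst hvw
  obtain rfl : x = y := h.eq_of_rel_same hv.1 hw.1 (hv.2.symm.trans h hw.2)
  rfl

theorem clsSet_finite (z : Fin 2 × Place k C) : (clsSet h z).Finite :=
  Set.Finite.of_finite_image (f := Prod.fst) (Set.toFinite _)
    fun _ hv _ hw => eq_of_mem_clsSet h hv hw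

/-- The points glued to `z`, as a finite set. -/
def cls (z : Fin 2 × Place k C) : Finset (Fin 2 × Place k C) := (clsSet_finite h z).toFinset

theorem mem_cls {z w : Fin 2 × Place k C} :
    w ∈ cls h z ↔ ubar ∈ w.2.toValuationSubring ∧ h.Rel z w :=
  (clsSet_finite h z).mem_toFinset

theorem cls_eq_of_rel {z w : Fin 2 × Place k C} (hr : h.Rel z w) : cls h w = cls h z := by
  ext v
  simp only [mem_cls]
  exact ⟨fun hv => ⟨hv.1, hr.trans h hv.2⟩, fun hv => ⟨hv.1, hr.symm.trans h hv.2⟩⟩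

/-- The total order of a pair of functions on a class. -/
def classOrd (z : Fin 2 × Place k C) (g : Fin 2 → C) : ℤ :=
  ∑ v ∈ cls h z, v.2.ord (g v.1)

open Classical in
theorem cls_cases {z : Fin 2 × Place k C} (hz : ubar ∈ z.2.toValuationSubring) :
    cls h z = {z} ∨ ∃ x y : Place k C, ubar ∈ x.toValuationSubring ∧
      ubar ∈ y.toValuationSubring ∧ h.Rel z ((0 : Fin 2), x) ∧
      h.Rel ((0 : Fin 2), x) ((1 : Fin 2), y) ∧
      cls h z = {((0 : Fin 2), x), ((1 : Fin 2), y)} := by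
  classical
  by_cases hall : ∀ v ∈ cls h z, v = z
  · exact Or.inl (Finset.eq_singleton_iff_unique_mem.mpr
      ⟨(mem_cls h).mpr ⟨hz, rel_refl h z⟩, hall⟩)
  push Not at hall
  obtain ⟨v, hv, hvz⟩ := hall
  have hzc : z ∈ cls h z := (mem_cls h).mpr ⟨hz, rel_refl h z⟩
  have inj : ∀ a ∈ cls h z, ∀ b ∈ cls h z, a.1 = b.1 → a = b := fun a ha b hb =>
    eq_of_mem_clsSet h ((mem_cls h).mp ha) ((mem_cls h).mp hb)
  have hv1 : v.1 ≠ z.1 := fun e => hvz (inj v hv z hzc e)
  obtain ⟨a, ha, ha0, b, hb, hb1⟩ :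
      ∃ a ∈ cls h z, a.1 = 0 ∧ ∃ b ∈ cls h z, b.1 = 1 := by
    rcases (by omega : z.1 = 0 ∧ v.1 = 1 ∨ z.1 = 1 ∧ v.1 = 0) with ⟨e, e'⟩ | ⟨e, e'⟩
    · exact ⟨z, hzc, e, v, hv, e'⟩
    · exact ⟨v, hv, e', z, hzc, e⟩
  obtain ⟨i, x⟩ := a
  obtain ⟨j, y⟩ := b
  simp only at ha0 hb1
  subst ha0 hb1
  obtain ⟨hx, hzx⟩ := (mem_cls h).mp ha
  obtain ⟨hy, hzy⟩ := (mem_cls h).mp hb
  refine Or.inr ⟨x, y, hx, hy, hzx, hzx.symm.trans h hzy, ?_⟩
  ext w
  simp only [Finset.mem_insert, Finset.mem_singleton]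
  refine ⟨fun hw => ?_, fun hw => by rcases hw with rfl | rfl <;> assumption⟩
  rcases (by omega : w.1 = 0 ∨ w.1 = 1) with e | e
  · exact Or.inl (inj w hw _ ha e)
  · exact Or.inr (inj w hw _ hb e)

theorem classOrd_mul (z : Fin 2 × Place k C) {g g' : Fin 2 → C} (hg : ∀ i, g i ≠ 0)
    (hg' : ∀ i, g' i ≠ 0) : classOrd h z (g * g') = classOrd h z g + classOrd h z g' := by
  simp only [classOrd, Pi.mul_apply, ← Finset.sum_add_distrib]
  exact Finset.sum_congr rfl fun v _ => v.2.ord_mul (hg _) (hg' _)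

/-- An element of one branch, zero on the other, with prescribed positive order at a point. -/
theorem exists_single_ord (i : Fin 2) {x : Place k C} (hx : ubar ∈ x.toValuationSubring) {r : ℕ}
    (hr : 1 ≤ r) :
    ∃ p : C, p ≠ 0 ∧ x.ord p = r ∧ Pi.single i p ∈ BAD.Chart.chartAlg D u := by
  classical
  obtain ⟨ε, hε, hεR, hδ⟩ := h.exists_delta
  set Z := (h.finite_zeros hε hεR).toFinset with hZ
  have hZmem : ∀ v ∈ Z, ubar ∈ v.toValuationSubring := fun v hv => by
    simp only [hZ, Set.Finite.mem_toFinset, Set.mem_ofPred_eq] at hv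
    exact hv.1
  have hsep : ∀ T ⊆ Z.erase x, ∃ s ∈ coordRing k ubar, s ≠ 0 ∧ x.ord s = 0 ∧
      ∀ v ∈ T, BAD.pv v (h.coord.deg_one v) s = 0 := by
    intro T
    induction T using Finset.induction_on with
    | empty => exact fun _ => ⟨1, one_mem _, one_ne_zero, x.ord_one, by simp⟩
    | insert w T _ ih =>
      intro hsub
      obtain ⟨hw, hT⟩ := Finset.insert_subset_iff.mp hsub
      obtain ⟨s, hs, hs0, hsx, hsT⟩ := ih hT
      obtain ⟨hwx, hwZ⟩ := Finset.mem_erase.mp hw
      obtain ⟨t, ht, ht0, htw, htx⟩ := h.coord.separate w x (hZmem w hwZ) hx hwx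
      refine ⟨s * t, mul_mem hs ht, mul_ne_zero hs0 ht0, by rw [x.ord_mul hs0 ht0]; omega,
        fun v hv => ?_⟩
      have hvm : ubar ∈ v.toValuationSubring := hZmem v (Finset.mem_of_mem_erase (hsub hv))
      rw [BAD.pv_mul (mem_place_of_mem_coordRing _ _ v hvm hs)
        (mem_place_of_mem_coordRing _ _ v hvm ht)]
      rcases Finset.mem_insert.mp hv with rfl | hv'
      · rw [(BAD.pv_eq_zero_iff (mem_place_of_mem_coordRing _ _ v hvm ht)).mpr (Or.inr htw),
          mul_zero]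
      · rw [hsT v hv', zero_mul]
  obtain ⟨s, hs, hs0, hsx, hsZ⟩ := hsep _ subset_rfl
  obtain ⟨t, ht, ht1⟩ := h.coord.exists_ord_one x hx
  have ht0 : t ≠ 0 := fun e => by simp [e] at ht1
  set p := t ^ r * s with hp
  have hpR : p ∈ coordRing k ubar := mul_mem (pow_mem ht r) hs
  have hpZ : ∀ v ∈ Z, BAD.pv v (h.coord.deg_one v) p = 0 := fun v hv => by
    rw [hp, BAD.pv_mul (pow_mem (mem_place_of_mem_coordRing _ _ v (hZmem v hv) ht) r)
      (mem_place_of_mem_coordRing _ _ v (hZmem v hv) hs)]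
    rcases eq_or_ne v x with rfl | hne
    · rw [BAD.pv_pow (mem_place_of_mem_coordRing _ _ v hx ht),
        (BAD.pv_eq_zero_iff (mem_place_of_mem_coordRing _ _ v hx ht)).mpr (Or.inr (by omega)),
        zero_pow (by omega), zero_mul]
    · rw [hsZ v (Finset.mem_erase.mpr ⟨hne, hv⟩), mul_zero]
  refine ⟨p, mul_ne_zero (pow_ne_zero _ ht0) hs0, ?_, h.mem_chartAlg_iff.mpr ⟨fun j => ?_, ?_⟩⟩
  · rw [hp, x.ord_mul (pow_ne_zero _ ht0) hs0, ord_pow' x ht0, ht1, hsx]
    ring
  · rw [Pi.single_apply]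
    split
    · exact hpR
    · exact zero_mem _
  · intro a b ha hb hab
    have h0 := hab _ (hδ 0)
    have h1 := hab _ (hδ 1)
    simp only [BAD.Chart.ev, Pi.single_apply] at h0 h1
    simp only [Fin.reduceEq, if_true, if_false, BAD.pv_zero] at h0 h1
    have haZ : a ∈ Z := by simp [hZ, ha, h0]
    have hbZ : b ∈ Z := by simp [hZ, hb, ← h1]
    fin_cases i <;> simp [BAD.pv_zero, hpZ a haZ, hpZ b hbZ]

variable [IsAlgClosed L] [FF.IsFunctionField L F]

omit [IsAlgClosed L] [FF.IsFunctionField L F] in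
theorem specSum_eq_of_rel {z w : Fin 2 × Place k C} (hz : ubar ∈ z.2.toValuationSubring)
    (hw : ubar ∈ w.2.toValuationSubring) (hr : h.Rel z w) (E : Divisor L F) :
    specSum h z E = specSum h w E :=
  sumOver_congr fun _ _ => ⟨fun hP => ChartSpec.of_rel h hP hr hw,
    fun hP => ChartSpec.of_rel h hP hr.symm hz⟩

/-- A family of reduced chart functions none of whose combinations is divisible by the reduction
bounds the orders over `z` from below. -/
theorem le_specSum_of_family {y : F} (hy : y ∈ coordRing L u) (hyO : y ∈ D.O)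
    (h0 : ∀ i, D.red i y ≠ 0) {E : Divisor L F} (hE : IsDivisorOf E y)
    {z : Fin 2 × Place k C} (hz : ubar ∈ z.2.toValuationSubring) {ι : Type*} [Fintype ι]
    (v : ι → Fin 2 → C) (hv : ∀ j, v j ∈ BAD.Chart.chartAlg D u)
    (hbad : ∀ c : ι → k, c ≠ 0 → ∀ U ∈ BAD.Chart.chartAlg D u,
      BAD.Chart.ev h.coord.deg_one z U ≠ 0 →
      (fun i => (∑ j, c j • v j i) * U i / D.red i y) ∉ BAD.Chart.chartAlg D u) :
    (Fintype.card ι : ℤ) ≤ specSum h z E := by
  classical
  by_contra hlt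
  rw [not_le, specSum, sumOver_apply] at hlt
  set S := E.support.filter (fun P => ChartSpec h P z) with hS
  have hy0 : y ≠ 0 := fun e => h0 0 (by simp [e])
  have hnn : ∀ P ∈ S, 0 ≤ E P := fun P hP => by
    rw [hE P]
    exact ord_nonneg_of_mem P
      (mem_place_of_mem_coordRing L u P (Finset.mem_filter.mp hP).2.1.1 hy)
  choose w hwR hwO hwv using fun j => BAD.Chart.mem_chartAlg.mp (hv j)
  let φ : (ι → L) →ₗ[L] F := Fintype.linearCombination L w
  have hφ : ∀ a, φ a = ∑ j, a j • w j := fun a => Fintype.linearCombination_apply L w a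
  have hφR : ∀ a, φ a ∈ coordRing L u := fun a => by
    rw [hφ]
    exact sum_mem fun j _ => (coordRing L u).smul_mem (hwR j) _
  have hsum : ∑ P ∈ S, (E P).toNat < Module.finrank L (ι → L) := by
    rw [Module.finrank_fintype_fun_eq_card, ← Int.ofNat_lt, Nat.cast_sum]
    exact (Finset.sum_congr rfl fun P hP => Int.toNat_of_nonneg (hnn P hP)).trans_lt hlt
  obtain ⟨a, ha0, hav⟩ := exists_vanishing φ S (fun P _ => (coordData_chart h).deg_one P)
    (fun P hP t => mem_place_of_mem_coordRing L u P (Finset.mem_filter.mp hP).2.1.1 (hφR t))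
    (fun P => (E P).toNat) hsum
  obtain ⟨i₁, hi₁⟩ := Function.ne_iff.mp ha0
  obtain ⟨i₀, -, hi₀⟩ := Finset.exists_max_image Finset.univ (fun i => A.valuation (a i))
    ⟨i₁, Finset.mem_univ _⟩
  have hai₀ : a i₀ ≠ 0 := by
    intro h'
    have := hi₀ i₁ (Finset.mem_univ _)
    rw [h', map_zero, le_zero_iff, map_eq_zero] at this
    exact hi₁ this
  set b : ι → L := (a i₀)⁻¹ • a with hb
  have hbA : ∀ i, b i ∈ A := fun i => by
    rw [← A.valuation_le_one_iff, hb, Pi.smul_apply, smul_eq_mul, map_mul, map_inv₀,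
      inv_mul_le_one₀ (zero_lt_iff.mpr ((A.valuation).ne_zero_iff.mpr hai₀))]
    exact hi₀ i (Finset.mem_univ _)
  set c : ι → k := fun i => π ⟨b i, hbA i⟩ with hc
  have hc0 : c ≠ 0 := by
    refine Function.ne_iff.mpr ⟨i₀, ?_⟩
    have h1 : (⟨b i₀, hbA i₀⟩ : A) = 1 := Subtype.ext (by simp [hb, inv_mul_cancel₀ hai₀])
    simp [hc, h1]
  have hbO : φ b ∈ D.O := by
    rw [hφ]
    exact sum_mem fun j _ => D.smul_mem_O (hwO j) (hbA j)
  have hred : D.red2 (φ b) = fun i => ∑ j, c j • v j i := by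
    rw [hφ, D.red2_sum Finset.univ (fun j => ⟨b j, hbA j⟩) w fun j _ => hwO j]
    funext i
    rw [Finset.sum_apply]
    exact Finset.sum_congr rfl fun j _ => by rw [Pi.smul_apply, hwv j]
  set T := E.support.filter (fun P => u ∈ P.toValuationSubring ∧ ¬ ChartSpec h P z) with hT
  obtain ⟨U, hUR, hUO, hUz, hU0, hUT⟩ := exists_avoiding_prod h T (fun P => (E P).toNat) hz
    fun P hP => (Finset.mem_filter.mp hP).2
  have hinv := D.inv_mem_O hyO h0
  have hxR : φ b * U * y⁻¹ ∈ coordRing L u := by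
    refine (coordData_chart h).mem_coordRing_of_forall _ fun P hP => mem_of_ord_nonneg P ?_
    rcases eq_or_ne (φ b) 0 with e | hw0
    · simp [e]
    rw [P.ord_mul (mul_ne_zero hw0 hU0) (inv_ne_zero hy0), P.ord_mul hw0 hU0, P.ord_inv, ← hE P]
    have hw' : 0 ≤ P.ord (φ b) := ord_nonneg_of_mem P
      (mem_place_of_mem_coordRing L u P hP (hφR b))
    have hU' : 0 ≤ P.ord U := ord_nonneg_of_mem P (mem_place_of_mem_coordRing L u P hP hUR)
    by_cases hsupp : P ∈ E.support
    swap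
    · rw [Finsupp.notMem_support_iff.mp hsupp]; omega
    have hle := Int.self_le_toNat (E P)
    by_cases hPz : ChartSpec h P z
    · have hPS : P ∈ S := Finset.mem_filter.mpr ⟨hsupp, hPz⟩
      have hbeq : φ b = algebraMap L F (a i₀)⁻¹ * φ a := by
        rw [hb, map_smul, Algebra.smul_def]
      have hab : φ a ≠ 0 := fun e => hw0 (by rw [hbeq, e, mul_zero])
      have h1 : ((E P).toNat : ℤ) ≤ P.ord (φ a) := (hav P hPS).resolve_left hab
      have h2 : P.ord (φ b) = P.ord (φ a) := by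
        rw [hbeq, P.ord_mul (by simpa using hai₀) hab, ord_algebraMap', zero_add]
      omega
    · have h1 : ((E P).toNat : ℤ) ≤ P.ord U := hUT P (Finset.mem_filter.mpr ⟨hsupp, hP, hPz⟩)
      omega
  have hxO : φ b * U * y⁻¹ ∈ D.O := mul_mem (mul_mem hbO hUO) hinv
  refine hbad c hc0 (D.red2 U) (BAD.Chart.mem_chartAlg.mpr ⟨U, hUR, hUO, rfl⟩) hUz
    (BAD.Chart.mem_chartAlg.mpr ⟨_, hxR, hxO, funext fun i => ?_⟩)
  rw [D.red2_apply, D.red_mul (mul_mem (D.mem_of_mem_O hbO i) (D.mem_of_mem_O hUO i))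
    (D.mem_of_mem_O hinv i), D.red_mul (D.mem_of_mem_O hbO i) (D.mem_of_mem_O hUO i),
    D.red_inv (D.mem_of_mem_O hyO i) (h0 i), D.red2_apply, ← div_eq_mul_inv,
    show D.red i (φ b) = ∑ j, c j • v j i from congrFun hred i]

/-- The inequality at one point. -/
theorem ord_le_specSum {y : F} (hy : y ∈ coordRing L u) (hyO : y ∈ D.O)
    (h0 : ∀ i, D.red i y ≠ 0) {E : Divisor L F} (hE : IsDivisorOf E y)
    {z : Fin 2 × Place k C} (hz : ubar ∈ z.2.toValuationSubring) :
    z.2.ord (D.red z.1 y) ≤ specSum h z E := by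
  obtain ⟨t, ht, ht1⟩ := h.coord.exists_ord_one z.2 hz
  have ht0 : t ≠ 0 := fun e => by simp [e] at ht1
  have hgx := red_mem_place_of_chart h hy hyO z.1 hz
  have ho := ord_nonneg_of_mem z.2 hgx
  set o := (z.2.ord (D.red z.1 y)).toNat with ho'
  choose v hv hvi _ using fun j : Fin o => h.exists_pull z.1 (pow_mem ht (j : ℕ))
  have := le_specSum_of_family h hy hyO h0 hE hz v hv fun c hc U hU hUz hmem => hc ?_
  · rw [Fintype.card_fin] at this
    omega
  have hW : BAD.Vanish z.2 0 ((∑ j, c j • v j z.1) * U z.1 / D.red z.1 y) :=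
    BAD.vanish_zero_iff.mpr (h.chartAlg_mem_place hmem z.1 hz)
  have hs := vanish_num (hd := h.coord.deg_one z.2) (h.chartAlg_mem_place hU z.1 hz) hUz (h0 _)
    hgx hW
  rw [zero_add] at hs
  simp only [hvi] at hs
  exact eq_zero_of_vanish_sum (fun j : Fin o => t ^ (j : ℕ)) (fun j => (j : ℕ))
    (fun j => pow_ne_zero _ ht0) (fun j => by rw [ord_pow' z.2 ht0, ht1, mul_one])
    Fin.val_injective (fun j => j.2) hs

/-- The inequality at a crossing point. -/
theorem add_ord_le_specSum {g : F} (hg : g ∈ coordRing L u) (hgO : g ∈ D.O)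
    (h0 : ∀ i, D.red i g ≠ 0) {E : Divisor L F} (hE : IsDivisorOf E g) {x y : Place k C}
    (hx : ubar ∈ x.toValuationSubring) (hy : ubar ∈ y.toValuationSubring)
    (hr : h.Rel ((0 : Fin 2), x) ((1 : Fin 2), y)) :
    x.ord (D.red 0 g) + y.ord (D.red 1 g) ≤ specSum h ((0 : Fin 2), x) E := by
  classical
  have hx0 := ord_le_specSum h hg hgO h0 hE (z := ((0 : Fin 2), x)) hx
  have hy0 := ord_le_specSum h hg hgO h0 hE (z := ((1 : Fin 2), y)) hy
  rw [← specSum_eq_of_rel h (z := ((0 : Fin 2), x)) (w := ((1 : Fin 2), y)) hx hy hr] at hy0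
  simp only at hx0 hy0
  have hgx := red_mem_place_of_chart h hg hgO 0 hx
  have hgy := red_mem_place_of_chart h hg hgO 1 hy
  have hnx := ord_nonneg_of_mem x hgx
  have hny := ord_nonneg_of_mem y hgy
  rcases eq_or_ne (x.ord (D.red 0 g)) 0 with ex | ex
  · omega
  rcases eq_or_ne (y.ord (D.red 1 g)) 0 with ey | ey
  · omega
  set o₀ := (x.ord (D.red 0 g)).toNat with ho₀
  set o₁ := (y.ord (D.red 1 g)).toNat with ho₁
  choose pa hpa0 hpao hpaU using fun j : Fin o₀ =>
    exists_single_ord h 0 hx (r := (j : ℕ) + 1) (by omega)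
  choose pb hpb0 hpbo hpbU using fun j : Fin (o₁ - 1) =>
    exists_single_ord h 1 hy (r := (j : ℕ) + 1) (by omega)
  let v : Unit ⊕ (Fin o₀ ⊕ Fin (o₁ - 1)) → Fin 2 → C :=
    Sum.elim (fun _ => 1) (Sum.elim (fun j => Pi.single 0 (pa j)) (fun j => Pi.single 1 (pb j)))
  have hv : ∀ j, v j ∈ BAD.Chart.chartAlg D u := by
    rintro (_ | j | j)
    · exact BAD.Chart.one_mem_chartAlg
    · exact hpaU j
    · exact hpbU j
  have := le_specSum_of_family h hg hgO h0 hE (z := ((0 : Fin 2), x)) hx v hv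
    fun c hc U hU hUz hmem => hc ?_
  · rw [Fintype.card_sum, Fintype.card_sum, Fintype.card_unit, Fintype.card_fin,
      Fintype.card_fin] at this
    omega
  set c₀ := c (Sum.inl ()) with hc₀
  set ca : Fin o₀ → k := fun j => c (Sum.inr (Sum.inl j)) with hca
  set cb : Fin (o₁ - 1) → k := fun j => c (Sum.inr (Sum.inr j)) with hcb
  have hs0 : ∑ j, c j • v j 0 = c₀ • (1 : C) + ∑ j, ca j • pa j := by
    simp [Fintype.sum_sum_type, v, hc₀, hca]
  have hs1 : ∑ j, c j • v j 1 = c₀ • (1 : C) + ∑ j, cb j • pb j := by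
    simp [Fintype.sum_sum_type, v, hc₀, hcb]
  have hUy : BAD.pv y (h.coord.deg_one y) (U 1) ≠ 0 := by
    have := hr U hU
    simp only [BAD.Chart.ev] at this hUz
    rwa [← this]
  have hW0 := h.chartAlg_mem_place hmem 0 hx
  have hW1 := h.chartAlg_mem_place hmem 1 hy
  have hagree := hr _ hmem
  simp only [BAD.Chart.ev] at hagree
  -- the constant coefficient vanishes
  have hv0 := vanish_num (hd := h.coord.deg_one x) (h.chartAlg_mem_place hU 0 hx) hUz (h0 0) hgx
    (BAD.vanish_zero_iff.mpr hW0)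
  have hv1 := vanish_num (hd := h.coord.deg_one y) (h.chartAlg_mem_place hU 1 hy) hUy (h0 1) hgy
    (BAD.vanish_zero_iff.mpr hW1)
  rw [zero_add, hs0] at hv0
  rw [zero_add, hs1] at hv1
  have hc₀z : c₀ = 0 := by
    have hA : BAD.Vanish x 1 (∑ j, ca j • pa j) := vanish_sum _ fun j _ =>
      ((BAD.vanish_iff.mpr (Or.inr (hpao j).ge)).smul (ca j)).mono (by omega)
    have h1 := (hv0.mono (show 1 ≤ o₀ by omega)).sub hA
    rw [add_sub_cancel_right] at h1
    have h2 := ((BAD.vanish_one_iff (hd := h.coord.deg_one x)).mp h1).2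
    rwa [BAD.pv_smul (one_mem _), BAD.pv_one, mul_one] at h2
  rw [hc₀z, zero_smul, zero_add] at hv0 hv1 hs0 hs1
  have hcb0 : cb = 0 := eq_zero_of_vanish_sum pb (fun j => (j : ℕ) + 1) hpb0 hpbo
    (fun a b e => Fin.ext (by simpa using e)) (r := o₁) (fun j => by have := j.2; omega) hv1
  have hW1z : (∑ j, c j • v j 1) * U 1 / D.red 1 g = 0 := by
    rw [hs1, hcb0]
    simp
  rw [hW1z, BAD.pv_zero] at hagree
  have hv0' := vanish_num (hd := h.coord.deg_one x) (h.chartAlg_mem_place hU 0 hx) hUz (h0 0)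
    hgx ((BAD.vanish_one_iff (hd := h.coord.deg_one x)).mpr ⟨hW0, hagree⟩)
  rw [hs0] at hv0'
  have hca0 : ca = 0 := eq_zero_of_vanish_sum pa (fun j => (j : ℕ) + 1) hpa0 hpao
    (fun a b e => Fin.ext (by simpa using e)) (r := 1 + o₀) (fun j => by have := j.2; omega) hv0'
  funext j
  rcases j with j | j | j
  · exact hc₀z
  · exact congrFun hca0 j
  · exact congrFun hcb0 j

/-- The inequality on a class. -/
theorem classOrd_le_specSum {y : F} (hy : y ∈ coordRing L u) (hyO : y ∈ D.O)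
    (h0 : ∀ i, D.red i y ≠ 0) {E : Divisor L F} (hE : IsDivisorOf E y)
    {z : Fin 2 × Place k C} (hz : ubar ∈ z.2.toValuationSubring) :
    classOrd h z (D.red2 y) ≤ specSum h z E := by
  classical
  rcases cls_cases h hz with e | ⟨a, b, ha, hb, hza, hab, e⟩
  · rw [classOrd, e, Finset.sum_singleton, D.red2_apply]
    exact ord_le_specSum h hy hyO h0 hE hz
  · rw [classOrd, e, Finset.sum_pair (by simp), D.red2_apply, D.red2_apply,
      specSum_eq_of_rel h hz (w := ((0 : Fin 2), a)) ha hza]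
    exact add_ord_le_specSum h hy hyO h0 hE ha hb hab

end Fermat.Agent.LLp
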