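import Fermat.Agent.LLp.Local.SpecBase
import Fermat.Agent.RED.PlaceReductionOrder

/-!
# Points to which places specialise, avoiding functions
-/

set_option autoImplicit false

noncomputable section

open AlgebraicCurve IntermediateField Polynomial Fermat.Agent.RED

namespace Fermat.Agent.LLp

variable {L k : Type*} [Field L] [Field k] {A : ValuationSubring L} {π : A →+* k}
  {F C : Type*} [Field F] [Algebra L F] [Field C] [Algebra k C] {D : BAD.BadBase π F C}
  {u : F} {ubar : C} {d : ℕ} (h : BAD.Chart D u ubar d)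

include h

theorem ev_red_mul {z : Fin 2 × Place k C} (hz : ubar ∈ z.2.toValuationSubring) {a b : F}
    (ha : a ∈ coordRing L u) (haO : a ∈ D.O) (hb : b ∈ coordRing L u) (hbO : b ∈ D.O) :
    BAD.Chart.ev h.coord.deg_one z (D.red2 (a * b)) =
      BAD.Chart.ev h.coord.deg_one z (D.red2 a) * BAD.Chart.ev h.coord.deg_one z (D.red2 b) := by
  simp only [BAD.Chart.ev, BAD.TwoBranch.red2_apply]
  rw [D.red_mul (D.mem_of_mem_O haO _) (D.mem_of_mem_O hbO _),
    BAD.pv_mul (red_mem_place_of_chart h ha haO _ hz) (red_mem_place_of_chart h hb hbO _ hz)]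

theorem ev_red_sub {z : Fin 2 × Place k C} (hz : ubar ∈ z.2.toValuationSubring) {a b : F}
    (ha : a ∈ coordRing L u) (haO : a ∈ D.O) (hb : b ∈ coordRing L u) (hbO : b ∈ D.O) :
    BAD.Chart.ev h.coord.deg_one z (D.red2 (a - b)) =
      BAD.Chart.ev h.coord.deg_one z (D.red2 a) - BAD.Chart.ev h.coord.deg_one z (D.red2 b) := by
  simp only [BAD.Chart.ev, BAD.TwoBranch.red2_apply]
  rw [D.red_sub (D.mem_of_mem_O haO _) (D.mem_of_mem_O hbO _),
    BAD.pv_sub (red_mem_place_of_chart h ha haO _ hz) (red_mem_place_of_chart h hb hbO _ hz)]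

theorem ev_red_algebraMap (z : Fin 2 × Place k C) (c : A) :
    BAD.Chart.ev h.coord.deg_one z (D.red2 (algebraMap L F c)) = π c := by
  simp only [BAD.Chart.ev, BAD.TwoBranch.red2_apply]
  rw [D.red_algebraMap, BAD.pv_algebraMap]

theorem ev_red_one (z : Fin 2 × Place k C) :
    BAD.Chart.ev h.coord.deg_one z (D.red2 1) = 1 := by
  simp only [BAD.Chart.ev, BAD.TwoBranch.red2_apply]
  rw [D.red_one, BAD.pv_one]

omit h in
theorem algebraMap_mem_O (c : A) : algebraMap L F c ∈ D.O :=
  D.mem_O.mpr fun i => D.algebraMap_mem i c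

variable [IsAlgClosed L] [FF.IsFunctionField L F]

theorem ChartSpec.rel {P : Place L F} {z w : Fin 2 × Place k C} (hz : ChartSpec h P z)
    (hw : ChartSpec h P w) : h.Rel z w := by
  intro p hp
  obtain ⟨a, ha, haO, rfl⟩ := BAD.Chart.mem_chartAlg.mp hp
  rw [hz.2.2 a ha haO ⟨_, pval_mem_of_chart h hz.1 ha haO⟩ rfl,
    hw.2.2 a ha haO ⟨_, pval_mem_of_chart h hz.1 ha haO⟩ rfl]

omit [IsAlgClosed L] [FF.IsFunctionField L F] in
theorem ChartSpec.of_rel {P : Place L F} {z w : Fin 2 × Place k C} (hz : ChartSpec h P z)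
    (hr : h.Rel z w) (hw : ubar ∈ w.2.toValuationSubring) : ChartSpec h P w :=
  ⟨hz.1, hw, fun a ha haO c hc => by
    rw [← hr _ (BAD.Chart.mem_chartAlg.mpr ⟨a, ha, haO, rfl⟩)]
    exact hz.2.2 a ha haO c hc⟩

theorem exists_chartSpec {P : Place L F} (hP : IsIntegralPlace A u P) :
    ∃ z, ChartSpec h P z := by
  classical
  have hd := (coordData_chart h).deg_one P
  set α : A := ⟨pval P u, hP.2⟩ with hα
  set g : C := ubar - algebraMap k C (π α) with hg
  have hg0 : g ≠ 0 := fun e =>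
    h.transcendental_ubar (sub_eq_zero.mp e ▸ isAlgebraic_algebraMap (π α))
  have hgR : g ∈ coordRing k ubar :=
    sub_mem (self_mem_coordRing k ubar) ((coordRing k ubar).algebraMap_mem _)
  set Z₀ := (h.finite_zeros hg0 hgR).toFinset with hZ₀
  set S := (Finset.univ : Finset (Fin 2)) ×ˢ Z₀ with hS
  have hSmem : ∀ w ∈ S, ubar ∈ w.2.toValuationSubring := fun w hw => by
    simp only [hS, hZ₀, Finset.mem_product, Set.Finite.mem_toFinset, Set.mem_ofPred_eq] at hw
    exact hw.2.1
  by_contra hcon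
  push Not at hcon
  have hne : ∀ w ∈ S, ∃ a ∈ coordRing L u, a ∈ D.O ∧ ∃ c : A, pval P a = (c : L) ∧
      BAD.Chart.ev h.coord.deg_one w (D.red2 a) ≠ π c := by
    intro w hw
    have := hcon w
    simp only [ChartSpec, hP, hSmem w hw, true_and, not_forall] at this
    obtain ⟨a, ha, haO, c, hc, hne⟩ := this
    exact ⟨a, ha, haO, c, hc, hne⟩
  have hB : ∀ T ⊆ S, ∃ B ∈ coordRing L u, B ∈ D.O ∧
      (∀ c : A, pval P B = (c : L) → π c ≠ 0) ∧
      ∀ w ∈ T, BAD.Chart.ev h.coord.deg_one w (D.red2 B) = 0 := by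
    intro T
    induction T using Finset.induction_on with
    | empty =>
      refine fun _ => ⟨1, one_mem _, one_mem _, fun c hc => ?_, by simp⟩
      rw [pval_one hd] at hc
      rw [show c = 1 from Subtype.ext hc.symm, map_one]
      exact one_ne_zero
    | insert w T _ ih =>
      intro hsub
      obtain ⟨hwS, hTS⟩ := Finset.insert_subset_iff.mp hsub
      obtain ⟨B, hB, hBO, hBv, hBT⟩ := ih hTS
      obtain ⟨a, ha, haO, c, hc, hne'⟩ := hne w hwS
      obtain ⟨e, he⟩ := D.hπ (BAD.Chart.ev h.coord.deg_one w (D.red2 a))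
      have heR := (coordRing L u).algebraMap_mem (e : L)
      set b := a - algebraMap L F e with hb
      have hbR : b ∈ coordRing L u := sub_mem ha heR
      have hbO : b ∈ D.O := sub_mem haO (algebraMap_mem_O e)
      have hBP := mem_place_of_mem_coordRing L u P hP.1 hB
      have haP := mem_place_of_mem_coordRing L u P hP.1 ha
      refine ⟨B * b, mul_mem hB hbR, mul_mem hBO hbO, fun f hf => ?_, fun v hv => ?_⟩
      · set cB : A := ⟨_, pval_mem_of_chart h hP hB hBO⟩
        have hf' : f = cB * (c - e) := by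
          refine Subtype.ext (hf.symm.trans ?_)
          rw [pval_mul hd hBP (mem_place_of_mem_coordRing L u P hP.1 hbR), hb,
            pval_sub hd haP (P.algebraMap_mem' _), pval_algebraMap hd, hc]
          rfl
        rw [hf', map_mul, map_sub, he]
        exact mul_ne_zero (hBv cB rfl) (sub_ne_zero.mpr hne'.symm)
      · rw [ev_red_mul h (hSmem v (hsub hv)) hB hBO hbR hbO]
        rcases Finset.mem_insert.mp hv with rfl | hv'
        · rw [hb, ev_red_sub h (hSmem v hwS) ha haO heR (algebraMap_mem_O e),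
            ev_red_algebraMap h, he, sub_self, mul_zero]
        · rw [hBT v hv', zero_mul]
  obtain ⟨B, hB, hBO, hBv, hBS⟩ := hB S subset_rfl
  set q := D.red2 B with hq
  have hqU : q ∈ BAD.Chart.chartAlg D u := BAD.Chart.mem_chartAlg.mpr ⟨B, hB, hBO, rfl⟩
  set N := Z₀.sup (fun x => (x.ord g).toNat) + 1 with hN
  set p : Fin 2 → C := fun i => q i ^ N / g with hp
  have hfib : ∀ (i : Fin 2) (x : Place k C), x ∈ Z₀ →
      BAD.Vanish x 1 (p i) := by
    intro i x hx
    have hmemS : (i, x) ∈ S := Finset.mem_product.mpr ⟨Finset.mem_univ _, hx⟩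
    have hxm := hSmem _ hmemS
    have h1 : BAD.Vanish x 1 (q i) := (BAD.vanish_one_iff (hd := h.coord.deg_one x)).mpr
      ⟨h.chartAlg_mem_place hqU i hxm, hBS _ hmemS⟩
    have h2 : BAD.Vanish x N (q i ^ N) := (h1.pow N).mono (by omega)
    rcases BAD.vanish_iff.mp h2 with e | e
    · exact BAD.vanish_iff.mpr (Or.inl (by rw [hp]; simp only [e, zero_div]))
    rcases eq_or_ne (q i ^ N) 0 with h0 | h0
    · exact BAD.vanish_iff.mpr (Or.inl (by rw [hp]; simp only [h0, zero_div]))
    refine BAD.vanish_iff.mpr (Or.inr ?_)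
    simp only [hp]
    rw [div_eq_mul_inv, x.ord_mul h0 (inv_ne_zero hg0), x.ord_inv]
    have hle := Finset.le_sup (f := fun x : Place k C => (x.ord g).toNat) hx
    omega
  have hoff : ∀ (i : Fin 2) (x : Place k C), ubar ∈ x.toValuationSubring → x ∉ Z₀ →
      p i ∈ x.toValuationSubring ∧ BAD.pv x (h.coord.deg_one x) g ≠ 0 := by
    intro i x hx hxZ
    have hv : BAD.pv x (h.coord.deg_one x) g ≠ 0 := fun h' => hxZ (by simp [hZ₀, hx, h'])
    refine ⟨?_, hv⟩
    have hgx := mem_place_of_mem_coordRing _ _ x hx hgR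
    rw [ne_eq, BAD.pv_eq_zero_iff hgx, not_or] at hv
    have hge := ord_nonneg_of_mem x hgx
    have hginv : g⁻¹ ∈ x.toValuationSubring := mem_of_ord_nonneg x (by rw [x.ord_inv]; omega)
    simp only [hp, div_eq_mul_inv]
    exact mul_mem (pow_mem (h.chartAlg_mem_place hqU i hx) N) hginv
  have hpU : p ∈ BAD.Chart.chartAlg D u := by
    refine h.mem_chartAlg_iff.mpr ⟨fun i => h.coord.mem_coordRing_of_forall _ fun x hx => ?_,
      fun x y hx hy hr => ?_⟩
    · by_cases hxZ : x ∈ Z₀
      · exact ((BAD.vanish_one_iff (hd := h.coord.deg_one x)).mp (hfib i x hxZ)).1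
      · exact (hoff i x hx hxZ).1
    have hgconst : (fun _ : Fin 2 => g) ∈ BAD.Chart.chartAlg D u :=
      BAD.Chart.mem_chartAlg.mpr ⟨u - algebraMap L F α,
        sub_mem (self_mem_coordRing L u) ((coordRing L u).algebraMap_mem _),
        sub_mem h.u_mem (algebraMap_mem_O α), funext fun i => by
          rw [D.red2_apply, D.red_sub (D.mem_of_mem_O h.u_mem i) (D.algebraMap_mem i α), h.red_u,
            D.red_algebraMap]⟩
    have hgg : BAD.pv x (h.coord.deg_one x) g = BAD.pv y (h.coord.deg_one y) g := hr _ hgconst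
    by_cases hxZ : x ∈ Z₀
    · have hyZ : y ∈ Z₀ := by
        simp only [hZ₀, Set.Finite.mem_toFinset, Set.mem_ofPred_eq] at hxZ ⊢
        exact ⟨hy, hgg ▸ hxZ.2⟩
      rw [((BAD.vanish_one_iff (hd := h.coord.deg_one x)).mp (hfib 0 x hxZ)).2,
        ((BAD.vanish_one_iff (hd := h.coord.deg_one y)).mp (hfib 1 y hyZ)).2]
    · have hyZ : y ∉ Z₀ := fun e => hxZ (by
        simp only [hZ₀, Set.Finite.mem_toFinset, Set.mem_ofPred_eq] at e ⊢
        exact ⟨hx, hgg.symm ▸ e.2⟩)
      obtain ⟨hpx, hgx0⟩ := hoff 0 x hx hxZ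
      obtain ⟨hpy, -⟩ := hoff 1 y hy hyZ
      have hqN : BAD.pv x (h.coord.deg_one x) (q 0 ^ N) =
          BAD.pv y (h.coord.deg_one y) (q 1 ^ N) :=
        hr _ (BAD.Chart.chartAlg_pow_mem hqU N)
      have hx' : q 0 ^ N = p 0 * g := (div_mul_cancel₀ _ hg0).symm
      have hy' : q 1 ^ N = p 1 * g := (div_mul_cancel₀ _ hg0).symm
      rw [hx', hy', BAD.pv_mul hpx (mem_place_of_mem_coordRing _ _ x hx hgR),
        BAD.pv_mul hpy (mem_place_of_mem_coordRing _ _ y hy hgR), ← hgg] at hqN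
      exact mul_right_cancel₀ hgx0 hqN
  obtain ⟨a, ha, haO, hap⟩ := BAD.Chart.mem_chartAlg.mp hpU
  have hsub := sub_mem (self_mem_coordRing L u) ((coordRing L u).algebraMap_mem (α : L))
  have hsubO : u - algebraMap L F α ∈ D.O := sub_mem h.u_mem (algebraMap_mem_O α)
  set cB : A := ⟨_, pval_mem_of_chart h hP hB hBO⟩
  have key : π (cB ^ N) = π 0 := by
    refine π_pval_congr h hP (pow_mem hB N) (pow_mem hBO N) (mul_mem hsub ha) (mul_mem hsubO haO)
      (funext fun i => ?_) ?_ ?_
    · rw [D.red2_apply, D.red2_apply, D.red_pow (D.mem_of_mem_O hBO i),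
        D.red_mul (D.mem_of_mem_O hsubO i) (D.mem_of_mem_O haO i),
        D.red_sub (D.mem_of_mem_O h.u_mem i) (D.algebraMap_mem i α), h.red_u, D.red_algebraMap,
        ← D.red2_apply a, hap]
      show q i ^ N = g * (q i ^ N / g)
      rw [mul_div_cancel₀ _ hg0]
    · rw [pval_pow' hd (mem_place_of_mem_coordRing L u P hP.1 hB)]
      rfl
    · rw [pval_mul hd (mem_place_of_mem_coordRing L u P hP.1 hsub)
        (mem_place_of_mem_coordRing L u P hP.1 ha), pval_sub hd hP.1 (P.algebraMap_mem' _),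
        pval_algebraMap hd, hα, sub_self, zero_mul]
      rfl
  rw [map_zero, map_pow] at key
  exact hBv cB rfl (eq_zero_of_pow_eq_zero key)

/-- For a place not specialising to `z`, a chart function vanishing there which is a unit at
`z`. -/
theorem exists_avoiding {P : Place L F} (hP : u ∈ P.toValuationSubring) {z : Fin 2 × Place k C}
    (hz : ubar ∈ z.2.toValuationSubring) (hPz : ¬ ChartSpec h P z) :
    ∃ s ∈ coordRing L u, s ∈ D.O ∧ BAD.Chart.ev h.coord.deg_one z (D.red2 s) ≠ 0 ∧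
      1 ≤ P.ord s := by
  have hd := (coordData_chart h).deg_one P
  have hfin : ∀ s ∈ coordRing L u, BAD.Chart.ev h.coord.deg_one z (D.red2 s) ≠ 0 →
      pval P s = 0 → 1 ≤ P.ord s := fun s hs hne h0 => by
    rcases (pval_eq_zero_iff hd (mem_place_of_mem_coordRing L u P hP hs)).mp h0 with e | e
    · refine absurd ?_ hne
      simp [e, BAD.Chart.ev, BAD.TwoBranch.red2_apply, BAD.pv_zero]
    · omega
  by_cases hint : IsIntegralPlace A u P
  · obtain ⟨w, hw⟩ := exists_chartSpec h hint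
    have hr : ¬ h.Rel w z := fun e => hPz (ChartSpec.of_rel h hw e hz)
    simp only [BAD.Chart.Rel, not_forall] at hr
    obtain ⟨p, hp, hne⟩ := hr
    obtain ⟨a, ha, haO, rfl⟩ := BAD.Chart.mem_chartAlg.mp hp
    set c : A := ⟨_, pval_mem_of_chart h hint ha haO⟩
    have hcR := (coordRing L u).algebraMap_mem (c : L)
    have hev : BAD.Chart.ev h.coord.deg_one z (D.red2 (a - algebraMap L F c)) ≠ 0 := by
      rw [ev_red_sub h hz ha haO hcR (algebraMap_mem_O c), ev_red_algebraMap h, sub_ne_zero,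
        ← hw.2.2 a ha haO c rfl]
      exact Ne.symm hne
    refine ⟨_, sub_mem ha hcR, sub_mem haO (algebraMap_mem_O c), hev,
      hfin _ (sub_mem ha hcR) hev ?_⟩
    rw [pval_sub hd (mem_place_of_mem_coordRing L u P hP ha) (P.algebraMap_mem' _),
      pval_algebraMap hd]
    exact sub_self _
  · have hαA : pval P u ∉ A := fun hm => hint ⟨hP, hm⟩
    have hα0 : pval P u ≠ 0 := fun e => hαA (e ▸ zero_mem A)
    set c : A := ⟨(pval P u)⁻¹, (A.mem_or_inv_mem _).resolve_left hαA⟩
    have hπ : π c = 0 :=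
      D.residue_eq_zero_of_nonunit c (BAD.TwoBranch.inv_mem_nonunits_of_notMem hαA)
    have hcR := (coordRing L u).algebraMap_mem (c : L)
    have hm := mul_mem hcR (self_mem_coordRing L u)
    have hmO := mul_mem (algebraMap_mem_O (D := D) c) h.u_mem
    have hev : BAD.Chart.ev h.coord.deg_one z (D.red2 (1 - algebraMap L F c * u)) = 1 := by
      rw [ev_red_sub h hz (one_mem _) (one_mem _) hm hmO, ev_red_one h,
        ev_red_mul h hz hcR (algebraMap_mem_O c) (self_mem_coordRing L u) h.u_mem,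
        ev_red_algebraMap h, hπ, zero_mul, sub_zero]
    refine ⟨_, sub_mem (one_mem _) hm, sub_mem (one_mem _) hmO, hev.trans_ne one_ne_zero,
      hfin _ (sub_mem (one_mem _) hm) (hev.trans_ne one_ne_zero) ?_⟩
    rw [pval_sub hd (one_mem _) (mul_mem (P.algebraMap_mem' _) hP), pval_one hd,
      pval_mul hd (P.algebraMap_mem' _) hP, pval_algebraMap hd,
      show (c : L) = (pval P u)⁻¹ from rfl, inv_mul_cancel₀ hα0, sub_self]

/-- A product of avoiding functions. -/
theorem exists_avoiding_prod (T : Finset (Place L F)) (e : Place L F → ℕ)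
    {z : Fin 2 × Place k C} (hz : ubar ∈ z.2.toValuationSubring)
    (hT : ∀ P ∈ T, u ∈ P.toValuationSubring ∧ ¬ ChartSpec h P z) :
    ∃ s ∈ coordRing L u, s ∈ D.O ∧ BAD.Chart.ev h.coord.deg_one z (D.red2 s) ≠ 0 ∧ s ≠ 0 ∧
      ∀ P ∈ T, (e P : ℤ) ≤ P.ord s := by
  classical
  induction T using Finset.induction_on with
  | empty =>
    exact ⟨1, one_mem _, one_mem _, by rw [ev_red_one h]; exact one_ne_zero, one_ne_zero, by simp⟩
  | insert P T _ ih =>
    obtain ⟨s, hs, hsO, hsz, hs0, hsT⟩ := ih fun Q hQ => hT Q (Finset.mem_insert_of_mem hQ)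
    obtain ⟨hPu, hPz⟩ := hT P (Finset.mem_insert_self _ _)
    obtain ⟨t, ht, htO, htz, htP⟩ := exists_avoiding h hPu hz hPz
    have ht0 : t ≠ 0 := fun e0 => htz (by simp [e0, BAD.Chart.ev, BAD.TwoBranch.red2_apply, BAD.pv_zero])
    have htne : BAD.Chart.ev h.coord.deg_one z (D.red2 (t ^ e P)) ≠ 0 := by
      simp only [BAD.Chart.ev, BAD.TwoBranch.red2_apply] at htz ⊢
      rw [D.red_pow (D.mem_of_mem_O htO _), BAD.pv_pow (red_mem_place_of_chart h ht htO _ hz)]
      exact pow_ne_zero _ htz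
    have hte0 : t ^ e P ≠ 0 := pow_ne_zero _ ht0
    refine ⟨s * t ^ e P, mul_mem hs (pow_mem ht _), mul_mem hsO (pow_mem htO _), ?_,
      mul_ne_zero hs0 hte0, fun Q hQ => ?_⟩
    · rw [ev_red_mul h hz hs hsO (pow_mem ht _) (pow_mem htO _)]
      exact mul_ne_zero hsz htne
    · have hQu : u ∈ Q.toValuationSubring := (hT Q hQ).1
      rw [Q.ord_mul hs0 hte0, ord_pow' Q ht0]
      have h1 := ord_nonneg_of_mem Q (mem_place_of_mem_coordRing L u Q hQu hs)
      have h2 := ord_nonneg_of_mem Q (mem_place_of_mem_coordRing L u Q hQu ht)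
      have h3 : 0 ≤ (e P : ℤ) * Q.ord t := mul_nonneg (Int.natCast_nonneg _) h2
      rcases Finset.mem_insert.mp hQ with rfl | hQ
      · have : (e Q : ℤ) ≤ (e Q : ℤ) * Q.ord t :=
          le_mul_of_one_le_right (Int.natCast_nonneg _) htP
        omega
      · have := hsT Q hQ
        omega

/-- A function regular above `z` is a quotient of chart functions, with denominator a unit at
`z`. -/
theorem exists_clear {z : Fin 2 × Place k C} (hz : ubar ∈ z.2.toValuationSubring) {f : F}
    (_hf : f ∈ D.O) (hreg : AllSpec h z fun P => 0 ≤ P.ord f) :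
    ∃ s ∈ coordRing L u, s ∈ D.O ∧ BAD.Chart.ev h.coord.deg_one z (D.red2 s) ≠ 0 ∧
      s * f ∈ coordRing L u := by
  classical
  rcases eq_or_ne f 0 with rfl | hf0
  · exact ⟨1, one_mem _, one_mem _, by rw [ev_red_one h]; exact one_ne_zero, by simp [zero_mem]⟩
  obtain ⟨E, hE⟩ := exists_isDivisorOf (L := L) hf0
  set T := E.support.filter fun P => u ∈ P.toValuationSubring ∧ E P < 0 with hT
  obtain ⟨s, hs, hsO, hsz, hs0, hsT⟩ := exists_avoiding_prod h T (fun P => (-E P).toNat) hz
    fun P hP => by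
      obtain ⟨-, hu, hneg⟩ := Finset.mem_filter.mp hP
      exact ⟨hu, fun hPz => by have := hreg P hPz; rw [hE P] at hneg; omega⟩
  refine ⟨s, hs, hsO, hsz, (coordData_chart h).mem_coordRing_of_forall _ fun P hP =>
    mem_of_ord_nonneg P ?_⟩
  rw [P.ord_mul hs0 hf0, ← hE P]
  by_cases hPT : P ∈ T
  · have h1 : ((-E P).toNat : ℤ) ≤ P.ord s := hsT P hPT
    have := Int.self_le_toNat (-E P)
    omega
  · have h0 : 0 ≤ E P := by
      simp only [hT, Finset.mem_filter, Finsupp.mem_support_iff, hP, true_and, not_and,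
        not_lt] at hPT
      rcases eq_or_ne (E P) 0 with e | e
      · omega
      · exact hPT e
    have := ord_nonneg_of_mem P (mem_place_of_mem_coordRing L u P hP hs)
    omega

/-- Prescribed value at a point and integrality at the places above: residual regularity. -/
theorem red_mem_of_regular {z : Fin 2 × Place k C} (hz : ubar ∈ z.2.toValuationSubring) {f : F}
    (hf : f ∈ D.O) (hreg : AllSpec h z fun P => 0 ≤ P.ord f) :
    D.red z.1 f ∈ z.2.toValuationSubring ∧
      (∀ w : Fin 2 × Place k C, ubar ∈ w.2.toValuationSubring → h.Rel z w →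
        BAD.pv w.2 (h.coord.deg_one w.2) (D.red w.1 f) =
          BAD.pv z.2 (h.coord.deg_one z.2) (D.red z.1 f)) ∧
      ∀ P, ChartSpec h P z → ∀ c : A, pval P f = (c : L) →
        BAD.pv z.2 (h.coord.deg_one z.2) (D.red z.1 f) = π c := by
  obtain ⟨s, hs, hsO, hsz, hsf⟩ := exists_clear h hz hf hreg
  have hsfO : s * f ∈ D.O := mul_mem hsO hf
  -- the value at a point where the denominator is a unit
  have key : ∀ w : Fin 2 × Place k C, ubar ∈ w.2.toValuationSubring →
      BAD.Chart.ev h.coord.deg_one w (D.red2 s) ≠ 0 →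
      D.red w.1 f ∈ w.2.toValuationSubring ∧
        BAD.pv w.2 (h.coord.deg_one w.2) (D.red w.1 f) *
          BAD.Chart.ev h.coord.deg_one w (D.red2 s) =
          BAD.Chart.ev h.coord.deg_one w (D.red2 (s * f)) := by
    intro w hw hne
    have hsw := red_mem_place_of_chart h hs hsO w.1 hw
    have hsfw := red_mem_place_of_chart h hsf hsfO w.1 hw
    simp only [BAD.Chart.ev, BAD.TwoBranch.red2_apply] at hne ⊢
    rw [ne_eq, BAD.pv_eq_zero_iff hsw, not_or] at hne
    have h0 := ord_nonneg_of_mem _ hsw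
    have hinv : (D.red w.1 s)⁻¹ ∈ w.2.toValuationSubring :=
      mem_of_ord_nonneg _ (by rw [w.2.ord_inv]; omega)
    have heq : D.red w.1 (s * f) = D.red w.1 s * D.red w.1 f :=
      D.red_mul (D.mem_of_mem_O hsO _) (D.mem_of_mem_O hf _)
    have hmem : D.red w.1 f ∈ w.2.toValuationSubring := by
      have := mul_mem hinv hsfw
      rwa [heq, inv_mul_cancel_left₀ hne.1] at this
    refine ⟨hmem, ?_⟩
    rw [heq, BAD.pv_mul hsw hmem, mul_comm]
  obtain ⟨hmem, hval⟩ := key z hz hsz
  refine ⟨hmem, fun w hw hr => ?_, fun P hP c hc => ?_⟩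
  · have hsw := hr _ (BAD.Chart.mem_chartAlg.mpr ⟨s, hs, hsO, rfl⟩)
    obtain ⟨-, hvw⟩ := key w hw (hsw ▸ hsz)
    have h2 := hr _ (BAD.Chart.mem_chartAlg.mpr ⟨s * f, hsf, hsfO, rfl⟩)
    rw [← hvw, ← hval, ← hsw] at h2
    exact (mul_right_cancel₀ hsz h2).symm
  · have hd := (coordData_chart h).deg_one P
    set cs : A := ⟨_, pval_mem_of_chart h hP.1 hs hsO⟩
    have h1 : BAD.Chart.ev h.coord.deg_one z (D.red2 s) = π cs := hP.2.2 s hs hsO cs rfl
    have h2 : BAD.Chart.ev h.coord.deg_one z (D.red2 (s * f)) = π (cs * c) := by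
      refine hP.2.2 _ hsf hsfO _ ?_
      rw [pval_mul hd (mem_place_of_mem_coordRing L u P hP.1.1 hs)
        (mem_of_ord_nonneg P (hreg P hP)), hc]
      rfl
    rw [map_mul, ← hval, h1, mul_comm] at h2
    exact mul_left_cancel₀ (h1 ▸ hsz) h2

end Fermat.Agent.LLp
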