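import Fermat.Agent.LLp.Local.SpecOrder

/-!
# Equality of orders on the classes of a two-branch chart
-/

set_option autoImplicit false

noncomputable section

open AlgebraicCurve IntermediateField Polynomial Fermat.Agent.RED

namespace Fermat.Agent.LLp

variable {L k : Type*} [Field L] [Field k] {A : ValuationSubring L} {π : A →+* k}
  {F C : Type*} [Field F] [Algebra L F] [Field C] [Algebra k C] {D : BAD.BadBase π F C}
  {u : F} {ubar : C} {d : ℕ} (h : BAD.Chart D u ubar d)

include h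

/-- The statement that the orders of `y` over every class are those of its reductions. -/
def CountEq (y : F) : Prop :=
  ∀ E : Divisor L F, IsDivisorOf E y → ∀ z : Fin 2 × Place k C,
    ubar ∈ z.2.toValuationSubring → specSum h z E = classOrd h z (D.red2 y)

theorem sub_algebraMap_u_ne_zero (c : L) : u - algebraMap L F c ≠ 0 := fun e =>
  h.transcendental_u (sub_eq_zero.mp e ▸ isAlgebraic_algebraMap c)

theorem sub_algebraMap_ubar_ne_zero (c : k) : ubar - algebraMap k C c ≠ 0 := fun e =>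
  h.transcendental_ubar (sub_eq_zero.mp e ▸ isAlgebraic_algebraMap c)

theorem finrank_special [IsAlgClosed k] : Module.finrank k⟮ubar⟯ C = d := by
  have : FF.IsFunctionField k C := ⟨⟨ubar, h.transcendental_ubar, h.finite_C⟩⟩
  obtain ⟨E, hE, hd⟩ := (coordData_of_functionField h.transcendental_ubar rfl).exists_zeros 0
  obtain ⟨E', hE', hd'⟩ := h.coord.exists_zeros 0
  have : E = E' := Finsupp.ext fun v => by rw [hE v, hE' v]
  rw [this, hd'] at hd
  exact_mod_cast hd.symm

variable [IsAlgClosed L] [FF.IsFunctionField L F]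

omit [IsAlgClosed L] in
theorem CountEq.mul {y y' : F} (h1 : CountEq h y) (h2 : CountEq h y') (hy : y ≠ 0)
    (hy' : y' ≠ 0) (hyO : y ∈ D.O) (hyO' : y' ∈ D.O) (hg : ∀ i, D.red i y ≠ 0)
    (hg' : ∀ i, D.red i y' ≠ 0) : CountEq h (y * y') := by
  intro E hE z hz
  obtain ⟨E1, hE1⟩ := exists_isDivisorOf (L := L) hy
  obtain ⟨E2, hE2⟩ := exists_isDivisorOf (L := L) hy'
  have hred : D.red2 (y * y') = D.red2 y * D.red2 y' :=
    funext fun i => D.red_mul (D.mem_of_mem_O hyO i) (D.mem_of_mem_O hyO' i)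
  have : E = E1 + E2 := Finsupp.ext fun P => by
    rw [hE P, isDivisorOf_mul hE1 hE2 hy hy' P]
  rw [this, map_add, h1 E1 hE1 z hz, h2 E2 hE2 z hz, hred, classOrd_mul h z (g := D.red2 y) (g' := D.red2 y') hg hg']

omit [IsAlgClosed L] in
theorem CountEq.of_mul_left {y y' : F} (h1 : CountEq h y) (h12 : CountEq h (y * y'))
    (hy : y ≠ 0) (hy' : y' ≠ 0) (hyO : y ∈ D.O) (hyO' : y' ∈ D.O) (hg : ∀ i, D.red i y ≠ 0)
    (hg' : ∀ i, D.red i y' ≠ 0) : CountEq h y' := by
  intro E hE z hz
  obtain ⟨E1, hE1⟩ := exists_isDivisorOf (L := L) hy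
  have hred : D.red2 (y * y') = D.red2 y * D.red2 y' :=
    funext fun i => D.red_mul (D.mem_of_mem_O hyO i) (D.mem_of_mem_O hyO' i)
  have := h12 (E1 + E) (isDivisorOf_mul hE1 hE hy hy') z hz
  rw [map_add, h1 E1 hE1 z hz, hred, classOrd_mul h z (g := D.red2 y) (g' := D.red2 y') hg hg'] at this
  omega

omit [IsAlgClosed L] [FF.IsFunctionField L F] in
/-- A function without zeros or poles at the integral places. -/
theorem countEq_of_ord_eq_zero {y : F} (hy : ∀ P, IsIntegralPlace A u P → P.ord y = 0)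
    (hg : ∀ (i : Fin 2) (x : Place k C), ubar ∈ x.toValuationSubring → x.ord (D.red i y) = 0) :
    CountEq h y := by
  intro E hE z _
  rw [show classOrd h z (D.red2 y) = 0 from
    Finset.sum_eq_zero fun v hv => hg v.1 v.2 ((mem_cls h).mp hv).1]
  exact sumOver_eq_zero fun P hP => by rw [hE P, hy P hP.1]

variable [IsAlgClosed k]

/-- The linear functions `u - α`. -/
theorem countEq_sub (α : A) : CountEq h (u - algebraMap L F α) := by
  classical
  intro E hE z₀ hz₀
  have hd := (coordData_chart h).deg_one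
  have hdk := h.coord.deg_one
  set y := u - algebraMap L F α with hy
  set g : C := ubar - algebraMap k C (π α) with hg
  have hyR : y ∈ coordRing L u :=
    sub_mem (self_mem_coordRing L u) ((coordRing L u).algebraMap_mem _)
  have hyO : y ∈ D.O := sub_mem h.u_mem (algebraMap_mem_O α)
  have hred : ∀ i, D.red i y = g := fun i => by
    rw [hy, D.red_sub (D.mem_of_mem_O h.u_mem i) (D.algebraMap_mem i α), h.red_u,
      D.red_algebraMap]
  have hred2 : D.red2 y = fun _ => g := funext hred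
  have hg0 : g ≠ 0 := sub_algebraMap_ubar_ne_zero h _
  have h0 : ∀ i, D.red i y ≠ 0 := fun i => by rw [hred i]; exact hg0
  have hy0 : y ≠ 0 := sub_algebraMap_u_ne_zero h _
  have hgmem : (fun _ : Fin 2 => g) ∈ BAD.Chart.chartAlg D u :=
    BAD.Chart.mem_chartAlg.mpr ⟨y, hyR, hyO, hred2⟩
  obtain ⟨Z, hZ, hZdeg⟩ := (coordData_chart h).exists_zeros α
  obtain ⟨Zb, hZb, hZbdeg⟩ := h.coord.exists_zeros (π α)
  rw [degree_eq_sum hd] at hZdeg
  rw [degree_eq_sum hdk] at hZbdeg
  -- the support of the special divisor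
  have hsupp : ∀ x : Place k C, x ∈ Zb.support ↔
      ubar ∈ x.toValuationSubring ∧ BAD.pv x (hdk x) g = 0 := by
    intro x
    rw [Finsupp.mem_support_iff, hZb, ← hg]
    constructor
    · intro hne
      have hpos : 0 < x.ord g := by
        by_contra hle
        exact hne (max_eq_right (not_lt.mp hle))
      have hgx := mem_of_ord_nonneg x hpos.le
      refine ⟨?_, (BAD.pv_eq_zero_iff hgx).mpr (Or.inr hpos)⟩
      simpa [hg] using add_mem hgx (x.algebraMap_mem' (π α))
    · rintro ⟨hx, hv⟩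
      have hpos := ((BAD.pv_eq_zero_iff
        (sub_mem hx (x.algebraMap_mem' (π α)))).mp hv).resolve_left hg0
      rw [max_eq_left hpos.le]
      omega
  set S := (Finset.univ : Finset (Fin 2)) ×ˢ Zb.support with hS
  have hSmem : ∀ v : Fin 2 × Place k C, v ∈ S ↔
      ubar ∈ v.2.toValuationSubring ∧ BAD.Chart.ev hdk v (fun _ => g) = 0 := fun v => by
    simp [hS, hsupp, BAD.Chart.ev]
  have hclosed : ∀ z ∈ S, ∀ v ∈ cls h z, v ∈ S := by
    intro z hz v hv
    obtain ⟨hvm, hr⟩ := (mem_cls h).mp hv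
    exact (hSmem v).mpr ⟨hvm, (hr _ hgmem).symm.trans ((hSmem z).mp hz).2⟩
  -- places over the points of `S`, and away from them
  have hspec : ∀ P z, ChartSpec h P z → (z ∈ S ↔ ∀ c : A, pval P y = (c : L) → π c = 0) := by
    intro P z hP
    have hev : ∀ c : A, pval P y = (c : L) → BAD.Chart.ev hdk z (fun _ => g) = π c :=
      fun c hc => hred2 ▸ hP.2.2 y hyR hyO c hc
    rw [hSmem z]
    refine ⟨fun hz c hc => (hev c hc).symm.trans hz.2, fun hc => ⟨hP.2.1, ?_⟩⟩
    have := pval_mem_of_chart h hP.1 hyR hyO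
    exact (hev ⟨_, this⟩ rfl).trans (hc ⟨_, this⟩ rfl)
  by_cases hz₀S : z₀ ∈ S
  swap
  · have hcl : classOrd h z₀ (D.red2 y) = 0 := by
      refine Finset.sum_eq_zero fun v hv => ?_
      obtain ⟨hvm, hr⟩ := (mem_cls h).mp hv
      have hne : BAD.pv v.2 (hdk v.2) g ≠ 0 := fun e =>
        hz₀S ((hSmem z₀).mpr ⟨hz₀, (hr _ hgmem).trans e⟩)
      have hgv : g ∈ v.2.toValuationSubring := sub_mem hvm (v.2.algebraMap_mem' _)
      rw [ne_eq, BAD.pv_eq_zero_iff hgv, not_or] at hne
      have := ord_nonneg_of_mem v.2 hgv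
      rw [D.red2_apply, hred]
      omega
    rw [hcl]
    refine sumOver_eq_zero fun P hP => ?_
    rw [hE P]
    have hyP := mem_place_of_mem_coordRing L u P hP.1.1 hyR
    have := ord_nonneg_of_mem P hyP
    by_contra hne
    refine hz₀S ((hspec P z₀ hP).mpr fun c hc => ?_)
    rw [show c = 0 from Subtype.ext (hc.symm.trans
      ((pval_eq_zero_iff (hd P) hyP).mpr (Or.inr (by omega)))), map_zero]
  -- places in the support of the generic divisor specialise into `S`
  have hZS : ∀ P ∈ Z.support, ∃ z ∈ S, ChartSpec h P z := by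
    intro P hP
    have hne := Finsupp.mem_support_iff.mp hP
    rw [hZ, ← hy] at hne
    have hpos : 0 < P.ord y := by
      by_contra hle
      exact hne (max_eq_right (not_lt.mp hle))
    have hyP := mem_of_ord_nonneg P hpos.le
    have hv0 := (pval_eq_zero_iff (hd P) hyP).mpr (Or.inr hpos)
    have huP : u ∈ P.toValuationSubring := by
      simpa [hy] using add_mem hyP (P.algebraMap_mem' (α : L))
    have hval : pval P u = (α : L) := by
      rwa [hy, pval_sub (hd P) huP (P.algebraMap_mem' _), pval_algebraMap (hd P),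
        sub_eq_zero] at hv0
    obtain ⟨z, hz⟩ := exists_chartSpec h (P := P) ⟨huP, hval ▸ α.2⟩
    refine ⟨z, (hspec P z hz).mpr fun c hc => ?_, hz⟩
    rw [show c = 0 from Subtype.ext (hc.symm.trans hv0), map_zero]
  let f₁ : Finset (Fin 2 × Place k C) → ℤ := fun c => ∑ v ∈ c, v.2.ord (D.red v.1 y)
  let f₂ : Finset (Fin 2 × Place k C) → ℤ := fun c =>
    ∑ P ∈ Z.support.filter (fun P => ∃ v ∈ c, ChartSpec h P v), Z P
  set Cs := S.image (cls h) with hCs
  have hEZ : ∀ z, specSum h z E = specSum h z Z := fun z => by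
    rw [← sub_eq_zero, ← map_sub]
    refine sumOver_eq_zero fun P hP => ?_
    rw [Finsupp.sub_apply, hE P, hZ, ← hy, max_eq_left, sub_self]
    exact ord_nonneg_of_mem P (mem_place_of_mem_coordRing L u P hP.1.1 hyR)
  have hf₂ : ∀ z ∈ S, f₂ (cls h z) = specSum h z E := by
    intro z hz
    have hzm := ((hSmem z).mp hz).1
    rw [hEZ z, specSum, sumOver_apply]
    refine Finset.sum_congr (Finset.filter_congr fun P _ => ⟨?_, fun hP => ?_⟩) fun _ _ => rfl
    · rintro ⟨v, hv, hP⟩
      exact ChartSpec.of_rel h hP ((mem_cls h).mp hv).2.symm hzm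
    · exact ⟨z, (mem_cls h).mpr ⟨hzm, rel_refl h z⟩, hP⟩
  have hle : ∀ c ∈ Cs, f₁ c ≤ f₂ c := by
    intro c hc
    obtain ⟨z, hz, rfl⟩ := Finset.mem_image.mp hc
    rw [hf₂ z hz]
    exact classOrd_le_specSum h hyR hyO h0 hE ((hSmem z).mp hz).1
  have hsum₁ : ∑ c ∈ Cs, f₁ c = 2 * (d : ℤ) := by
    have h1 : ∀ c ∈ Cs, f₁ c = ∑ v ∈ S.filter (fun v => cls h v = c), v.2.ord (D.red v.1 y) := by
      intro c hc
      obtain ⟨z, hz, rfl⟩ := Finset.mem_image.mp hc
      refine Finset.sum_congr ?_ fun _ _ => rfl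
      ext v
      rw [Finset.mem_filter]
      refine ⟨fun hv => ⟨hclosed z hz v hv, cls_eq_of_rel h ((mem_cls h).mp hv).2⟩, fun hv => ?_⟩
      rw [← hv.2]
      exact (mem_cls h).mpr ⟨((hSmem v).mp hv.1).1, rel_refl h v⟩
    rw [Finset.sum_congr rfl h1,
      Finset.sum_fiberwise_of_maps_to (fun v hv => Finset.mem_image_of_mem _ hv), hS,
      Finset.sum_product, Fin.sum_univ_two, ← hZbdeg]
    have h2 : ∀ i : Fin 2, ∑ x ∈ Zb.support, x.ord (D.red i y) = ∑ x ∈ Zb.support, Zb x := by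
      intro i
      refine Finset.sum_congr rfl fun x hx => ?_
      rw [hZb, hred i, ← hg, max_eq_left]
      exact ord_nonneg_of_mem x (sub_mem ((hsupp x).mp hx).1 (x.algebraMap_mem' _))
    rw [h2 0, h2 1]
    ring
  have hsum₂ : ∑ c ∈ Cs, f₂ c = (Module.finrank L⟮u⟯ F : ℤ) := by
    rw [← hZdeg]
    simp only [f₂, Finset.sum_filter]
    rw [Finset.sum_comm]
    refine Finset.sum_congr rfl fun P hP => ?_
    obtain ⟨w, hw, hPw⟩ := hZS P hP
    have hwc : w ∈ cls h w := (mem_cls h).mpr ⟨((hSmem w).mp hw).1, rel_refl h w⟩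
    rw [Finset.sum_eq_single (cls h w)]
    · rw [if_pos ⟨w, hwc, hPw⟩]
    · intro c hc hne
      obtain ⟨z, hz, rfl⟩ := Finset.mem_image.mp hc
      refine if_neg fun ⟨v, hv, hPv⟩ => hne ?_
      rw [← cls_eq_of_rel h ((mem_cls h).mp hv).2, cls_eq_of_rel h (ChartSpec.rel h hPw hPv)]
    · exact fun hn => absurd (Finset.mem_image_of_mem _ hw) hn
  have hrank : (Module.finrank L⟮u⟯ F : ℤ) ≤ 2 * (d : ℤ) := by
    have := h.finrank_le
    rw [finrank_special h] at this
    exact_mod_cast this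
  have hsum : ∑ c ∈ Cs, f₁ c = ∑ c ∈ Cs, f₂ c :=
    le_antisymm (Finset.sum_le_sum hle) (by rw [hsum₁, hsum₂]; exact hrank)
  have := (Finset.sum_eq_sum_iff_of_le hle).mp hsum (cls h z₀) (Finset.mem_image_of_mem _ hz₀S)
  rw [← hf₂ z₀ hz₀S, ← this]
  rfl

/-- Every nonzero polynomial in `u` has a scaling for which the orders are preserved. -/
theorem exists_countEq_aeval {p : L[X]} (hp : p ≠ 0) :
    ∃ c : L, c ≠ 0 ∧ aeval u (Polynomial.C c * p) ∈ D.O ∧
      (∀ i, D.red i (aeval u (Polynomial.C c * p)) ≠ 0) ∧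
      CountEq h (aeval u (Polynomial.C c * p)) := by
  induction hdeg : p.natDegree using Nat.strong_induction_on generalizing p with
  | _ n ih =>
  rcases Nat.eq_zero_or_pos n with hn | hn
  · obtain ⟨a, rfl⟩ := Polynomial.natDegree_eq_zero.mp (hdeg.trans hn)
    have ha : a ≠ 0 := fun e => hp (by simp [e])
    refine ⟨a⁻¹, inv_ne_zero ha, ?_⟩
    rw [show aeval u (Polynomial.C a⁻¹ * Polynomial.C a) = (1 : F) by
      rw [← Polynomial.C_mul, inv_mul_cancel₀ ha, Polynomial.C_1, map_one]]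
    exact ⟨one_mem _, fun i => by simp, countEq_of_ord_eq_zero h (fun P _ => P.ord_one)
      fun i x _ => by rw [D.red_one, x.ord_one]⟩
  obtain ⟨α, hα⟩ := IsAlgClosed.exists_root p
    (fun e => by rw [Polynomial.natDegree_eq_zero_iff_degree_le_zero.mpr e.le] at hdeg; omega)
  obtain ⟨q, hq⟩ := Polynomial.dvd_iff_isRoot.mpr hα
  have hq0 : q ≠ 0 := fun e => hp (by simp [hq, e])
  have hqd : q.natDegree < n := by
    rw [← hdeg, hq, Polynomial.natDegree_mul (Polynomial.X_sub_C_ne_zero α) hq0,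
      Polynomial.natDegree_X_sub_C]
    omega
  obtain ⟨c, hc, hcO, hcr, hcE⟩ := ih q.natDegree hqd hq0 rfl
  set Q := aeval u (Polynomial.C c * q) with hQ
  have hQ0 : Q ≠ 0 := fun e => hcr 0 (by simp [e])
  by_cases hαA : α ∈ A
  · set y := u - algebraMap L F α with hy
    have heq : aeval u (Polynomial.C c * p) = y * Q := by
      rw [hQ, hy, hq]
      simp only [map_mul, map_sub, Polynomial.aeval_X, Polynomial.aeval_C]
      ring
    have hyO : y ∈ D.O := sub_mem h.u_mem (algebraMap_mem_O (⟨α, hαA⟩ : A))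
    have hyr : ∀ i, D.red i y ≠ 0 := fun i => by
      rw [hy, D.red_sub (D.mem_of_mem_O h.u_mem i) (D.algebraMap_mem i ⟨α, hαA⟩), h.red_u,
        show algebraMap L F α = algebraMap L F ((⟨α, hαA⟩ : A) : L) from rfl, D.red_algebraMap]
      exact sub_algebraMap_ubar_ne_zero h _
    refine ⟨c, hc, ?_⟩
    rw [heq]
    exact ⟨mul_mem hyO hcO, fun i => by
      rw [D.red_mul (D.mem_of_mem_O hyO i) (D.mem_of_mem_O hcO i)]
      exact mul_ne_zero (hyr i) (hcr i),
      CountEq.mul h (countEq_sub h ⟨α, hαA⟩) hcE (sub_algebraMap_u_ne_zero h α) hQ0 hyO hcO hyr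
        hcr⟩
  · have hα0 : α ≠ 0 := fun e => hαA (e ▸ zero_mem A)
    set a : A := ⟨α⁻¹, (A.mem_or_inv_mem _).resolve_left hαA⟩
    have hπ : π a = 0 :=
      D.residue_eq_zero_of_nonunit a (BAD.TwoBranch.inv_mem_nonunits_of_notMem hαA)
    set y := algebraMap L F a * u - 1 with hy
    have hau := mul_mem (algebraMap_mem_O (D := D) a) h.u_mem
    have hyO : y ∈ D.O := sub_mem hau (one_mem _)
    have hred : ∀ i, D.red i y = -1 := fun i => by
      rw [hy, D.red_sub (D.mem_of_mem_O hau i) (one_mem _),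
        D.red_mul (D.algebraMap_mem i a) (D.mem_of_mem_O h.u_mem i), D.red_algebraMap, hπ,
        map_zero, zero_mul, D.red_one, zero_sub]
    have hyr : ∀ i, D.red i y ≠ 0 := fun i => by rw [hred i]; simp
    have hy0 : y ≠ 0 := fun e => hyr 0 (by rw [e]; exact D.red_zero)
    have hyE : CountEq h y := by
      refine countEq_of_ord_eq_zero h (fun P hP => ?_) fun i x _ => ?_
      · have hv := (coordData_chart h).deg_one P
        have hmem := sub_mem (mul_mem (P.algebraMap_mem' α⁻¹) hP.1)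
          (one_mem P.toValuationSubring)
        refine ((pval_ne_zero_iff hv hmem).mp ?_).2
        rw [pval_sub hv (mul_mem (P.algebraMap_mem' _) hP.1) (one_mem _), pval_one hv,
          pval_mul hv (P.algebraMap_mem' _) hP.1, pval_algebraMap hv, sub_ne_zero,
          ne_eq, inv_mul_eq_one₀ hα0]
        exact fun e => hαA (e ▸ hP.2)
      · rw [hred i]
        simpa using ord_algebraMap' x (-1 : k)
    have heq : aeval u (Polynomial.C (c * α⁻¹) * p) = y * Q := by
      rw [hQ, hy, hq, show (a : L) = α⁻¹ from rfl]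
      simp only [map_mul, map_sub, Polynomial.aeval_X, Polynomial.aeval_C]
      have : algebraMap L F α⁻¹ * algebraMap L F α = 1 := by
        rw [← map_mul, inv_mul_cancel₀ hα0, map_one]
      linear_combination (-(algebraMap L F c * aeval u q)) * this
    refine ⟨c * α⁻¹, mul_ne_zero hc (inv_ne_zero hα0), ?_⟩
    rw [heq]
    exact ⟨mul_mem hyO hcO, fun i => by
      rw [D.red_mul (D.mem_of_mem_O hyO i) (D.mem_of_mem_O hcO i)]
      exact mul_ne_zero (hyr i) (hcr i), CountEq.mul h hyE hcE hy0 hQ0 hyO hcO hyr hcr⟩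

omit [IsAlgClosed k] in
/-- The product of the `u - u(P)` over a divisor. -/
theorem exists_polynomial_bound (E : Divisor L F) :
    ∃ p : L[X], p ≠ 0 ∧ ∀ P : Place L F, u ∈ P.toValuationSubring →
      (E P : ℤ) ≤ P.ord (Polynomial.aeval u p) := by
  classical
  refine ⟨∏ P ∈ E.support, (Polynomial.X - Polynomial.C (pval P u)) ^ (E P).toNat,
    Finset.prod_ne_zero_iff.mpr fun P _ => pow_ne_zero _ (Polynomial.X_sub_C_ne_zero _),
    fun P hP => ?_⟩
  have hne : ∀ P', (u - algebraMap L F (pval P' u)) ≠ 0 :=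
    fun P' => sub_algebraMap_u_ne_zero h _
  simp only [map_prod, map_pow, map_sub, Polynomial.aeval_X, Polynomial.aeval_C]
  rw [ord_prod' _ _ _ (fun P' _ => pow_ne_zero _ (hne P'))]
  have hnn : ∀ P' ∈ E.support, 0 ≤ P.ord ((u - algebraMap L F (pval P' u)) ^ (E P').toNat) :=
    fun P' _ => ord_nonneg_of_mem P (pow_mem (sub_mem hP (P.algebraMap_mem' _)) _)
  by_cases hsupp : P ∈ E.support
  · refine le_trans ?_ (Finset.single_le_sum hnn hsupp)
    rw [ord_pow' P (hne P)]
    refine le_trans (Int.self_le_toNat _) (le_mul_of_one_le_right (Int.natCast_nonneg _) ?_)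
    exact (pval_sub_algebraMap ((coordData_chart h).deg_one P) hP).resolve_left (hne P)
  · rw [Finsupp.notMem_support_iff.mp hsupp]
    exact Finset.sum_nonneg hnn

omit [IsAlgClosed k] [IsAlgClosed L] [FF.IsFunctionField L F] in
theorem ord_aeval_C_mul {c : L} (hc : c ≠ 0) {p : L[X]} (hp : p ≠ 0) (P : Place L F) :
    P.ord (aeval u (Polynomial.C c * p)) = P.ord (aeval u p) := by
  rw [map_mul, Polynomial.aeval_C,
    P.ord_mul (by simpa using hc) (fun e => h.transcendental_u ⟨p, hp, e⟩), ord_algebraMap',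
    zero_add]

/-- Orders are preserved for integral functions. -/
theorem countEq_of_mem {y : F} (hy : y ∈ coordRing L u) (hyO : y ∈ D.O)
    (h0 : ∀ i, D.red i y ≠ 0) : CountEq h y := by
  intro E hE z hz
  have hy0 : y ≠ 0 := fun e => h0 0 (by simp [e])
  obtain ⟨p, hp, hpb⟩ := exists_polynomial_bound h E
  obtain ⟨c, hc, hYO, hYr, hYE⟩ := exists_countEq_aeval h hp
  set Y := aeval u (Polynomial.C c * p) with hY
  have hY0 : Y ≠ 0 := fun e => hYr 0 (by simp [e])
  have hinv := D.inv_mem_O hyO h0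
  obtain ⟨E', hE'⟩ := exists_isDivisorOf (L := L) (mul_ne_zero hY0 (inv_ne_zero hy0))
  have hint : Y * y⁻¹ ∈ coordRing L u :=
    (coordData_chart h).mem_coordRing_of_forall _ fun P hP => mem_of_ord_nonneg P (by
      rw [P.ord_mul hY0 (inv_ne_zero hy0), P.ord_inv, hY, ord_aeval_C_mul h hc hp, ← hE P]
      linarith [hpb P hP])
  have hO' : Y * y⁻¹ ∈ D.O := mul_mem hYO hinv
  have h0' : ∀ i, D.red i (Y * y⁻¹) ≠ 0 := fun i => by
    rw [D.red_mul (D.mem_of_mem_O hYO i) (D.mem_of_mem_O hinv i),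
      D.red_inv (D.mem_of_mem_O hyO i) (h0 i)]
    exact mul_ne_zero (hYr i) (inv_ne_zero (h0 i))
  have h1 := classOrd_le_specSum h hy hyO h0 hE hz
  have h2 := classOrd_le_specSum h hint hO' h0' hE' hz
  have hprod : y * (Y * y⁻¹) = Y := by field_simp
  have hred : D.red2 Y = D.red2 y * D.red2 (Y * y⁻¹) := by
    conv_lhs => rw [← hprod]
    exact funext fun i => D.red_mul (D.mem_of_mem_O hyO i) (D.mem_of_mem_O hO' i)
  have h3 := hYE (E + E') (fun P => by
    rw [isDivisorOf_mul hE hE' hy0 (mul_ne_zero hY0 (inv_ne_zero hy0)) P, hprod]) z hz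
  have hmul : classOrd h z (D.red2 y * D.red2 (Y * y⁻¹)) =
      classOrd h z (D.red2 y) + classOrd h z (D.red2 (Y * y⁻¹)) := classOrd_mul h z h0 h0'
  rw [map_add, hred, hmul] at h3
  omega

/-- Orders are preserved for every function with nonzero reductions. -/
theorem countEq {f : F} (hf : f ∈ D.O) (h0 : ∀ i, D.red i f ≠ 0) : CountEq h f := by
  have hf0 : f ≠ 0 := fun e => h0 0 (by simp [e])
  obtain ⟨E, hE⟩ := exists_isDivisorOf (L := L) hf0
  obtain ⟨p, hp, hpb⟩ := exists_polynomial_bound h (-E)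
  obtain ⟨c, hc, hYO, hYr, hYE⟩ := exists_countEq_aeval h hp
  set Y := aeval u (Polynomial.C c * p) with hY
  have hY0 : Y ≠ 0 := fun e => hYr 0 (by simp [e])
  have hint : Y * f ∈ coordRing L u :=
    (coordData_chart h).mem_coordRing_of_forall _ fun P hP => mem_of_ord_nonneg P (by
      rw [P.ord_mul hY0 hf0, hY, ord_aeval_C_mul h hc hp, ← hE P]
      have := hpb P hP
      rw [Finsupp.neg_apply] at this
      linarith)
  have hr : ∀ i, D.red i (Y * f) ≠ 0 := fun i => by
    rw [D.red_mul (D.mem_of_mem_O hYO i) (D.mem_of_mem_O hf i)]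
    exact mul_ne_zero (hYr i) (h0 i)
  exact CountEq.of_mul_left h hYE (countEq_of_mem h hint (mul_mem hYO hf) hr) hY0 hf0 hYO hf
    hYr h0

end Fermat.Agent.LLp
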